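/-
S55 / module LDB (local base case).  Common definitions of the ABSTRACT layer.

Language ("On"-style): one ambient group `G`, a family `𝒪` of "open" subgroups, a multiplicative
`G`-module `A`.  A cochain on an open subgroup `U` is a function on the WHOLE group `G`
(junk outside `U`); all identities are quantified over elements of `U` only.  Restriction to a
smaller subgroup is therefore the identity on functions.
-/
import Mathlib

set_option autoImplicit false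

namespace Fermat.Agent.S55.LDB

/-- A family of "open" subgroups of a group (think: open subgroups of a profinite group). -/
structure OpenFam (G : Type*) [Group G] where
  isOpen : Subgroup G → Prop
  isOpen_top : isOpen ⊤
  inf : ∀ {U V : Subgroup G}, isOpen U → isOpen V → isOpen (U ⊓ V)
  mono : ∀ {U V : Subgroup G}, isOpen U → U ≤ V → isOpen V
  exists_normal : ∀ {U : Subgroup G}, isOpen U → ∃ N : Subgroup G, N.Normal ∧ isOpen N ∧ N ≤ U
  finiteIndex : ∀ {U : Subgroup G}, isOpen U → U.FiniteIndex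

section
variable {G : Type*} [Group G] (𝒪 : OpenFam G)

/-- `f` is a smooth (uniformly locally constant) 1-cochain on `U`. -/
def Sm₁ {X : Type*} (U : Subgroup G) (f : G → X) : Prop :=
  ∃ N : Subgroup G, 𝒪.isOpen N ∧ N ≤ U ∧ ∀ g ∈ U, ∀ s ∈ N, f (g * s) = f g

/-- `f` is a smooth 2-cochain on `U`. -/
def Sm₂ {X : Type*} (U : Subgroup G) (f : G × G → X) : Prop :=
  ∃ N : Subgroup G, 𝒪.isOpen N ∧ N ≤ U ∧
    ∀ g ∈ U, ∀ h ∈ U, ∀ s ∈ N, ∀ t ∈ N, f (g * s, h * t) = f (g, h)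

/-- `V` is a normal subgroup of `U`. -/
def NormalIn (V U : Subgroup G) : Prop :=
  V ≤ U ∧ ∀ g ∈ U, ∀ v ∈ V, g * v * g⁻¹ ∈ V

/-- `χ` is additive on `U`. -/
def HomOn {n : ℕ} (U : Subgroup G) (χ : G → ZMod n) : Prop :=
  ∀ g ∈ U, ∀ h ∈ U, χ (g * h) = χ g + χ h

/-- a smooth character of `U` with values in `ZMod n`. -/
structure IsChar {n : ℕ} (U : Subgroup G) (χ : G → ZMod n) : Prop where
  hom : HomOn U χ
  sm : Sm₁ 𝒪 U χ

/-- the kernel of a character of `U`, as a subgroup of `G`. -/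
def kerOn {n : ℕ} (U : Subgroup G) (χ : G → ZMod n) (h : HomOn U χ) : Subgroup G where
  carrier := {g | g ∈ U ∧ χ g = 0}
  mul_mem' := by
    rintro a b ⟨ha, ha0⟩ ⟨hb, hb0⟩
    exact ⟨U.mul_mem ha hb, by rw [h a ha b hb, ha0, hb0, add_zero]⟩
  one_mem' := by
    refine ⟨U.one_mem, ?_⟩
    have := h 1 U.one_mem 1 U.one_mem
    rw [mul_one] at this
    exact (add_eq_left.mp this.symm)
  inv_mem' := by
    rintro a ⟨ha, ha0⟩
    refine ⟨U.inv_mem ha, ?_⟩
    have h1 : χ (1 : G) = 0 := by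
      have := h 1 U.one_mem 1 U.one_mem
      rw [mul_one] at this
      exact (add_eq_left.mp this.symm)
    have := h a ha a⁻¹ (U.inv_mem ha)
    rw [mul_inv_cancel, h1, ha0, zero_add] at this
    exact this.symm

lemma mem_kerOn {n : ℕ} {U : Subgroup G} {χ : G → ZMod n} (h : HomOn U χ) {g : G} :
    g ∈ kerOn U χ h ↔ g ∈ U ∧ χ g = 0 := Iff.rfl

variable {A : Type*} [CommGroup A] [MulDistribMulAction G A]

/-- `a ∈ A^U`. -/
def Fix (U : Subgroup G) (a : A) : Prop := ∀ g ∈ U, g • a = a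

/-- 1-cocycle on `U` (Mathlib convention `IsMulCocycle₁`). -/
def Coc₁ (U : Subgroup G) (β : G → A) : Prop :=
  ∀ g ∈ U, ∀ h ∈ U, β (g * h) = g • β h * β g

/-- 2-cocycle on `U` (Mathlib convention `IsMulCocycle₂`). -/
def Coc₂ (U : Subgroup G) (f : G × G → A) : Prop :=
  ∀ g ∈ U, ∀ h ∈ U, ∀ j ∈ U, f (g * h, j) * f (g, h) = g • f (h, j) * f (g, h * j)

/-- the coboundary of a 1-cochain (Mathlib convention `IsMulCoboundary₂`). -/
def dOne (β : G → A) : G × G → A := fun x => x.1 • β x.2 / β (x.1 * x.2) * β x.1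

/-- smooth 2-cocycle on `U`. -/
structure IsZ2 (U : Subgroup G) (f : G × G → A) : Prop where
  sm : Sm₂ 𝒪 U f
  coc : Coc₂ U f

/-- `f` is the coboundary, on `U`, of a smooth 1-cochain. -/
def Cob₂ (U : Subgroup G) (f : G × G → A) : Prop :=
  ∃ β : G → A, Sm₁ 𝒪 U β ∧ ∀ g ∈ U, ∀ h ∈ U, dOne β (g, h) = f (g, h)

/-- `f` and `f'` are smoothly cohomologous on `U`. -/
def Eqv (U : Subgroup G) (f f' : G × G → A) : Prop := Cob₂ 𝒪 U (f / f')

/-- Hilbert 90 for the open subgroup `U`. -/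
def H90 (A : Type*) [CommGroup A] [MulDistribMulAction G A] (U : Subgroup G) : Prop :=
  ∀ β : G → A, Sm₁ 𝒪 U β → Coc₁ U β → ∃ a : A, ∀ g ∈ U, β g = g • a / a

/-- the carry of the addition in `ZMod n`. -/
def carry {n : ℕ} (x y : ZMod n) : ℕ := if n ≤ x.val + y.val then 1 else 0

/-- the cyclic cocycle `c(χ,b)`. -/
def cyc {n : ℕ} (χ : G → ZMod n) (b : A) : G × G → A := fun x => b ^ carry (χ x.1) (χ x.2)

/-- `∏_{i<n} σ^i x`. -/
def nrm (σ : G) (n : ℕ) (x : A) : A := ∏ i ∈ Finset.range n, σ ^ i • x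

/-- `b` is a norm from the fixed module of the kernel of the (surjective) character `χ` of `U`. -/
def IsNm {n : ℕ} (U : Subgroup G) (χ : G → ZMod n) (b : A) : Prop :=
  ∃ σ ∈ U, χ σ = 1 ∧ ∃ x : A, (∀ g ∈ U, χ g = 0 → g • x = x) ∧ nrm σ n x = b

end

/-- "Field formation" axioms: smooth module, Hilbert 90, `p`-divisible, `A[p]` cyclic of order `p`. -/
structure FieldFormation (p : ℕ) {G : Type*} [Group G] (𝒪 : OpenFam G)
    (A : Type*) [CommGroup A] [MulDistribMulAction G A] where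
  smooth : ∀ a : A, ∃ N : Subgroup G, 𝒪.isOpen N ∧ Fix N a
  h90 : ∀ U : Subgroup G, 𝒪.isOpen U → H90 𝒪 A U
  div : ∀ a : A, ∃ b : A, b ^ p = a
  ζ : A
  ζ_pow : ζ ^ p = 1
  ζ_ne : ζ ≠ 1
  ζ_gen : ∀ z : A, z ^ p = 1 → ∃ i : ℕ, z = ζ ^ i

/-- "Local formation" axioms (what module LOC has to provide for `G = Gal(Ω/ℚ_q)`, `A = Ωˣ`). -/
structure LocalFormation (p : ℕ) {G : Type*} [Group G] (𝒪 : OpenFam G)
    (A : Type*) [CommGroup A] [MulDistribMulAction G A] extends FieldFormation p 𝒪 A where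
  /-- normalised valuation of the field belonging to `U` (only meaningful on `A^U`) -/
  ord : Subgroup G → A → ℤ
  ord_mul : ∀ U, 𝒪.isOpen U → ∀ a b : A, Fix U a → Fix U b → ord U (a * b) = ord U a + ord U b
  exists_unif : ∀ U, 𝒪.isOpen U → ∃ π : A, Fix U π ∧ ord U π = 1
  ord_smul : ∀ N, 𝒪.isOpen N → N.Normal → ∀ (g : G) (a : A), Fix N a → ord N (g • a) = ord N a
  /-- the unramified character of `U` with values in `ZMod n` (Frobenius ↦ 1) -/
  nr : Subgroup G → (n : ℕ) → G → ZMod n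
  nr_char : ∀ U, 𝒪.isOpen U → ∀ n, n ≠ 0 → IsChar 𝒪 U (nr U n)
  nr_surj : ∀ U, 𝒪.isOpen U → ∀ n, n ≠ 0 → ∃ σ ∈ U, nr U n σ = 1
  nr_cast : ∀ U, 𝒪.isOpen U → ∀ n m, n ≠ 0 → m ≠ 0 → ∀ g ∈ U,
    ZMod.castHom (Dvd.intro m rfl : n ∣ n * m) (ZMod n) (nr U (n * m) g) = nr U n g
  /-- ramification index and residue degree -/
  ef : ∀ U V, 𝒪.isOpen U → 𝒪.isOpen V → V ≤ U → ∃ e f : ℕ, e * f = V.relIndex U ∧
    (∀ a : A, Fix U a → ord V a = e * ord U a) ∧
    (∀ n, n ≠ 0 → ∀ g ∈ V, nr U n g = f * nr V n g)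
  /-- norm groups of unramified extensions of `p`-power degree -/
  norm_nr : ∀ U, 𝒪.isOpen U → ∀ k : ℕ, ∀ b : A, Fix U b →
    (IsNm U (nr U (p ^ k)) b ↔ ((p ^ k : ℕ) : ℤ) ∣ ord U b)
  /-- the norm index of a cyclic extension of degree `p` is `p` -/
  idx_ne : ∀ U, 𝒪.isOpen U → ∀ ψ : G → ZMod p, IsChar 𝒪 U ψ → (∃ σ ∈ U, ψ σ = 1) →
    ∃ b : A, Fix U b ∧ ¬ IsNm U ψ b
  idx_gen : ∀ U, 𝒪.isOpen U → ∀ ψ : G → ZMod p, IsChar 𝒪 U ψ → (∃ σ ∈ U, ψ σ = 1) →
    ∀ b₀ b : A, Fix U b₀ → Fix U b → ¬ IsNm U ψ b₀ → ∃ j : ℕ, IsNm U ψ (b * b₀ ^ j)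

end Fermat.Agent.S55.LDB
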