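/-
S55 / LDB : basic API for smooth functions (abstract layer).
-/
import Fermat.Agent.S55.LDB.Defs

set_option autoImplicit false
set_option linter.unusedSectionVars false

namespace Fermat.Agent.S55.LDB

variable {G : Type*} [Group G] {𝒪 : OpenFam G}

section Sm
variable {X Y Z : Type*} {U V : Subgroup G}

lemma Sm₁.isOpen {f : G → X} (h : Sm₁ 𝒪 U f) : 𝒪.isOpen U := by
  obtain ⟨N, hN, hNU, -⟩ := h
  exact 𝒪.mono hN hNU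

lemma Sm₂.isOpen {f : G × G → X} (h : Sm₂ 𝒪 U f) : 𝒪.isOpen U := by
  obtain ⟨N, hN, hNU, -⟩ := h
  exact 𝒪.mono hN hNU

/-- the level can be chosen normal in `G`. -/
lemma Sm₁.exists_normal {f : G → X} (h : Sm₁ 𝒪 U f) :
    ∃ N : Subgroup G, N.Normal ∧ 𝒪.isOpen N ∧ N ≤ U ∧ ∀ g ∈ U, ∀ s ∈ N, f (g * s) = f g := by
  obtain ⟨N, hN, hNU, hf⟩ := h
  obtain ⟨N', hn, ho, hle⟩ := 𝒪.exists_normal hN
  exact ⟨N', hn, ho, hle.trans hNU, fun g hg s hs => hf g hg s (hle hs)⟩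

lemma Sm₂.exists_normal {f : G × G → X} (h : Sm₂ 𝒪 U f) :
    ∃ N : Subgroup G, N.Normal ∧ 𝒪.isOpen N ∧ N ≤ U ∧
      ∀ g ∈ U, ∀ h ∈ U, ∀ s ∈ N, ∀ t ∈ N, f (g * s, h * t) = f (g, h) := by
  obtain ⟨N, hN, hNU, hf⟩ := h
  obtain ⟨N', hn, ho, hle⟩ := 𝒪.exists_normal hN
  exact ⟨N', hn, ho, hle.trans hNU, fun g hg h hh s hs t ht => hf g hg h hh s (hle hs) t (hle ht)⟩

lemma Sm₁.const (hU : 𝒪.isOpen U) (x : X) : Sm₁ 𝒪 U (fun _ : G => x) := by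
  exact ⟨U, hU, le_rfl, fun _ _ _ _ => rfl⟩

lemma Sm₂.const (hU : 𝒪.isOpen U) (x : X) : Sm₂ 𝒪 U (fun _ : G × G => x) := by
  exact ⟨U, hU, le_rfl, fun _ _ _ _ _ _ _ _ => rfl⟩

lemma Sm₁.comp {f : G → X} (h : Sm₁ 𝒪 U f) (φ : X → Y) : Sm₁ 𝒪 U (fun g => φ (f g)) := by
  obtain ⟨N, hN, hNU, hf⟩ := h
  exact ⟨N, hN, hNU, fun g hg s hs => congrArg φ (hf g hg s hs)⟩

lemma Sm₂.comp {f : G × G → X} (h : Sm₂ 𝒪 U f) (φ : X → Y) : Sm₂ 𝒪 U (fun g => φ (f g)) := by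
  obtain ⟨N, hN, hNU, hf⟩ := h
  exact ⟨N, hN, hNU, fun g hg h hh s hs t ht => congrArg φ (hf g hg h hh s hs t ht)⟩

lemma Sm₁.comp₂ {f : G → X} {f' : G → Y} (h : Sm₁ 𝒪 U f) (h' : Sm₁ 𝒪 U f') (φ : X → Y → Z) :
    Sm₁ 𝒪 U (fun g => φ (f g) (f' g)) := by
  obtain ⟨N, hN, hNU, hf⟩ := h
  obtain ⟨N', hN', -, hf'⟩ := h'
  refine ⟨N ⊓ N', 𝒪.inf hN hN', inf_le_left.trans hNU, fun g hg s hs => ?_⟩
  simp only [hf g hg s hs.1, hf' g hg s hs.2]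

lemma Sm₂.comp₂ {f : G × G → X} {f' : G × G → Y} (h : Sm₂ 𝒪 U f) (h' : Sm₂ 𝒪 U f')
    (φ : X → Y → Z) : Sm₂ 𝒪 U (fun g => φ (f g) (f' g)) := by
  obtain ⟨N, hN, hNU, hf⟩ := h
  obtain ⟨N', hN', -, hf'⟩ := h'
  refine ⟨N ⊓ N', 𝒪.inf hN hN', inf_le_left.trans hNU, fun g hg h hh s hs t ht => ?_⟩
  simp only [hf g hg h hh s hs.1 t ht.1, hf' g hg h hh s hs.2 t ht.2]

lemma Sm₁.mono {f : G → X} (h : Sm₁ 𝒪 U f) (hV : 𝒪.isOpen V) (hVU : V ≤ U) : Sm₁ 𝒪 V f := by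
  obtain ⟨N, hN, -, hf⟩ := h
  exact ⟨N ⊓ V, 𝒪.inf hN hV, inf_le_right, fun g hg s hs => hf g (hVU hg) s hs.1⟩

lemma Sm₂.mono {f : G × G → X} (h : Sm₂ 𝒪 U f) (hV : 𝒪.isOpen V) (hVU : V ≤ U) :
    Sm₂ 𝒪 V f := by
  obtain ⟨N, hN, -, hf⟩ := h
  exact ⟨N ⊓ V, 𝒪.inf hN hV, inf_le_right,
    fun g hg h hh s hs t ht => hf g (hVU hg) h (hVU hh) s hs.1 t ht.1⟩

lemma Sm₁.congr {f f' : G → X} (h : Sm₁ 𝒪 U f) (hff' : ∀ g ∈ U, f g = f' g) : Sm₁ 𝒪 U f' := by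
  obtain ⟨N, hN, hNU, hf⟩ := h
  refine ⟨N, hN, hNU, fun g hg s hs => ?_⟩
  rw [← hff' g hg, ← hff' (g * s) (U.mul_mem hg (hNU hs)), hf g hg s hs]

lemma Sm₂.congr {f f' : G × G → X} (h : Sm₂ 𝒪 U f)
    (hff' : ∀ g ∈ U, ∀ h ∈ U, f (g, h) = f' (g, h)) : Sm₂ 𝒪 U f' := by
  obtain ⟨N, hN, hNU, hf⟩ := h
  refine ⟨N, hN, hNU, fun g hg h hh s hs t ht => ?_⟩
  rw [← hff' g hg h hh, ← hff' (g * s) (U.mul_mem hg (hNU hs)) (h * t) (U.mul_mem hh (hNU ht)),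
    hf g hg h hh s hs t ht]

lemma Sm₁.fst {f : G → X} (h : Sm₁ 𝒪 U f) : Sm₂ 𝒪 U (fun x : G × G => f x.1) := by
  obtain ⟨N, hN, hNU, hf⟩ := h
  exact ⟨N, hN, hNU, fun g hg _ _ s hs _ _ => hf g hg s hs⟩

lemma Sm₁.snd {f : G → X} (h : Sm₁ 𝒪 U f) : Sm₂ 𝒪 U (fun x : G × G => f x.2) := by
  obtain ⟨N, hN, hNU, hf⟩ := h
  exact ⟨N, hN, hNU, fun _ _ h hh _ _ t ht => hf h hh t ht⟩

lemma Sm₁.mul_arg {f : G → X} (h : Sm₁ 𝒪 U f) : Sm₂ 𝒪 U (fun x : G × G => f (x.1 * x.2)) := by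
  obtain ⟨N, hn, hN, hNU, hf⟩ := h.exists_normal
  refine ⟨N, hN, hNU, fun g hg h hh s hs t ht => ?_⟩
  have h1 : h⁻¹ * s * h ∈ N := by
    have := hn.conj_mem s hs h⁻¹
    rwa [inv_inv] at this
  have h2 : g * s * (h * t) = g * h * (h⁻¹ * s * h * t) := by group
  simp only [h2]
  exact hf (g * h) (U.mul_mem hg hh) _ (N.mul_mem h1 ht)

/-- fixing the first variable. -/
lemma Sm₂.right {f : G × G → X} (h : Sm₂ 𝒪 U f) {g : G} (hg : g ∈ U) :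
    Sm₁ 𝒪 U (fun x => f (g, x)) := by
  obtain ⟨N, hN, hNU, hf⟩ := h
  refine ⟨N, hN, hNU, fun x hx s hs => ?_⟩
  have := hf g hg x hx 1 N.one_mem s hs
  rwa [mul_one] at this

/-- fixing the second variable. -/
lemma Sm₂.left {f : G × G → X} (h : Sm₂ 𝒪 U f) {g : G} (hg : g ∈ U) :
    Sm₁ 𝒪 U (fun x => f (x, g)) := by
  obtain ⟨N, hN, hNU, hf⟩ := h
  refine ⟨N, hN, hNU, fun x hx s hs => ?_⟩
  have := hf x hx g hg s hs 1 N.one_mem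
  rwa [mul_one] at this

/-- extension by a constant outside an open subgroup. -/
lemma Sm₁.extend [DecidablePred (· ∈ V)] {f : G → X} (h : Sm₁ 𝒪 V f) (hU : 𝒪.isOpen U)
    (hVU : V ≤ U) (x : X) : Sm₁ 𝒪 U (fun g => if g ∈ V then f g else x) := by
  obtain ⟨N, hN, hNV, hf⟩ := h
  refine ⟨N, hN, hNV.trans hVU, fun g _ s hs => ?_⟩
  have hiff : g * s ∈ V ↔ g ∈ V := V.mul_mem_cancel_right (hNV hs)
  by_cases hg : g ∈ V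
  · simp only [hiff.2 hg, hg, if_true]
    exact hf g hg s hs
  · have h' : ¬ g * s ∈ V := fun h => hg (hiff.1 h)
    simp only [h', hg, if_false]

/-- a smooth function on `U` takes finitely many values on `U`. -/
lemma Sm₁.finite_image {f : G → X} (h : Sm₁ 𝒪 U f) : (f '' (U : Set G)).Finite := by
  obtain ⟨N, hN, hNU, hf⟩ := h
  have : N.FiniteIndex := 𝒪.finiteIndex hN
  have hfin : Finite (G ⧸ N) := Subgroup.finite_quotient_of_finiteIndex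
  refine (Set.finite_range (fun q : G ⧸ N => f q.out)).subset ?_
  rintro _ ⟨g, hg, rfl⟩
  obtain ⟨n, hn⟩ := QuotientGroup.mk_out_eq_mul N g
  exact ⟨QuotientGroup.mk g, by simp only [hn]; exact hf g hg n n.2⟩

/-- a function on `U` which is constant on the left cosets of an open subgroup `V ≤ U`. -/
lemma Sm₁.of_coset {f : G → X} (hV : 𝒪.isOpen V) (hVU : V ≤ U)
    (h : ∀ g ∈ U, ∀ v ∈ V, f (g * v) = f g) : Sm₁ 𝒪 U f :=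
  ⟨V, hV, hVU, h⟩

end Sm

end Fermat.Agent.S55.LDB
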