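/-
S55 / LDB : basic API for cocycles / coboundaries (abstract layer).
-/
import Fermat.Agent.S55.LDB.Sm

set_option autoImplicit false
set_option linter.unusedSectionVars false

namespace Fermat.Agent.S55.LDB

variable {G : Type*} [Group G] {𝒪 : OpenFam G}


section Mod
variable {A : Type*} [CommGroup A] [MulDistribMulAction G A] {U V : Subgroup G}

lemma Fix.one : Fix U (1 : A) := by
  exact fun g _ => smul_one g

lemma Fix.mul {a b : A} (ha : Fix U a) (hb : Fix U b) : Fix U (a * b) := by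
  intro g hg
  rw [smul_mul', ha g hg, hb g hg]

lemma Fix.inv {a : A} (ha : Fix U a) : Fix U a⁻¹ := by
  intro g hg
  rw [smul_inv', ha g hg]

lemma Fix.div {a b : A} (ha : Fix U a) (hb : Fix U b) : Fix U (a / b) := by
  intro g hg
  rw [smul_div', ha g hg, hb g hg]

lemma Fix.pow {a : A} (ha : Fix U a) (k : ℕ) : Fix U (a ^ k) := by
  intro g hg
  rw [smul_pow', ha g hg]

lemma Fix.zpow {a : A} (ha : Fix U a) (k : ℤ) : Fix U (a ^ k) := by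
  cases k with
  | ofNat m => rw [Int.ofNat_eq_natCast, zpow_natCast]; exact ha.pow m
  | negSucc m => rw [zpow_negSucc]; exact (ha.pow _).inv

lemma Fix.mono {a : A} (ha : Fix U a) (h : V ≤ U) : Fix V a := by
  exact fun g hg => ha g (h hg)

/-- `A^V` is stable under `U` if `V` is normal in `U`. -/
lemma Fix.smul {a : A} (ha : Fix V a) (h : NormalIn V U) {g : G} (hg : g ∈ U) :
    Fix V (g • a) := by
  intro v hv
  have h1 : g⁻¹ * v * g ∈ V := by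
    have := h.2 g⁻¹ (U.inv_mem hg) v hv
    rwa [inv_inv] at this
  have h2 : v * g = g * (g⁻¹ * v * g) := by group
  rw [← mul_smul, h2, mul_smul, ha _ h1]

lemma Sm₁.mul {β β' : G → A} (h : Sm₁ 𝒪 U β) (h' : Sm₁ 𝒪 U β') : Sm₁ 𝒪 U (β * β') :=
  h.comp₂ h' (· * ·)

lemma Sm₁.inv {β : G → A} (h : Sm₁ 𝒪 U β) : Sm₁ 𝒪 U β⁻¹ :=
  h.comp (·⁻¹)

lemma Sm₁.div {β β' : G → A} (h : Sm₁ 𝒪 U β) (h' : Sm₁ 𝒪 U β') : Sm₁ 𝒪 U (β / β') :=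
  h.comp₂ h' (· / ·)

lemma Sm₁.pow {β : G → A} (h : Sm₁ 𝒪 U β) (k : ℕ) : Sm₁ 𝒪 U (β ^ k) :=
  h.comp (· ^ k)

lemma Sm₂.mul {f f' : G × G → A} (h : Sm₂ 𝒪 U f) (h' : Sm₂ 𝒪 U f') : Sm₂ 𝒪 U (f * f') :=
  h.comp₂ h' (· * ·)

lemma Sm₂.inv {f : G × G → A} (h : Sm₂ 𝒪 U f) : Sm₂ 𝒪 U f⁻¹ :=
  h.comp (·⁻¹)

lemma Sm₂.div {f f' : G × G → A} (h : Sm₂ 𝒪 U f) (h' : Sm₂ 𝒪 U f') : Sm₂ 𝒪 U (f / f') :=
  h.comp₂ h' (· / ·)

lemma Sm₂.pow {f : G × G → A} (h : Sm₂ 𝒪 U f) (k : ℕ) : Sm₂ 𝒪 U (f ^ k) :=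
  h.comp (· ^ k)

/-- `A` is a smooth `G`-module. -/
def SmoothMod (𝒪 : OpenFam G) (A : Type*) [CommGroup A] [MulDistribMulAction G A] : Prop :=
  ∀ a : A, ∃ N : Subgroup G, 𝒪.isOpen N ∧ Fix N a

/-- finitely many elements of a smooth module are fixed by a common open normal subgroup. -/
lemma SmoothMod.exists_fix_finite (hA : SmoothMod 𝒪 A) {S : Set A} (hS : S.Finite) :
    ∃ N : Subgroup G, N.Normal ∧ 𝒪.isOpen N ∧ ∀ a ∈ S, Fix N a := by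
  induction S, hS using Set.Finite.induction_on with
  | empty => exact ⟨⊤, inferInstance, 𝒪.isOpen_top, fun a ha => absurd ha (Set.notMem_empty a)⟩
  | @insert a S _ _ ih =>
    obtain ⟨N, hn, hN, hfix⟩ := ih
    obtain ⟨N₁, hN₁, hfix₁⟩ := hA a
    obtain ⟨N₂, hn₂, hN₂, hle⟩ := 𝒪.exists_normal hN₁
    refine ⟨N ⊓ N₂, Subgroup.normal_inf_normal N N₂, 𝒪.inf hN hN₂, ?_⟩
    rintro b (rfl | hb)
    · exact hfix₁.mono (inf_le_right.trans hle)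
    · exact (hfix b hb).mono inf_le_left

/-- `g ↦ g • a` is smooth. -/
lemma SmoothMod.sm_smul_const (hA : SmoothMod 𝒪 A) (hU : 𝒪.isOpen U) (a : A) :
    Sm₁ 𝒪 U (fun g => g • a) := by
  obtain ⟨N, hN, hfix⟩ := hA a
  refine ⟨N ⊓ U, 𝒪.inf hN hU, inf_le_right, fun g _ s hs => ?_⟩
  simp only [mul_smul, hfix s hs.1]

/-- `(g,h) ↦ g • β h` is smooth. -/
lemma SmoothMod.sm_smul (hA : SmoothMod 𝒪 A) {β : G → A} (h : Sm₁ 𝒪 U β) :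
    Sm₂ 𝒪 U (fun x : G × G => x.1 • β x.2) := by
  obtain ⟨N₁, -, hN₁, hfix⟩ := hA.exists_fix_finite h.finite_image
  obtain ⟨N₂, hN₂, hN₂U, hβ⟩ := h
  refine ⟨N₁ ⊓ N₂, 𝒪.inf hN₁ hN₂, inf_le_right.trans hN₂U, fun g _ h hh s hs t ht => ?_⟩
  simp only [hβ h hh t ht.2, mul_smul, hfix _ ⟨h, hh, rfl⟩ s hs.1]

lemma SmoothMod.sm_dOne (hA : SmoothMod 𝒪 A) {β : G → A} (h : Sm₁ 𝒪 U β) :
    Sm₂ 𝒪 U (dOne β) := by
  exact ((hA.sm_smul h).div h.mul_arg).mul h.fst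

lemma dOne_apply (β : G → A) (g h : G) : dOne β (g, h) = g • β h / β (g * h) * β g := rfl

lemma dOne_one : dOne (1 : G → A) = 1 := by
  funext x
  simp [dOne]

lemma dOne_mul (β β' : G → A) : dOne (β * β') = dOne β * dOne β' := by
  funext x
  simp only [dOne, Pi.mul_apply, smul_mul']
  apply Additive.ofMul.injective
  simp only [ofMul_mul, ofMul_div]
  abel

lemma dOne_inv (β : G → A) : dOne β⁻¹ = (dOne β)⁻¹ := by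
  funext x
  simp only [dOne, Pi.inv_apply, smul_inv']
  apply Additive.ofMul.injective
  simp only [ofMul_mul, ofMul_div, ofMul_inv]
  abel

lemma dOne_div (β β' : G → A) : dOne (β / β') = dOne β / dOne β' := by
  rw [div_eq_mul_inv, dOne_mul, dOne_inv, div_eq_mul_inv]

lemma dOne_pow (β : G → A) (k : ℕ) : dOne (β ^ k) = dOne β ^ k := by
  induction k with
  | zero => rw [pow_zero, pow_zero, dOne_one]
  | succ k ih => rw [pow_succ, pow_succ, dOne_mul, ih]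

/-- `d ∘ d = 1` in degree 0. -/
lemma dOne_kum (a : A) : dOne (fun g : G => g • a / a) = 1 := by
  funext x
  simp only [dOne, smul_div', mul_smul, Pi.one_apply]
  apply Additive.ofMul.injective
  simp only [ofMul_mul, ofMul_div, ofMul_one]
  abel

lemma coc₂_dOne (β : G → A) (U : Subgroup G) : Coc₂ U (dOne β) := by
  intro g _ h _ j _
  simp only [dOne_apply, smul_mul', smul_div', mul_smul, mul_assoc]
  apply Additive.ofMul.injective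
  simp only [ofMul_mul, ofMul_div]
  abel

lemma Coc₂.one : Coc₂ U (1 : G × G → A) := by
  intro g _ h _ j _
  simp

lemma Coc₂.mul {f f' : G × G → A} (h : Coc₂ U f) (h' : Coc₂ U f') : Coc₂ U (f * f') := by
  intro g hg x hx j hj
  simp only [Pi.mul_apply, smul_mul']
  rw [mul_mul_mul_comm, h g hg x hx j hj, h' g hg x hx j hj, mul_mul_mul_comm]

lemma Coc₂.inv {f : G × G → A} (h : Coc₂ U f) : Coc₂ U f⁻¹ := by
  intro g hg x hx j hj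
  simp only [Pi.inv_apply, smul_inv']
  rw [← mul_inv, h g hg x hx j hj, mul_inv]

lemma Coc₂.div {f f' : G × G → A} (h : Coc₂ U f) (h' : Coc₂ U f') : Coc₂ U (f / f') := by
  rw [div_eq_mul_inv]
  exact h.mul h'.inv

lemma Coc₂.pow {f : G × G → A} (h : Coc₂ U f) (k : ℕ) : Coc₂ U (f ^ k) := by
  intro g hg x hx j hj
  simp only [Pi.pow_apply, smul_pow']
  rw [← mul_pow, h g hg x hx j hj, mul_pow]

lemma Coc₂.mono {f : G × G → A} (h : Coc₂ U f) (hVU : V ≤ U) : Coc₂ V f := by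
  exact fun g hg x hx j hj => h g (hVU hg) x (hVU hx) j (hVU hj)

lemma Coc₂.congr {f f' : G × G → A} (h : Coc₂ U f)
    (hff' : ∀ g ∈ U, ∀ h ∈ U, f (g, h) = f' (g, h)) : Coc₂ U f' := by
  intro g hg x hx j hj
  rw [← hff' (g * x) (U.mul_mem hg hx) j hj, ← hff' g hg x hx, ← hff' x hx j hj,
    ← hff' g hg (x * j) (U.mul_mem hx hj)]
  exact h g hg x hx j hj

lemma Coc₂.map_one_fst {f : G × G → A} (h : Coc₂ U f) {g : G} (hg : g ∈ U) :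
    f (1, g) = f (1, 1) := by
  have := h 1 U.one_mem 1 U.one_mem g hg
  rw [mul_one, one_mul, one_smul] at this
  exact (mul_left_cancel this).symm

lemma Coc₂.map_one_snd {f : G × G → A} (h : Coc₂ U f) {g : G} (hg : g ∈ U) :
    f (g, 1) = g • f (1, 1) := by
  have := h g hg 1 U.one_mem 1 U.one_mem
  rw [mul_one, mul_one] at this
  exact mul_right_cancel this

lemma IsZ2.one (hU : 𝒪.isOpen U) : IsZ2 𝒪 U (1 : G × G → A) :=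
  ⟨Sm₂.const hU 1, Coc₂.one⟩

lemma IsZ2.mul {f f' : G × G → A} (h : IsZ2 𝒪 U f) (h' : IsZ2 𝒪 U f') : IsZ2 𝒪 U (f * f') :=
  ⟨h.sm.mul h'.sm, h.coc.mul h'.coc⟩

lemma IsZ2.inv {f : G × G → A} (h : IsZ2 𝒪 U f) : IsZ2 𝒪 U f⁻¹ :=
  ⟨h.sm.inv, h.coc.inv⟩

lemma IsZ2.div {f f' : G × G → A} (h : IsZ2 𝒪 U f) (h' : IsZ2 𝒪 U f') : IsZ2 𝒪 U (f / f') :=
  ⟨h.sm.div h'.sm, h.coc.div h'.coc⟩

lemma IsZ2.pow {f : G × G → A} (h : IsZ2 𝒪 U f) (k : ℕ) : IsZ2 𝒪 U (f ^ k) :=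
  ⟨h.sm.pow k, h.coc.pow k⟩

lemma IsZ2.mono {f : G × G → A} (h : IsZ2 𝒪 U f) (hV : 𝒪.isOpen V) (hVU : V ≤ U) :
    IsZ2 𝒪 V f :=
  ⟨h.sm.mono hV hVU, h.coc.mono hVU⟩

lemma IsZ2.congr {f f' : G × G → A} (h : IsZ2 𝒪 U f)
    (hff' : ∀ g ∈ U, ∀ h ∈ U, f (g, h) = f' (g, h)) : IsZ2 𝒪 U f' :=
  ⟨h.sm.congr hff', h.coc.congr hff'⟩

lemma IsZ2.dOne (hA : SmoothMod 𝒪 A) {β : G → A} (h : Sm₁ 𝒪 U β) : IsZ2 𝒪 U (dOne β) :=
  ⟨hA.sm_dOne h, coc₂_dOne β U⟩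

lemma Cob₂.isOpen {f : G × G → A} (h : Cob₂ 𝒪 U f) : 𝒪.isOpen U := by
  obtain ⟨β, hβ, -⟩ := h
  exact hβ.isOpen

lemma Cob₂.dOne {β : G → A} (h : Sm₁ 𝒪 U β) : Cob₂ 𝒪 U (dOne β) :=
  ⟨β, h, fun _ _ _ _ => rfl⟩

lemma Cob₂.one (hU : 𝒪.isOpen U) : Cob₂ 𝒪 U (1 : G × G → A) := by
  refine ⟨1, Sm₁.const hU 1, fun g _ h _ => ?_⟩
  rw [dOne_one]

lemma Cob₂.mul {f f' : G × G → A} (h : Cob₂ 𝒪 U f) (h' : Cob₂ 𝒪 U f') : Cob₂ 𝒪 U (f * f') := by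
  obtain ⟨β, hβ, hd⟩ := h
  obtain ⟨β', hβ', hd'⟩ := h'
  refine ⟨β * β', hβ.mul hβ', fun g hg x hx => ?_⟩
  rw [dOne_mul, Pi.mul_apply, Pi.mul_apply, hd g hg x hx, hd' g hg x hx]

lemma Cob₂.inv {f : G × G → A} (h : Cob₂ 𝒪 U f) : Cob₂ 𝒪 U f⁻¹ := by
  obtain ⟨β, hβ, hd⟩ := h
  refine ⟨β⁻¹, hβ.inv, fun g hg x hx => ?_⟩
  rw [dOne_inv, Pi.inv_apply, Pi.inv_apply, hd g hg x hx]

lemma Cob₂.div {f f' : G × G → A} (h : Cob₂ 𝒪 U f) (h' : Cob₂ 𝒪 U f') : Cob₂ 𝒪 U (f / f') := by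
  rw [div_eq_mul_inv]
  exact h.mul h'.inv

lemma Cob₂.pow {f : G × G → A} (h : Cob₂ 𝒪 U f) (k : ℕ) : Cob₂ 𝒪 U (f ^ k) := by
  obtain ⟨β, hβ, hd⟩ := h
  refine ⟨β ^ k, hβ.pow k, fun g hg x hx => ?_⟩
  rw [dOne_pow, Pi.pow_apply, Pi.pow_apply, hd g hg x hx]

lemma Cob₂.zpow {f : G × G → A} (h : Cob₂ 𝒪 U f) (k : ℤ) : Cob₂ 𝒪 U (f ^ k) := by
  cases k with
  | ofNat m => rw [Int.ofNat_eq_natCast, zpow_natCast]; exact h.pow m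
  | negSucc m => rw [zpow_negSucc]; exact (h.pow _).inv

lemma Cob₂.mono {f : G × G → A} (h : Cob₂ 𝒪 U f) (hV : 𝒪.isOpen V) (hVU : V ≤ U) :
    Cob₂ 𝒪 V f := by
  obtain ⟨β, hβ, hd⟩ := h
  exact ⟨β, hβ.mono hV hVU, fun g hg x hx => hd g (hVU hg) x (hVU hx)⟩

lemma Cob₂.congr {f f' : G × G → A} (h : Cob₂ 𝒪 U f)
    (hff' : ∀ g ∈ U, ∀ h ∈ U, f (g, h) = f' (g, h)) : Cob₂ 𝒪 U f' := by
  obtain ⟨β, hβ, hd⟩ := h
  exact ⟨β, hβ, fun g hg x hx => (hd g hg x hx).trans (hff' g hg x hx)⟩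

lemma Cob₂.isZ2 (hA : SmoothMod 𝒪 A) {f : G × G → A} (h : Cob₂ 𝒪 U f) : IsZ2 𝒪 U f := by
  obtain ⟨β, hβ, hd⟩ := h
  exact (IsZ2.dOne hA hβ).congr hd

/-- `f^m ~ 1`, `f^n ~ 1`, `gcd(m,n) = 1` ⟹ `f ~ 1`. -/
lemma Cob₂.of_pow_coprime {f : G × G → A} {m n : ℕ} (hm : Cob₂ 𝒪 U (f ^ m))
    (hn : Cob₂ 𝒪 U (f ^ n)) (hmn : Nat.Coprime m n) : Cob₂ 𝒪 U f := by
  have h1 : (1 : ℤ) = m * Nat.gcdA m n + n * Nat.gcdB m n := by
    have := Nat.gcd_eq_gcd_ab m n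
    rw [hmn] at this
    exact_mod_cast this
  have h2 : f = (f ^ m) ^ Nat.gcdA m n * (f ^ n) ^ Nat.gcdB m n := by
    rw [← zpow_natCast f m, ← zpow_natCast f n, ← zpow_mul, ← zpow_mul, ← zpow_add, ← h1, zpow_one]
  rw [h2]
  exact (hm.zpow _).mul (hn.zpow _)

lemma Eqv.refl (hU : 𝒪.isOpen U) (f : G × G → A) : Eqv 𝒪 U f f := by
  unfold Eqv
  rw [div_self']
  exact Cob₂.one hU

lemma Eqv.of_eq (hU : 𝒪.isOpen U) {f f' : G × G → A}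
    (h : ∀ g ∈ U, ∀ h ∈ U, f (g, h) = f' (g, h)) : Eqv 𝒪 U f f' := by
  refine (Cob₂.one hU).congr (fun g hg x hx => ?_)
  rw [Pi.div_apply, h g hg x hx, div_self', Pi.one_apply]

lemma Eqv.symm {f f' : G × G → A} (h : Eqv 𝒪 U f f') : Eqv 𝒪 U f' f := by
  unfold Eqv at h ⊢
  rw [← inv_div]
  exact h.inv

lemma Eqv.trans {f f' f'' : G × G → A} (h : Eqv 𝒪 U f f') (h' : Eqv 𝒪 U f' f'') :
    Eqv 𝒪 U f f'' := by
  unfold Eqv at h h' ⊢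
  rw [← div_mul_div_cancel f f' f'']
  exact h.mul h'

lemma Eqv.mul {f₁ f₁' f₂ f₂' : G × G → A} (h₁ : Eqv 𝒪 U f₁ f₁') (h₂ : Eqv 𝒪 U f₂ f₂') :
    Eqv 𝒪 U (f₁ * f₂) (f₁' * f₂') := by
  unfold Eqv at h₁ h₂ ⊢
  rw [mul_div_mul_comm]
  exact h₁.mul h₂

lemma Eqv.inv {f f' : G × G → A} (h : Eqv 𝒪 U f f') : Eqv 𝒪 U f⁻¹ f'⁻¹ := by
  unfold Eqv at h ⊢
  rw [inv_div_inv, ← inv_div]
  exact h.inv

lemma Eqv.div {f₁ f₁' f₂ f₂' : G × G → A} (h₁ : Eqv 𝒪 U f₁ f₁') (h₂ : Eqv 𝒪 U f₂ f₂') :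
    Eqv 𝒪 U (f₁ / f₂) (f₁' / f₂') := by
  unfold Eqv at h₁ h₂ ⊢
  rw [div_div_div_comm]
  exact h₁.div h₂

lemma Eqv.pow {f f' : G × G → A} (h : Eqv 𝒪 U f f') (k : ℕ) : Eqv 𝒪 U (f ^ k) (f' ^ k) := by
  unfold Eqv at h ⊢
  rw [← div_pow]
  exact h.pow k

lemma Eqv.zpow {f f' : G × G → A} (h : Eqv 𝒪 U f f') (k : ℤ) : Eqv 𝒪 U (f ^ k) (f' ^ k) := by
  unfold Eqv at h ⊢
  rw [← div_zpow]
  exact h.zpow k

lemma Eqv.mono {f f' : G × G → A} (h : Eqv 𝒪 U f f') (hV : 𝒪.isOpen V) (hVU : V ≤ U) :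
    Eqv 𝒪 V f f' := by
  exact Cob₂.mono h hV hVU

lemma eqv_one_iff {f : G × G → A} : Eqv 𝒪 U f 1 ↔ Cob₂ 𝒪 U f := by
  unfold Eqv
  rw [div_one]

lemma Eqv.cob_iff {f f' : G × G → A} (h : Eqv 𝒪 U f f') : Cob₂ 𝒪 U f ↔ Cob₂ 𝒪 U f' := by
  unfold Eqv at h
  constructor
  · intro hf
    have := hf.div h
    rwa [div_div_cancel] at this
  · intro hf'
    have := h.mul hf'
    rwa [div_mul_cancel] at this

lemma Eqv.isZ2 (hA : SmoothMod 𝒪 A) {f f' : G × G → A} (h : Eqv 𝒪 U f f') (hf : IsZ2 𝒪 U f) :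
    IsZ2 𝒪 U f' := by
  have := hf.div (Cob₂.isZ2 hA h)
  rwa [div_div_cancel] at this

/-- `f / dβ ~ f`. -/
lemma Eqv.div_dOne {β : G → A} (hβ : Sm₁ 𝒪 U β) (f : G × G → A) : Eqv 𝒪 U f (f / dOne β) := by
  unfold Eqv
  rw [div_div_cancel]
  exact Cob₂.dOne hβ

lemma Eqv.mul_dOne {β : G → A} (hβ : Sm₁ 𝒪 U β) (f : G × G → A) : Eqv 𝒪 U f (f * dOne β) := by
  unfold Eqv
  rw [div_mul_cancel_left]
  exact (Cob₂.dOne hβ).inv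

/-- a smooth 2-cocycle is a smooth coboundary on a small open normal subgroup. -/
lemma IsZ2.exists_split {f : G × G → A} (hf : IsZ2 𝒪 U f) :
    ∃ N : Subgroup G, N.Normal ∧ 𝒪.isOpen N ∧ N ≤ U ∧ Cob₂ 𝒪 N f := by
  obtain ⟨N, hn, hN, hNU, hsm⟩ := hf.sm.exists_normal
  have hc : ∀ g ∈ N, ∀ h ∈ N, f (g, h) = f (1, 1) := by
    intro g hg h hh
    have := hsm 1 U.one_mem 1 U.one_mem g hg h hh
    rwa [one_mul, one_mul] at this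
  have hfix : ∀ g ∈ N, g • f (1, 1) = f (1, 1) := by
    intro g hg
    rw [← hf.coc.map_one_snd (hNU hg), hc g hg 1 N.one_mem]
  refine ⟨N, hn, hN, hNU, fun _ => f (1, 1), Sm₁.const hN _, fun g hg h hh => ?_⟩
  rw [dOne_apply, hfix g hg, hc g hg h hh, div_self', one_mul]

end Mod

end Fermat.Agent.S55.LDB
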