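/-
S55 / LDB : the cyclic cocycles `cyc χ b = c(χ,b)` (abstract layer): cocycle, bilinearity,
change of modulus.  All coboundaries are explicit: `d (g ↦ b ^ a(g))` for an integer valued `a`.
-/
import Fermat.Agent.S55.LDB.Basic

set_option autoImplicit false
set_option linter.unusedSectionVars false

namespace Fermat.Agent.S55.LDB

variable {G : Type*} [Group G] {𝒪 : OpenFam G}
variable {A : Type*} [CommGroup A] [MulDistribMulAction G A] {U V : Subgroup G}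

lemma carry_spec {n : ℕ} [NeZero n] (x y : ZMod n) :
    x.val + y.val = (x + y).val + n * carry x y := by
  have hx := ZMod.val_lt x
  have hy := ZMod.val_lt y
  rw [ZMod.val_add, carry]
  split_ifs with h
  · rw [Nat.mod_eq_sub_mod h, Nat.mod_eq_of_lt (by omega)]
    omega
  · rw [Nat.mod_eq_of_lt (by omega)]
    omega

lemma carry_zero_left {n : ℕ} [NeZero n] (y : ZMod n) : carry 0 y = 0 := by
  have hy := ZMod.val_lt y
  rw [carry, ZMod.val_zero, if_neg (by omega)]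

lemma carry_zero_right {n : ℕ} [NeZero n] (x : ZMod n) : carry x 0 = 0 := by
  have hx := ZMod.val_lt x
  rw [carry, ZMod.val_zero, if_neg (by omega)]

lemma Cyc_carry_assoc {n : ℕ} [NeZero n] (x y z : ZMod n) :
    carry (x + y) z + carry x y = carry y z + carry x (y + z) := by
  have e1 := carry_spec x y
  have e2 := carry_spec (x + y) z
  have e3 := carry_spec y z
  have e4 := carry_spec x (y + z)
  rw [← add_assoc] at e4
  have hn : 0 < n := Nat.pos_of_ne_zero (NeZero.ne n)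
  apply Nat.eq_of_mul_eq_mul_left hn
  rw [mul_add, mul_add]
  omega

lemma Cyc_val_castHom {n m : ℕ} [NeZero n] [NeZero m] (x : ZMod (n * m)) :
    (ZMod.castHom (Dvd.intro m rfl : n ∣ n * m) (ZMod n) x).val = x.val % n := by
  have : NeZero (n * m) := ⟨mul_ne_zero (NeZero.ne n) (NeZero.ne m)⟩
  rw [ZMod.castHom_apply, ← ZMod.natCast_val, ZMod.val_natCast]

/-- explicit coboundaries with integer exponents. -/
lemma Cyc_cob_zpow {b : A} (hb : Fix U b) (a : G → ℤ) (ha : Sm₁ 𝒪 U a) (f : G × G → A)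
    (e : G → G → ℤ) (hf : ∀ g ∈ U, ∀ h ∈ U, f (g, h) = b ^ e g h)
    (he : ∀ g ∈ U, ∀ h ∈ U, e g h = a h - a (g * h) + a g) : Cob₂ 𝒪 U f := by
  refine ⟨fun g => b ^ a g, ha.comp (fun k => b ^ k), fun g hg h hh => ?_⟩
  rw [dOne_apply, smul_zpow', hb g hg, hf g hg h hh, he g hg h hh, zpow_add, zpow_sub,
    div_eq_mul_inv]

lemma cyc_apply {n : ℕ} (χ : G → ZMod n) (b : A) (g h : G) :
    cyc χ b (g, h) = b ^ carry (χ g) (χ h) := rfl

lemma cyc_one {n : ℕ} (χ : G → ZMod n) : cyc χ (1 : A) = 1 := by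
  funext x
  simp [cyc]

lemma cyc_mul {n : ℕ} (χ : G → ZMod n) (b b' : A) : cyc χ (b * b') = cyc χ b * cyc χ b' := by
  funext x
  simp [cyc, mul_pow]

lemma cyc_inv {n : ℕ} (χ : G → ZMod n) (b : A) : cyc χ b⁻¹ = (cyc χ b)⁻¹ := by
  funext x
  simp [cyc]

lemma cyc_div {n : ℕ} (χ : G → ZMod n) (b b' : A) : cyc χ (b / b') = cyc χ b / cyc χ b' := by
  funext x
  simp [cyc, div_pow]

lemma cyc_pow {n : ℕ} (χ : G → ZMod n) (b : A) (k : ℕ) : cyc χ (b ^ k) = cyc χ b ^ k := by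
  funext x
  simp only [cyc, Pi.pow_apply]
  rw [← pow_mul, ← pow_mul, mul_comm]

lemma cyc_zpow {n : ℕ} (χ : G → ZMod n) (b : A) (k : ℤ) : cyc χ (b ^ k) = cyc χ b ^ k := by
  funext x
  simp only [cyc, Pi.pow_apply]
  rw [← zpow_natCast, ← zpow_natCast, ← zpow_mul, ← zpow_mul, mul_comm]

lemma cyc_coc {n : ℕ} [NeZero n] {χ : G → ZMod n} {b : A} (hχ : HomOn U χ) (hb : Fix U b) :
    Coc₂ U (cyc χ b) := by
  intro g hg h hh j hj
  simp only [cyc_apply]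
  rw [smul_pow', hb g hg, hχ g hg h hh, hχ h hh j hj, ← pow_add, ← pow_add]
  congr 1
  exact Cyc_carry_assoc _ _ _

lemma cyc_sm {n : ℕ} {χ : G → ZMod n} (hχ : Sm₁ 𝒪 U χ) (b : A) : Sm₂ 𝒪 U (cyc χ b) := by
  exact hχ.fst.comp₂ hχ.snd (fun x y => b ^ carry x y)

lemma cyc_isZ2 {n : ℕ} [NeZero n] {χ : G → ZMod n} {b : A} (hχ : IsChar 𝒪 U χ) (hb : Fix U b) :
    IsZ2 𝒪 U (cyc χ b) :=
  ⟨cyc_sm hχ.sm b, cyc_coc hχ.hom hb⟩

/-- characters: closure properties. -/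
lemma IsChar.add {n : ℕ} {χ χ' : G → ZMod n} (h : IsChar 𝒪 U χ) (h' : IsChar 𝒪 U χ') :
    IsChar 𝒪 U (χ + χ') := by
  refine ⟨fun g hg k hk => ?_, h.sm.comp₂ h'.sm (· + ·)⟩
  simp only [Pi.add_apply]
  rw [h.hom g hg k hk, h'.hom g hg k hk]
  ring

lemma IsChar.const_mul {n : ℕ} {χ : G → ZMod n} (h : IsChar 𝒪 U χ) (t : ZMod n) :
    IsChar 𝒪 U (fun g => t * χ g) := by
  refine ⟨fun g hg k hk => ?_, h.sm.comp (fun x => t * x)⟩
  show t * χ (g * k) = t * χ g + t * χ k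
  rw [h.hom g hg k hk]
  ring

lemma IsChar.mono {n : ℕ} {χ : G → ZMod n} (h : IsChar 𝒪 U χ) (hV : 𝒪.isOpen V) (hVU : V ≤ U) :
    IsChar 𝒪 V χ := by
  exact ⟨fun g hg k hk => h.hom g (hVU hg) k (hVU hk), h.sm.mono hV hVU⟩

lemma IsChar.congr {n : ℕ} {χ χ' : G → ZMod n} (h : IsChar 𝒪 U χ) (hh : ∀ g ∈ U, χ g = χ' g) :
    IsChar 𝒪 U χ' := by
  refine ⟨fun g hg k hk => ?_, h.sm.congr hh⟩
  rw [← hh g hg, ← hh k hk, ← hh _ (U.mul_mem hg hk)]
  exact h.hom g hg k hk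

lemma IsChar.cast {n m : ℕ} {χ : G → ZMod (n * m)} (h : IsChar 𝒪 U χ) :
    IsChar 𝒪 U (fun g => ZMod.castHom (Dvd.intro m rfl : n ∣ n * m) (ZMod n) (χ g)) := by
  refine ⟨fun g hg k hk => ?_, h.sm.comp _⟩
  show ZMod.castHom _ (ZMod n) (χ (g * k)) = _
  rw [h.hom g hg k hk, map_add]

lemma HomOn.map_one {n : ℕ} {χ : G → ZMod n} (h : HomOn U χ) : χ 1 = 0 := by
  have := h 1 U.one_mem 1 U.one_mem
  rw [mul_one] at this
  exact add_eq_left.mp this.symm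

lemma HomOn.map_inv {n : ℕ} {χ : G → ZMod n} (h : HomOn U χ) {g : G} (hg : g ∈ U) :
    χ g⁻¹ = - χ g := by
  have := h g hg g⁻¹ (U.inv_mem hg)
  rw [mul_inv_cancel, h.map_one] at this
  exact (neg_eq_of_add_eq_zero_right this.symm).symm

lemma HomOn.map_pow {n : ℕ} {χ : G → ZMod n} (h : HomOn U χ) {g : G} (hg : g ∈ U) (k : ℕ) :
    χ (g ^ k) = k * χ g := by
  induction k with
  | zero => rw [pow_zero, h.map_one, Nat.cast_zero, zero_mul]
  | succ k ih =>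
    rw [pow_succ, h _ (U.pow_mem hg k) g hg, ih]
    push_cast
    ring

/-- `cyc` only depends on the values of `χ` on `U`. -/
lemma cyc_congr {n : ℕ} {χ χ' : G → ZMod n} (hh : ∀ g ∈ U, χ g = χ' g) (b : A) :
    ∀ g ∈ U, ∀ h ∈ U, cyc χ b (g, h) = cyc χ' b (g, h) := by
  intro g hg h hh'
  rw [cyc_apply, cyc_apply, hh g hg, hh h hh']

/-- the basic explicit coboundary: for `b ∈ A^U` and `a : G → ℕ`,
`d (g ↦ b ^ a g) (g,h) = b ^ (a h + a g - a (g h))`. -/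
lemma dOne_pow_fix {b : A} (hb : Fix U b) (a : G → ℕ) {g h : G} (hg : g ∈ U) :
    dOne (fun x => b ^ a x) (g, h) * b ^ a (g * h) = b ^ (a h + a g) := by
  rw [dOne_apply, smul_pow', hb g hg, mul_right_comm, div_mul_cancel, pow_add]

/-- additivity in `χ`: `c(χ+χ',b) ~ c(χ,b) c(χ',b)`; cochain `g ↦ b ^ carry (χ g) (χ' g)`. -/
theorem cyc_add_eqv {n : ℕ} [NeZero n] {χ χ' : G → ZMod n} {b : A}
    (hχ : IsChar 𝒪 U χ) (hχ' : IsChar 𝒪 U χ') (hb : Fix U b) :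
    Eqv 𝒪 U (cyc (χ + χ') b) (cyc χ b * cyc χ' b) := by
  refine Cyc_cob_zpow hb (fun g => -(carry (χ g) (χ' g) : ℤ))
    (hχ.sm.comp₂ hχ'.sm (fun x y => -(carry x y : ℤ))) _
    (fun g h => (carry ((χ + χ') g) ((χ + χ') h) : ℤ) -
      ((carry (χ g) (χ h) : ℤ) + (carry (χ' g) (χ' h) : ℤ))) ?_ ?_
  · intro g _ h _
    simp only [Pi.div_apply, Pi.mul_apply, cyc_apply]
    rw [zpow_sub, zpow_add, zpow_natCast, zpow_natCast, zpow_natCast, div_eq_mul_inv]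
  · intro g hg h hh
    have hn : (0 : ℤ) < n := by exact_mod_cast Nat.pos_of_ne_zero (NeZero.ne n)
    have e1 := carry_spec (χ g) (χ h)
    have e2 := carry_spec (χ' g) (χ' h)
    have e3 := carry_spec ((χ + χ') g) ((χ + χ') h)
    have e4 := carry_spec (χ g) (χ' g)
    have e5 := carry_spec (χ h) (χ' h)
    have e6 := carry_spec (χ (g * h)) (χ' (g * h))
    have h1 : (χ + χ') g + (χ + χ') h = χ (g * h) + χ' (g * h) := by
      simp only [Pi.add_apply]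
      rw [hχ.hom g hg h hh, hχ'.hom g hg h hh]
      ring
    rw [h1] at e3
    rw [← hχ.hom g hg h hh] at e1
    rw [← hχ'.hom g hg h hh] at e2
    simp only [Pi.add_apply] at e3 ⊢
    apply mul_left_cancel₀ hn.ne'
    zify at e1 e2 e3 e4 e5 e6
    linear_combination -e3 + e1 + e2 - e4 - e5 + e6

/-- `c(tχ,b) ~ c(χ,b)^t`. -/
theorem cyc_nsmul_eqv {n : ℕ} [NeZero n] {χ : G → ZMod n} {b : A}
    (hχ : IsChar 𝒪 U χ) (hb : Fix U b) (t : ℕ) :
    Eqv 𝒪 U (cyc (fun g => (t : ZMod n) * χ g) b) (cyc χ b ^ t) := by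
  have hU : 𝒪.isOpen U := hχ.sm.isOpen
  induction t with
  | zero =>
    refine Eqv.of_eq hU fun g _ h _ => ?_
    simp [cyc_apply, carry_zero_left]
  | succ t ih =>
    have h1 : (fun g => ((t + 1 : ℕ) : ZMod n) * χ g) = (fun g => (t : ZMod n) * χ g) + χ := by
      funext g
      simp only [Pi.add_apply]
      push_cast
      ring
    rw [h1, pow_succ]
    exact (cyc_add_eqv (hχ.const_mul _) hχ hb).trans (ih.mul (Eqv.refl hU _))

/-- change of modulus: `c(χ mod n, b) ~ c(χ,b)^m` for `χ : G → ZMod (n m)`;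
cochain `g ↦ b ^ ((χ g).val / n)`. -/
theorem cyc_cast_eqv {n m : ℕ} [NeZero n] [NeZero m] {χ : G → ZMod (n * m)} {b : A}
    (hχ : IsChar 𝒪 U χ) (hb : Fix U b) :
    Eqv 𝒪 U (cyc (fun g => ZMod.castHom (Dvd.intro m rfl : n ∣ n * m) (ZMod n) (χ g)) b)
      (cyc χ b ^ m) := by
  have : NeZero (n * m) := ⟨mul_ne_zero (NeZero.ne n) (NeZero.ne m)⟩
  refine Cyc_cob_zpow hb (fun g => -(((χ g).val / n : ℕ) : ℤ))
    (hχ.sm.comp (fun x => -((x.val / n : ℕ) : ℤ))) _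
    (fun g h => (carry (ZMod.castHom (Dvd.intro m rfl : n ∣ n * m) (ZMod n) (χ g))
      (ZMod.castHom (Dvd.intro m rfl : n ∣ n * m) (ZMod n) (χ h)) : ℤ) -
      (carry (χ g) (χ h) : ℤ) * m) ?_ ?_
  · intro g _ h _
    simp only [Pi.div_apply, Pi.pow_apply, cyc_apply]
    rw [zpow_sub, zpow_mul, zpow_natCast, zpow_natCast, zpow_natCast, div_eq_mul_inv]
  · intro g hg h hh
    have hn : (0 : ℤ) < n := by exact_mod_cast Nat.pos_of_ne_zero (NeZero.ne n)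
    have e1 := carry_spec (χ g) (χ h)
    have e2 := carry_spec (ZMod.castHom (Dvd.intro m rfl : n ∣ n * m) (ZMod n) (χ g))
      (ZMod.castHom (Dvd.intro m rfl : n ∣ n * m) (ZMod n) (χ h))
    rw [← map_add, ← hχ.hom g hg h hh] at e2
    rw [← hχ.hom g hg h hh] at e1
    rw [Cyc_val_castHom, Cyc_val_castHom, Cyc_val_castHom] at e2
    have d1 := Nat.div_add_mod (χ g).val n
    have d2 := Nat.div_add_mod (χ h).val n
    have d3 := Nat.div_add_mod (χ (g * h)).val n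
    apply mul_left_cancel₀ hn.ne'
    zify at e1 e2 d1 d2 d3
    push_cast
    linear_combination -e2 + e1 + d1 + d2 - d3

end Fermat.Agent.S55.LDB
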