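/-
S55 / LDB : classes split by a cyclic layer (abstract layer).  `χ : U → ZMod n` a smooth surjective
character, `V = kerOn U χ`, `σ ∈ U` with `χ σ = 1`.

PROOFS.
`eqv_cyc_of_inflated`: `f` inflated from `U/V`, `f(1,1)=1`.  `B(m) := ∏_{k<m} f(σ^k,σ)`,
`b := B(n)`, `β(g) := B((χ g).val)`.  The cocycle identity for `(σ^i,σ^k,σ)` gives
`σ^i • f(σ^k,σ) = f(σ^(i+k),σ) f(σ^i,σ^k) / f(σ^i,σ^(k+1))`; product over `k<j`:
`σ^i • B(j) = B(i+j)/B(i) / f(σ^i,σ^j)`; `B(m+n) = B(m) b`.  Hence `f * dOne β = cyc χ b` on `U`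
(every `g ∈ U` is `σ^(χ g).val * v`, `v ∈ V`), and `σ • b = b`.
`cob_cyc_iff`: (⇐) `b = nrm σ n x`: `β(g) := ∏_{i<(χ g).val} σ^i • x`.  (⇒) `cyc χ b = dβ` on `U`;
`β` is a 1-cocycle on `V`, so after dividing by a 0-coboundary (`H90`) `β = 1` on `V`;
`cyc χ b (g,v) = 1 = cyc χ b (v,g)` give `β(gv) = β(g)` and `v • β(g) = β(g)`; `x := β σ`; the product
of `dβ(σ^i,σ) = b^[i+1 = n]` over `i<n` gives `nrm σ n x = b`.
-/
import Fermat.Agent.S55.LDB.InfRes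
import Fermat.Agent.S55.LDB.Cyc

set_option autoImplicit false
set_option linter.unusedSectionVars false

namespace Fermat.Agent.S55.LDB

variable {G : Type*} [Group G] {𝒪 : OpenFam G}
variable {A : Type*} [CommGroup A] [MulDistribMulAction G A] {U : Subgroup G}

lemma isOpen_kerOn {n : ℕ} {χ : G → ZMod n} (hχ : IsChar 𝒪 U χ) :
    𝒪.isOpen (kerOn U χ hχ.hom) := by
  obtain ⟨N, hN, hNU, h⟩ := hχ.sm
  refine 𝒪.mono hN fun s hs => ⟨hNU hs, ?_⟩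
  have := h 1 U.one_mem s hs
  rw [one_mul] at this
  rw [this]
  exact hχ.hom.map_one

lemma normalIn_kerOn {n : ℕ} {χ : G → ZMod n} (hχ : HomOn U χ) : NormalIn (kerOn U χ hχ) U := by
  refine ⟨fun g hg => hg.1, fun g hg v hv => ⟨U.mul_mem (U.mul_mem hg hv.1) (U.inv_mem hg), ?_⟩⟩
  rw [hχ _ (U.mul_mem hg hv.1) _ (U.inv_mem hg), hχ _ hg _ hv.1, hv.2, hχ.map_inv hg]
  ring

/-- every element of `U` is `σ ^ (χ g).val * v` with `v` in the kernel. -/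
lemma exists_eq_pow_mul {n : ℕ} [NeZero n] {χ : G → ZMod n} (hχ : HomOn U χ) {σ : G} (hσ : σ ∈ U)
    (hσ1 : χ σ = 1) {g : G} (hg : g ∈ U) : ∃ v ∈ kerOn U χ hχ, g = σ ^ (χ g).val * v := by
  refine ⟨(σ ^ (χ g).val)⁻¹ * g, ⟨U.mul_mem (U.inv_mem (U.pow_mem hσ _)) hg, ?_⟩, by group⟩
  rw [hχ _ (U.inv_mem (U.pow_mem hσ _)) _ hg, hχ.map_inv (U.pow_mem hσ _), hχ.map_pow hσ, hσ1,
    ZMod.natCast_zmod_val]
  ring

/-- the partial products `B(m) = ∏_{k<m} f(σ^k,σ)`. -/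
def CycClass_B (f : G × G → A) (σ : G) (m : ℕ) : A := ∏ k ∈ Finset.range m, f (σ ^ k, σ)

lemma CycClass_key {f : G × G → A} (hf : Coc₂ U f) (h1 : f (1, 1) = 1) {σ : G} (hσ : σ ∈ U)
    (i j : ℕ) :
    σ ^ i • CycClass_B f σ j * f (σ ^ i, σ ^ j) * CycClass_B f σ i = CycClass_B f σ (i + j) := by
  induction j with
  | zero =>
    have : f (σ ^ i, 1) = 1 := by rw [hf.map_one_snd (U.pow_mem hσ i), h1, smul_one]
    simp [CycClass_B, this]
  | succ j ih =>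
    have hc := hf (σ ^ i) (U.pow_mem hσ i) (σ ^ j) (U.pow_mem hσ j) σ hσ
    rw [← pow_add, ← pow_succ] at hc
    have e1 : CycClass_B f σ (j + 1) = CycClass_B f σ j * f (σ ^ j, σ) :=
      Finset.prod_range_succ _ _
    have e2 : CycClass_B f σ (i + (j + 1)) = CycClass_B f σ (i + j) * f (σ ^ (i + j), σ) :=
      Finset.prod_range_succ _ _
    rw [e1, e2, ← ih, smul_mul']
    calc σ ^ i • CycClass_B f σ j * σ ^ i • f (σ ^ j, σ) * f (σ ^ i, σ ^ (j + 1)) *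
          CycClass_B f σ i
        = σ ^ i • CycClass_B f σ j * CycClass_B f σ i *
          (σ ^ i • f (σ ^ j, σ) * f (σ ^ i, σ ^ (j + 1))) := by
          simp only [mul_comm, mul_left_comm, mul_assoc]
      _ = σ ^ i • CycClass_B f σ j * CycClass_B f σ i *
          (f (σ ^ (i + j), σ) * f (σ ^ i, σ ^ j)) := by rw [hc]
      _ = _ := by simp only [mul_comm, mul_left_comm, mul_assoc]

/-- explicit form: `b = ∏_{i<n} f(σ^i,σ)`. -/
theorem eqv_cyc_of_inflated {n : ℕ} [NeZero n] {χ : G → ZMod n} (hχ : IsChar 𝒪 U χ)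
    {σ : G} (hσ : σ ∈ U) (hσ1 : χ σ = 1) {f : G × G → A} (hf : IsZ2 𝒪 U f)
    (hinf : Inflated U (kerOn U χ hχ.hom) f) (h1 : f (1, 1) = 1) :
    Fix U (∏ i ∈ Finset.range n, f (σ ^ i, σ)) ∧
      Eqv 𝒪 U f (cyc χ (∏ i ∈ Finset.range n, f (σ ^ i, σ))) := by
  have hb : (∏ i ∈ Finset.range n, f (σ ^ i, σ)) = CycClass_B f σ n := rfl
  rw [hb]
  have hσn : σ ^ n ∈ kerOn U χ hχ.hom :=
    ⟨U.pow_mem hσ n, by rw [hχ.hom.map_pow hσ, hσ1]; simp⟩
  have hBV : ∀ m, Fix (kerOn U χ hχ.hom) (CycClass_B f σ m) := by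
    intro m v hv
    rw [CycClass_B, Finset.smul_prod']
    exact Finset.prod_congr rfl fun k _ => hinf.2 _ (U.pow_mem hσ k) _ hσ v hv
  have hper : ∀ m, CycClass_B f σ (n + m) = CycClass_B f σ n * CycClass_B f σ m := by
    intro m
    rw [CycClass_B, Finset.prod_range_add]
    refine congrArg _ (Finset.prod_congr rfl fun k _ => ?_)
    have := hinf.1 (σ ^ k) (U.pow_mem hσ k) σ hσ (σ ^ n) hσn 1 (Subgroup.one_mem _)
    rw [mul_one, ← pow_add, add_comm] at this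
    exact this
  have hper' : ∀ m c, CycClass_B f σ (m + n * c) = CycClass_B f σ m * CycClass_B f σ n ^ c := by
    intro m c
    induction c with
    | zero => simp
    | succ c ih =>
      have e : m + n * (c + 1) = n + (m + n * c) := by ring
      rw [e, hper, ih, pow_succ]
      simp only [mul_comm, mul_left_comm, mul_assoc]
  have hkey := CycClass_key hf.coc h1 hσ
  have hσb : ∀ i, σ ^ i • CycClass_B f σ n = CycClass_B f σ n := by
    intro i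
    have h := hkey i n
    have h2 : f (σ ^ i, σ ^ n) = 1 := by
      have := hinf.1 (σ ^ i) (U.pow_mem hσ i) 1 U.one_mem 1 (Subgroup.one_mem _) (σ ^ n) hσn
      rw [mul_one, one_mul] at this
      rw [this, hf.coc.map_one_snd (U.pow_mem hσ i), h1, smul_one]
    rw [h2, mul_one, add_comm, hper] at h
    exact mul_right_cancel h
  have hfix : Fix U (CycClass_B f σ n) := by
    intro g hg
    obtain ⟨v, hv, hgv⟩ := exists_eq_pow_mul hχ.hom hσ hσ1 hg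
    rw [hgv, mul_smul, hBV n v hv, hσb]
  refine ⟨hfix, Eqv.symm ⟨fun g => CycClass_B f σ (χ g).val,
    hχ.sm.comp (fun x => CycClass_B f σ x.val), ?_⟩⟩
  intro g hg h hh
  obtain ⟨v, hv, hgv⟩ := exists_eq_pow_mul hχ.hom hσ hσ1 hg
  obtain ⟨w, hw, hhw⟩ := exists_eq_pow_mul hχ.hom hσ hσ1 hh
  have e1 : f (g, h) = f (σ ^ (χ g).val, σ ^ (χ h).val) := by
    conv_lhs => rw [hgv, hhw]
    exact hinf.1 _ (U.pow_mem hσ _) _ (U.pow_mem hσ _) v hv w hw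
  have e2 : g • CycClass_B f σ (χ h).val = σ ^ (χ g).val • CycClass_B f σ (χ h).val := by
    conv_lhs => rw [hgv, mul_smul, hBV _ v hv]
  have e3 := hkey (χ g).val (χ h).val
  rw [carry_spec, hper', ← hχ.hom g hg h hh] at e3
  simp only [dOne_apply, Pi.div_apply, cyc_apply]
  rw [e1, e2, div_mul_eq_mul_div, div_eq_div_iff_mul_eq_mul, mul_comm (CycClass_B f σ n ^ _), ← e3]
  simp only [mul_comm, mul_left_comm, mul_assoc]

theorem exists_eqv_cyc_of_inflated {n : ℕ} [NeZero n] {χ : G → ZMod n} (hχ : IsChar 𝒪 U χ)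
    (hσ : ∃ σ ∈ U, χ σ = 1) {f : G × G → A} (hf : IsZ2 𝒪 U f)
    (hinf : Inflated U (kerOn U χ hχ.hom) f) (h1 : f (1, 1) = 1) :
    ∃ b : A, Fix U b ∧ Eqv 𝒪 U f (cyc χ b) := by
  obtain ⟨σ, hσ, hσ1⟩ := hσ
  exact ⟨_, eqv_cyc_of_inflated hχ hσ hσ1 hf hinf h1⟩

/-- (L1) a class split by the kernel of `χ` is a cyclic class. -/
theorem exists_eqv_cyc {n : ℕ} [NeZero n] (hA : SmoothMod 𝒪 A) {χ : G → ZMod n}
    (hχ : IsChar 𝒪 U χ) (hσ : ∃ σ ∈ U, χ σ = 1) (h90 : H90 𝒪 A (kerOn U χ hχ.hom))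
    {f : G × G → A} (hf : IsZ2 𝒪 U f) (hfV : Cob₂ 𝒪 (kerOn U χ hχ.hom) f) :
    ∃ b : A, Fix U b ∧ Eqv 𝒪 U f (cyc χ b) := by
  obtain ⟨f', h1, h2, h3, h4⟩ := exists_eqv_inflated hA (normalIn_kerOn hχ.hom) h90 hf hfV
  obtain ⟨b, hb, h5⟩ := exists_eqv_cyc_of_inflated hχ hσ h2 h3 h4
  exact ⟨b, hb, h1.trans h5⟩

/-- translation of `σ ^ i • x` by an element of `U`. -/
lemma CycClassB_smul_pow {n : ℕ} [NeZero n] {χ : G → ZMod n} (hχ : HomOn U χ) {σ : G}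
    (hσ : σ ∈ U) (hσ1 : χ σ = 1) {x : A} (hx : ∀ g ∈ U, χ g = 0 → g • x = x) {g : G}
    (hg : g ∈ U) (i : ℕ) : g • σ ^ i • x = σ ^ ((χ g).val + i) • x := by
  have hu : (σ ^ ((χ g).val + i))⁻¹ * (g * σ ^ i) ∈ U :=
    U.mul_mem (U.inv_mem (U.pow_mem hσ _)) (U.mul_mem hg (U.pow_mem hσ _))
  have hχu : χ ((σ ^ ((χ g).val + i))⁻¹ * (g * σ ^ i)) = 0 := by
    rw [hχ _ (U.inv_mem (U.pow_mem hσ _)) _ (U.mul_mem hg (U.pow_mem hσ _)),
      hχ.map_inv (U.pow_mem hσ _), hχ _ hg _ (U.pow_mem hσ _), hχ.map_pow hσ, hχ.map_pow hσ, hσ1]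
    push_cast
    rw [ZMod.natCast_zmod_val]
    ring
  have h := hx _ hu hχu
  rw [smul_smul]
  conv_rhs => rw [← h]
  rw [smul_smul, mul_inv_cancel_left]

/-- partial norms: `B (m + n k) = B m * b ^ k`. -/
lemma CycClassB_partial {n : ℕ} {σ : G} (hσ : σ ∈ U) {x b : A} (hb : Fix U b)
    (hn : nrm σ n x = b) (m k : ℕ) :
    ∏ i ∈ Finset.range (m + n * k), σ ^ i • x = (∏ i ∈ Finset.range m, σ ^ i • x) * b ^ k := by
  induction k with
  | zero => simp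
  | succ k ih =>
    rw [Nat.mul_succ, ← add_assoc, Finset.prod_range_add, ih, pow_succ, mul_assoc]
    congr 1
    congr 1
    have h1 : ∀ i : ℕ, σ ^ (m + n * k + i) • x = σ ^ (m + n * k) • σ ^ i • x := by
      intro i
      rw [smul_smul, pow_add]
    simp only [h1]
    rw [← Finset.smul_prod']
    have h2 : ∏ i ∈ Finset.range n, σ ^ i • x = b := hn
    rw [h2]
    exact hb _ (U.pow_mem hσ _)

/-- (L2), direction `⇐`. -/
theorem CycClassB_cob_of_isNm {n : ℕ} [NeZero n] {χ : G → ZMod n}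
    (hχ : IsChar 𝒪 U χ) {b : A} (hb : Fix U b) (h : IsNm U χ b) : Cob₂ 𝒪 U (cyc χ b) := by
  obtain ⟨σ, hσ, hσ1, x, hx, hn⟩ := h
  refine ⟨fun g => ∏ i ∈ Finset.range (χ g).val, σ ^ i • x,
    hχ.sm.comp (fun z : ZMod n => ∏ i ∈ Finset.range z.val, σ ^ i • x), ?_⟩
  intro g hg h hh
  rw [dOne_apply, cyc_apply, Finset.smul_prod']
  simp only [CycClassB_smul_pow hχ.hom hσ hσ1 hx hg]
  rw [div_mul_eq_mul_div, div_eq_iff_eq_mul, mul_comm (∏ i ∈ Finset.range (χ h).val, _),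
    ← Finset.prod_range_add, hχ.hom g hg h hh, carry_spec,
    CycClassB_partial hσ hb hn, mul_comm]

/-- the sum of the carries along `1, σ, σ², …`. -/
lemma CycClassB_prod_carry {n : ℕ} [NeZero n] (hn1 : n ≠ 1) (b : A) :
    ∏ i ∈ Finset.range n, b ^ carry ((i : ℕ) : ZMod n) (1 : ZMod n) = b := by
  obtain ⟨m, rfl⟩ : ∃ m, n = m + 1 := ⟨n - 1, (Nat.succ_pred_eq_of_pos (NeZero.pos n)).symm⟩
  rw [Finset.prod_range_succ, Finset.prod_eq_one]
  · have : carry ((m : ℕ) : ZMod (m + 1)) (1 : ZMod (m + 1)) = 1 := by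
      unfold carry
      rw [ZMod.val_natCast_of_lt (Nat.lt_succ_self m), ZMod.val_one'' hn1, if_pos le_rfl]
    rw [this, one_mul, pow_one]
  · intro i hi
    have hi' : i < m := Finset.mem_range.1 hi
    have : carry ((i : ℕ) : ZMod (m + 1)) (1 : ZMod (m + 1)) = 0 := by
      unfold carry
      rw [ZMod.val_natCast_of_lt (by omega), ZMod.val_one'' hn1, if_neg (by omega)]
    rw [this, pow_zero]

/-- (L2), direction `⇒`. -/
theorem CycClassB_isNm_of_cob {n : ℕ} [NeZero n] {χ : G → ZMod n}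
    (hχ : IsChar 𝒪 U χ) (hσ : ∃ σ ∈ U, χ σ = 1) (h90 : H90 𝒪 A (kerOn U χ hχ.hom))
    {b : A} (hb : Fix U b) (h : Cob₂ 𝒪 U (cyc χ b)) : IsNm U χ b := by
  obtain ⟨σ, hσ, hσ1⟩ := hσ
  by_cases hn1 : n = 1
  · subst hn1
    exact ⟨σ, hσ, hσ1, b, fun g hg _ => hb g hg, by simp [nrm]⟩
  obtain ⟨β, hβ, hβc⟩ := h
  have hVU : kerOn U χ hχ.hom ≤ U := fun g hg => hg.1
  have hnor := normalIn_kerOn hχ.hom
  -- `β` is a cocycle on the kernel
  have hcoc : Coc₁ (kerOn U χ hχ.hom) β := by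
    intro v hv w hw
    have := hβc v hv.1 w hw.1
    rw [cyc_apply, hv.2, carry_zero_left, pow_zero, dOne_apply, div_mul_eq_mul_div,
      div_eq_one] at this
    exact this.symm
  obtain ⟨a, ha⟩ := h90 β (hβ.mono (isOpen_kerOn hχ) hVU) hcoc
  set β' : G → A := β / fun g => g • a / a with hβ'
  have hβ'c : ∀ g ∈ U, ∀ h ∈ U, dOne β' (g, h) = cyc χ b (g, h) := by
    intro g hg h hh
    rw [hβ', dOne_div, dOne_kum, div_one]
    exact hβc g hg h hh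
  have hβ'V : ∀ v ∈ kerOn U χ hχ.hom, β' v = 1 := by
    intro v hv
    rw [hβ', Pi.div_apply, ha v hv, div_self']
  have hright : ∀ g ∈ U, ∀ v ∈ kerOn U χ hχ.hom, β' (g * v) = β' g := by
    intro g hg v hv
    have := hβ'c g hg v hv.1
    rw [cyc_apply, hv.2, carry_zero_right, pow_zero, dOne_apply, hβ'V v hv, smul_one,
      div_mul_eq_mul_div, div_eq_one, one_mul] at this
    exact this.symm
  have hfix : ∀ g ∈ U, ∀ v ∈ kerOn U χ hχ.hom, v • β' g = β' g := by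
    intro g hg v hv
    have := hβ'c v hv.1 g hg
    rw [cyc_apply, hv.2, carry_zero_left, pow_zero, dOne_apply, hβ'V v hv, mul_one,
      div_eq_one] at this
    rw [this]
    have h2 : v * g = g * (g⁻¹ * v * g⁻¹⁻¹) := by group
    rw [h2]
    exact hright g hg _ (hnor.2 g⁻¹ (U.inv_mem hg) v hv)
  refine ⟨σ, hσ, hσ1, β' σ, fun g hg hg0 => hfix σ hσ g ⟨hg, hg0⟩, ?_⟩
  have hterm : ∀ i : ℕ, σ ^ i • β' σ = b ^ carry ((i : ℕ) : ZMod n) (1 : ZMod n) *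
      (β' (σ ^ (i + 1)) / β' (σ ^ i)) := by
    intro i
    have := hβ'c (σ ^ i) (U.pow_mem hσ i) σ hσ
    rw [cyc_apply, hχ.hom.map_pow hσ, hσ1, mul_one, dOne_apply, ← pow_succ] at this
    rw [← this, div_mul_eq_mul_div, div_mul_div_comm, mul_comm (β' (σ ^ (i + 1))),
      mul_assoc, mul_div_cancel_right]
  unfold nrm
  simp only [hterm]
  rw [Finset.prod_mul_distrib, CycClassB_prod_carry hn1,
    Finset.prod_range_div (fun i => β' (σ ^ i)), pow_zero,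
    hβ'V 1 (Subgroup.one_mem _), hβ'V (σ ^ n) ⟨U.pow_mem hσ n, by
      rw [hχ.hom.map_pow hσ, hσ1, mul_one, ZMod.natCast_self]⟩]
  simp

/-- (L2) -/
theorem cob_cyc_iff {n : ℕ} [NeZero n] (hA : SmoothMod 𝒪 A) {χ : G → ZMod n}
    (hχ : IsChar 𝒪 U χ) (hσ : ∃ σ ∈ U, χ σ = 1) (h90 : H90 𝒪 A (kerOn U χ hχ.hom))
    {b : A} (hb : Fix U b) :
    Cob₂ 𝒪 U (cyc χ b) ↔ IsNm U χ b :=
  ⟨CycClassB_isNm_of_cob hχ hσ h90 hb, CycClassB_cob_of_isNm hχ hb⟩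

end Fermat.Agent.S55.LDB
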