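/-
S55 / LDB : the finite group theory needed (Sylow, central series of p-groups, characters of
quotients of prime order), in "On"-style: everything is a subgroup of the ambient group `G`.
Work in the finite group `Q := ↥U ⧸ V.subgroupOf U` and pull back along `↥U → Q`, then map to `G`.
-/
import Fermat.Agent.S55.LDB.Basic

set_option autoImplicit false
set_option linter.unusedSectionVars false

namespace Fermat.Agent.S55.LDB

variable {G : Type*} [Group G] {𝒪 : OpenFam G} {U V : Subgroup G}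

theorem GroupTh_normal (hVU : NormalIn V U) : (V.subgroupOf U).Normal := by
  refine ⟨fun n hn g => ?_⟩
  rw [Subgroup.mem_subgroupOf] at hn ⊢
  exact hVU.2 g g.2 n hn

/-- pull back a subgroup of `U/V` to a subgroup of `G`. -/
def GroupTh_lift (U V : Subgroup G) [(V.subgroupOf U).Normal]
    (H : Subgroup (↥U ⧸ V.subgroupOf U)) : Subgroup G :=
  (H.comap (QuotientGroup.mk' (V.subgroupOf U))).map U.subtype

section lift
variable [(V.subgroupOf U).Normal] (H : Subgroup (↥U ⧸ V.subgroupOf U))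

theorem GroupTh_mem_lift {g : G} :
    g ∈ GroupTh_lift U V H ↔ ∃ hg : g ∈ U, QuotientGroup.mk' (V.subgroupOf U) ⟨g, hg⟩ ∈ H := by
  constructor
  · rintro ⟨x, hx, rfl⟩
    exact ⟨x.2, hx⟩
  · rintro ⟨hg, h⟩
    exact ⟨⟨g, hg⟩, h, rfl⟩

theorem GroupTh_lift_le : GroupTh_lift U V H ≤ U := fun _ hg => (GroupTh_mem_lift H).mp hg |>.1

theorem GroupTh_le_lift (hVU : V ≤ U) : V ≤ GroupTh_lift U V H := by
  intro g hg
  refine (GroupTh_mem_lift H).mpr ⟨hVU hg, ?_⟩
  have : QuotientGroup.mk' (V.subgroupOf U) ⟨g, hVU hg⟩ = 1 := by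
    rw [QuotientGroup.mk'_apply, QuotientGroup.eq_one_iff, Subgroup.mem_subgroupOf]
    exact hg
  rw [this]
  exact H.one_mem

theorem GroupTh_lift_relIndex : (GroupTh_lift U V H).relIndex U = H.index := by
  have h : (GroupTh_lift U V H).subgroupOf U = H.comap (QuotientGroup.mk' (V.subgroupOf U)) :=
    Subgroup.comap_map_eq_self_of_injective U.subtype_injective _
  show ((GroupTh_lift U V H).subgroupOf U).index = _
  rw [h, Subgroup.index_comap_of_surjective _ (QuotientGroup.mk'_surjective _)]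

theorem GroupTh_relIndex_comap {G' : Type*} [Group G'] (N : Subgroup G') [N.Normal]
    (H : Subgroup (G' ⧸ N)) : N.relIndex (H.comap (QuotientGroup.mk' N)) = Nat.card H := by
  have h := Subgroup.relIndex_comap (H := (⊥ : Subgroup (G' ⧸ N))) (QuotientGroup.mk' N)
    (H.comap (QuotientGroup.mk' N))
  have e : (⊥ : Subgroup (G' ⧸ N)).comap (QuotientGroup.mk' N) = N := by
    rw [MonoidHom.comap_bot, QuotientGroup.ker_mk']
  rw [e, Subgroup.map_comap_eq_self_of_surjective (QuotientGroup.mk'_surjective _),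
    Subgroup.relIndex_bot_left] at h
  exact h

theorem GroupTh_relIndex_lift (hVU : V ≤ U) : V.relIndex (GroupTh_lift U V H) = Nat.card H := by
  have h1 : (V.subgroupOf U).map U.subtype = V := Subgroup.map_subgroupOf_eq_of_le hVU
  have h2 := Subgroup.relIndex_map_map_of_injective (V.subgroupOf U)
    (H.comap (QuotientGroup.mk' (V.subgroupOf U))) U.subtype_injective
  rw [h1, GroupTh_relIndex_comap] at h2
  exact h2

theorem GroupTh_card_quot : Nat.card (↥U ⧸ V.subgroupOf U) = V.relIndex U := rfl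

end lift

/-- a Sylow `p`-subgroup of `U/V`. -/
theorem exists_sylow_between (p : ℕ) [Fact p.Prime] (hVU : NormalIn V U)
    (hfin : V.relIndex U ≠ 0) :
    ∃ P : Subgroup G, V ≤ P ∧ P ≤ U ∧ (∃ m : ℕ, V.relIndex P = p ^ m) ∧
      Nat.Coprime (P.relIndex U) p := by
  have hn : (V.subgroupOf U).Normal := GroupTh_normal hVU
  have hfinQ : Finite (↥U ⧸ V.subgroupOf U) := Nat.finite_of_card_ne_zero hfin
  obtain ⟨P⟩ : Nonempty (Sylow p (↥U ⧸ V.subgroupOf U)) := inferInstance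
  refine ⟨GroupTh_lift U V (P : Subgroup _), GroupTh_le_lift _ hVU.1, GroupTh_lift_le _, ?_, ?_⟩
  · rw [GroupTh_relIndex_lift _ hVU.1]
    exact ⟨_, P.card_eq_multiplicity⟩
  · rw [GroupTh_lift_relIndex, Nat.coprime_comm, Nat.Prime.coprime_iff_not_dvd Fact.out]
    exact P.not_dvd_index

/-- a central subgroup of order `p` of the `p`-group `U/V`. -/
theorem exists_central_step (p : ℕ) [Fact p.Prime] (hVU : NormalIn V U) {m : ℕ}
    (h : V.relIndex U = p ^ (m + 1)) :
    ∃ V' : Subgroup G, NormalIn V V' ∧ NormalIn V' U ∧ V.relIndex V' = p ∧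
      V'.relIndex U = p ^ m := by
  have hp : p.Prime := Fact.out
  have hn : (V.subgroupOf U).Normal := GroupTh_normal hVU
  have hcard : Nat.card (↥U ⧸ V.subgroupOf U) = p ^ (m + 1) := h
  have hfinQ : Finite (↥U ⧸ V.subgroupOf U) :=
    Nat.finite_of_card_ne_zero (by rw [hcard]; exact pow_ne_zero _ hp.ne_zero)
  have hpg : IsPGroup p (↥U ⧸ V.subgroupOf U) := IsPGroup.of_card hcard
  have hnt : Nontrivial (↥U ⧸ V.subgroupOf U) := by
    rw [← Finite.one_lt_card_iff_nontrivial, hcard]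
    exact Nat.one_lt_pow (Nat.succ_ne_zero m) hp.one_lt
  have hcnt : Nontrivial (Subgroup.center (↥U ⧸ V.subgroupOf U)) := hpg.center_nontrivial
  have hcpg : IsPGroup p (Subgroup.center (↥U ⧸ V.subgroupOf U)) := hpg.to_subgroup _
  obtain ⟨k, hk⟩ := hcpg.exists_card_eq
  have hdvd : p ∣ Nat.card (Subgroup.center (↥U ⧸ V.subgroupOf U)) := by
    rw [hk]
    apply dvd_pow_self
    rintro rfl
    rw [pow_zero] at hk
    have := Finite.one_lt_card_iff_nontrivial.mpr hcnt
    omega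
  obtain ⟨z, hz⟩ := exists_prime_orderOf_dvd_card' p hdvd
  set H : Subgroup (↥U ⧸ V.subgroupOf U) := Subgroup.zpowers (z : ↥U ⧸ V.subgroupOf U) with hH
  have hHcard : Nat.card H = p := by
    rw [hH, Nat.card_zpowers, Subgroup.orderOf_coe, hz]
  have hHn : H.Normal := by
    refine ⟨fun n hn g => ?_⟩
    obtain ⟨i, rfl⟩ := Subgroup.mem_zpowers_iff.mp hn
    have hc : (z : ↥U ⧸ V.subgroupOf U) ^ i ∈ Subgroup.center (↥U ⧸ V.subgroupOf U) :=
      Subgroup.zpow_mem _ z.2 i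
    have : g * (z : ↥U ⧸ V.subgroupOf U) ^ i * g⁻¹ = (z : ↥U ⧸ V.subgroupOf U) ^ i := by
      rw [Subgroup.mem_center_iff.mp hc g, mul_assoc, mul_inv_cancel, mul_one]
    rw [this]
    exact hn
  refine ⟨GroupTh_lift U V H, ⟨GroupTh_le_lift _ hVU.1, fun g hg v hv =>
    hVU.2 g (GroupTh_lift_le _ hg) v hv⟩, ⟨GroupTh_lift_le _, fun g hg v hv => ?_⟩, ?_, ?_⟩
  · obtain ⟨hvU, hv'⟩ := (GroupTh_mem_lift H).mp hv
    refine (GroupTh_mem_lift H).mpr ⟨U.mul_mem (U.mul_mem hg hvU) (U.inv_mem hg), ?_⟩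
    have := hHn.conj_mem _ hv' (QuotientGroup.mk' (V.subgroupOf U) ⟨g, hg⟩)
    rw [← map_inv, ← map_mul, ← map_mul] at this
    exact this
  · rw [GroupTh_relIndex_lift _ hVU.1, hHcard]
  · rw [GroupTh_lift_relIndex]
    have h1 := H.card_mul_index
    rw [hHcard, hcard, pow_succ'] at h1
    exact Nat.eq_of_mul_eq_mul_left hp.pos h1

theorem GroupTh_map_one {n : ℕ} {χ : G → ZMod n} (hχ : HomOn U χ) : χ 1 = 0 := by
  have := hχ 1 U.one_mem 1 U.one_mem
  rw [mul_one] at this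
  exact add_eq_left.mp this.symm

theorem GroupTh_map_pow {n : ℕ} {χ : G → ZMod n} (hχ : HomOn U χ) {g : G} (hg : g ∈ U) (k : ℕ) :
    χ (g ^ k) = k * χ g := by
  induction k with
  | zero => simp [GroupTh_map_one hχ]
  | succ k ih =>
    rw [pow_succ, hχ _ (U.pow_mem hg k) _ hg, ih]
    push_cast
    ring

/-- the homomorphism `U → ZMod n` attached to a character. -/
def GroupTh_hom {n : ℕ} {χ : G → ZMod n} (hχ : HomOn U χ) : ↥U →* Multiplicative (ZMod n) where
  toFun g := Multiplicative.ofAdd (χ g)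
  map_one' := by
    show Multiplicative.ofAdd (χ 1) = 1
    rw [GroupTh_map_one hχ]
    rfl
  map_mul' a b := by
    show Multiplicative.ofAdd (χ (a * b)) = _
    rw [hχ a a.2 b b.2]
    rfl

/-- a quotient of prime order is given by a character. -/
theorem exists_char_of_relIndex_prime (p : ℕ) [Fact p.Prime] (hV : 𝒪.isOpen V)
    (hVU : NormalIn V U) (h : V.relIndex U = p) :
    ∃ ψ : G → ZMod p, ∃ hψ : IsChar 𝒪 U ψ, (∃ σ ∈ U, ψ σ = 1) ∧ kerOn U ψ hψ.hom = V := by
  classical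
  have hn : (V.subgroupOf U).Normal := GroupTh_normal hVU
  have hcard : Nat.card (↥U ⧸ V.subgroupOf U) = p := h
  have hcard' : Nat.card (Multiplicative (ZMod p)) = p := by
    rw [Nat.card_congr Multiplicative.toAdd, Nat.card_zmod]
  let e : (↥U ⧸ V.subgroupOf U) ≃* Multiplicative (ZMod p) := mulEquivOfPrimeCardEq hcard hcard'
  let φ : ↥U →* Multiplicative (ZMod p) := e.toMonoidHom.comp (QuotientGroup.mk' (V.subgroupOf U))
  have hφsurj : Function.Surjective φ := e.surjective.comp (QuotientGroup.mk'_surjective _)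
  have hφker : ∀ g : ↥U, φ g = 1 ↔ (g : G) ∈ V := by
    intro g
    show e (QuotientGroup.mk' (V.subgroupOf U) g) = 1 ↔ _
    rw [EmbeddingLike.map_eq_one_iff, QuotientGroup.mk'_apply, QuotientGroup.eq_one_iff,
      Subgroup.mem_subgroupOf]
  let ψ : G → ZMod p := fun g => if hg : g ∈ U then Multiplicative.toAdd (φ ⟨g, hg⟩) else 0
  have hψU : ∀ g (hg : g ∈ U), ψ g = Multiplicative.toAdd (φ ⟨g, hg⟩) := fun g hg => dif_pos hg
  have hhom : HomOn U ψ := by
    intro g hg g' hg'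
    rw [hψU _ (U.mul_mem hg hg'), hψU _ hg, hψU _ hg', ← toAdd_mul, ← map_mul]
    rfl
  have hker : ∀ g ∈ U, (ψ g = 0 ↔ g ∈ V) := by
    intro g hg
    rw [hψU g hg, ← hφker ⟨g, hg⟩]
    exact Iff.rfl
  have hsm : Sm₁ 𝒪 U ψ := by
    refine ⟨V, hV, hVU.1, fun g hg s hs => ?_⟩
    rw [hhom g hg s (hVU.1 hs), (hker s (hVU.1 hs)).mpr hs, add_zero]
  refine ⟨ψ, ⟨hhom, hsm⟩, ?_, ?_⟩
  · obtain ⟨σ, hσ⟩ := hφsurj (Multiplicative.ofAdd 1)
    refine ⟨σ, σ.2, ?_⟩
    rw [hψU _ σ.2]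
    show Multiplicative.toAdd (φ σ) = 1
    rw [hσ]
    rfl
  · ext g
    rw [mem_kerOn]
    constructor
    · rintro ⟨hg, h0⟩
      exact (hker g hg).mp h0
    · intro hg
      exact ⟨hVU.1 hg, (hker g (hVU.1 hg)).mpr hg⟩

/-- a nonzero character with values in `ZMod p` takes the value `1`. -/
theorem exists_eq_one_of_ne_zero (p : ℕ) [Fact p.Prime] {χ : G → ZMod p} (hχ : HomOn U χ)
    {g : G} (hg : g ∈ U) (h : χ g ≠ 0) : ∃ σ ∈ U, χ σ = 1 := by
  refine ⟨g ^ ((χ g)⁻¹).val, U.pow_mem hg _, ?_⟩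
  rw [GroupTh_map_pow hχ hg, ZMod.natCast_val, ZMod.cast_id', id, inv_mul_cancel₀ h]

/-- the index of the kernel of a surjective character. -/
theorem relIndex_kerOn {n : ℕ} [NeZero n] {χ : G → ZMod n} (hχ : HomOn U χ)
    (hσ : ∃ σ ∈ U, χ σ = 1) : (kerOn U χ hχ).relIndex U = n := by
  obtain ⟨σ, hσU, hσ1⟩ := hσ
  have hker : (kerOn U χ hχ).subgroupOf U = (GroupTh_hom hχ).ker := by
    ext g
    rw [Subgroup.mem_subgroupOf, mem_kerOn, MonoidHom.mem_ker]
    constructor
    · rintro ⟨-, h0⟩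
      show Multiplicative.ofAdd (χ g) = 1
      rw [h0]
      rfl
    · intro h0
      exact ⟨g.2, h0⟩
  have hsurj : Function.Surjective (GroupTh_hom hχ) := by
    intro x
    refine ⟨⟨σ ^ (Multiplicative.toAdd x).val, U.pow_mem hσU _⟩, ?_⟩
    show Multiplicative.ofAdd (χ (σ ^ (Multiplicative.toAdd x).val)) = x
    rw [GroupTh_map_pow hχ hσU, hσ1, mul_one, ZMod.natCast_val, ZMod.cast_id', id]
    rfl
  show ((kerOn U χ hχ).subgroupOf U).index = n
  rw [hker, Subgroup.index_ker, MonoidHom.range_eq_top.mpr hsurj, Subgroup.card_top,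
    Nat.card_congr Multiplicative.toAdd, Nat.card_zmod]

end Fermat.Agent.S55.LDB
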