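/-
S55 / LDB : unramified cyclic classes in a local formation (abstract layer).
`u(U,n) := cyc (L.nr U n) π`, `π` a uniformiser of `U`.
-/
import Fermat.Agent.S55.LDB.CycClass

set_option autoImplicit false
set_option linter.unusedSectionVars false

namespace Fermat.Agent.S55.LDB

variable {G : Type*} [Group G] {𝒪 : OpenFam G}
variable {A : Type*} [CommGroup A] [MulDistribMulAction G A] {U V : Subgroup G}
variable {p : ℕ} [Fact p.Prime] (L : LocalFormation p 𝒪 A)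

include L in
lemma LocalFormation.smoothMod : SmoothMod 𝒪 A := L.smooth

lemma LocalFormation.ord_one (hU : 𝒪.isOpen U) : L.ord U 1 = 0 := by
  have h := L.ord_mul U hU 1 1 Fix.one Fix.one
  rw [mul_one] at h
  omega

lemma LocalFormation.ord_inv (hU : 𝒪.isOpen U) {a : A} (ha : Fix U a) :
    L.ord U a⁻¹ = - L.ord U a := by
  have h := L.ord_mul U hU a a⁻¹ ha ha.inv
  rw [mul_inv_cancel, L.ord_one hU] at h
  omega

lemma LocalFormation.ord_div (hU : 𝒪.isOpen U) {a b : A} (ha : Fix U a) (hb : Fix U b) :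
    L.ord U (a / b) = L.ord U a - L.ord U b := by
  rw [div_eq_mul_inv, L.ord_mul U hU a b⁻¹ ha hb.inv, L.ord_inv hU hb]
  ring

lemma LocalFormation.ord_pow (hU : 𝒪.isOpen U) {a : A} (ha : Fix U a) (k : ℕ) :
    L.ord U (a ^ k) = k * L.ord U a := by
  induction k with
  | zero => simp [L.ord_one hU]
  | succ k ih =>
    rw [pow_succ, L.ord_mul U hU _ _ (ha.pow k) ha, ih]
    push_cast
    ring

lemma LocalFormation.ord_zpow (hU : 𝒪.isOpen U) {a : A} (ha : Fix U a) (k : ℤ) :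
    L.ord U (a ^ k) = k * L.ord U a := by
  obtain ⟨n, rfl | rfl⟩ := k.eq_nat_or_neg
  · rw [zpow_natCast, L.ord_pow hU ha]
  · rw [zpow_neg, zpow_natCast, L.ord_inv hU (ha.pow n), L.ord_pow hU ha]
    ring

/-- `c(nr_{p^k}, b) ~ 1 ⟺ p^k ∣ ord b`  (`cob_cyc_iff` + `norm_nr`). -/
theorem cob_cyc_nr_iff (hU : 𝒪.isOpen U) (k : ℕ) {b : A} (hb : Fix U b) :
    Cob₂ 𝒪 U (cyc (L.nr U (p ^ k)) b) ↔ ((p ^ k : ℕ) : ℤ) ∣ L.ord U b := by
  have hne : p ^ k ≠ 0 := pow_ne_zero _ (Fact.out : p.Prime).ne_zero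
  have : NeZero (p ^ k) := ⟨hne⟩
  have hχ := L.nr_char U hU (p ^ k) hne
  rw [cob_cyc_iff L.smoothMod hχ (L.nr_surj U hU (p ^ k) hne)
    (L.h90 _ (isOpen_kerOn hχ)) hb]
  exact L.norm_nr U hU k b hb

/-- the class of `c(nr_{p^k}, b)` only depends on `ord b`. -/
theorem cyc_nr_eqv_unif (hU : 𝒪.isOpen U) (k : ℕ) {π b : A} (hπ : Fix U π)
    (hπ1 : L.ord U π = 1) (hb : Fix U b) :
    Eqv 𝒪 U (cyc (L.nr U (p ^ k)) b) (cyc (L.nr U (p ^ k)) π ^ (L.ord U b)) := by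
  unfold Eqv
  rw [← cyc_zpow, ← cyc_div, cob_cyc_nr_iff L hU k (hb.div (hπ.zpow _)),
    L.ord_div hU hb (hπ.zpow _), L.ord_zpow hU hπ, hπ1]
  simp

/-- order of `u(U,p^k)`. -/
theorem u_pow_cob_iff (hU : 𝒪.isOpen U) (k : ℕ) {π : A} (hπ : Fix U π) (hπ1 : L.ord U π = 1)
    (j : ℕ) : Cob₂ 𝒪 U (cyc (L.nr U (p ^ k)) π ^ j) ↔ p ^ k ∣ j := by
  rw [← cyc_pow, cob_cyc_nr_iff L hU k (hπ.pow j), L.ord_pow hU hπ, hπ1, mul_one,
    Int.natCast_dvd_natCast]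

/-- restriction: `u(U,p^k)|_V ~ u(V,p^k)^[U:V]`.
[`nr U = f nr V` on `V`, `cyc_nsmul_eqv`, `ord V (πU ^ f) = e f`, `cyc_nr_eqv_unif`.] -/
theorem u_res (hU : 𝒪.isOpen U) (hV : 𝒪.isOpen V) (hVU : V ≤ U) (k : ℕ) {πU πV : A}
    (hπU : Fix U πU) (hπU1 : L.ord U πU = 1) (hπV : Fix V πV) (hπV1 : L.ord V πV = 1) :
    Eqv 𝒪 V (cyc (L.nr U (p ^ k)) πU) (cyc (L.nr V (p ^ k)) πV ^ (V.relIndex U)) := by
  have hne : p ^ k ≠ 0 := pow_ne_zero _ (Fact.out : p.Prime).ne_zero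
  have : NeZero (p ^ k) := ⟨hne⟩
  obtain ⟨e, f, hef, hord, hnr⟩ := L.ef U V hU hV hVU
  have hπUV : Fix V πU := hπU.mono hVU
  have h1 : Eqv 𝒪 V (cyc (L.nr U (p ^ k)) πU)
      (cyc (fun g => (f : ZMod (p ^ k)) * L.nr V (p ^ k) g) πU) :=
    Eqv.of_eq hV (cyc_congr (fun g hg => hnr (p ^ k) hne g hg) πU)
  have h2 := cyc_nsmul_eqv (L.nr_char V hV (p ^ k) hne) hπUV f
  have h3 := cyc_nr_eqv_unif L hV k hπV hπV1 (hπUV.pow f)
  rw [cyc_pow] at h3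
  have h4 : L.ord V (πU ^ f) = ((V.relIndex U : ℕ) : ℤ) := by
    rw [L.ord_pow hV hπUV, hord πU hπU, hπU1, ← hef]
    push_cast
    ring
  rw [h4, zpow_natCast] at h3
  exact (h1.trans h2).trans h3

/-- change of modulus (`cyc_cast_eqv` + `nr_cast`). -/
theorem u_mod (hU : 𝒪.isOpen U) {n m : ℕ} (hn : n ≠ 0) (hm : m ≠ 0) {b : A} (hb : Fix U b) :
    Eqv 𝒪 U (cyc (L.nr U n) b) (cyc (L.nr U (n * m)) b ^ m) := by
  have : NeZero n := ⟨hn⟩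
  have : NeZero m := ⟨hm⟩
  have h1 := cyc_cast_eqv (n := n) (m := m) (L.nr_char U hU (n * m) (mul_ne_zero hn hm)) hb
  have h2 : Eqv 𝒪 U (cyc (L.nr U n) b)
      (cyc (fun g => ZMod.castHom (Dvd.intro m rfl : n ∣ n * m) (ZMod n) (L.nr U (n * m) g)) b) :=
    Eqv.of_eq hU (cyc_congr (fun g hg => (L.nr_cast U hU n m hn hm g hg).symm) b)
  exact h2.trans h1

/-- a character of `U` killing the kernel of `nr U n` is a multiple of `nr U n` (for BRG). -/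
theorem eq_mul_nr (hU : 𝒪.isOpen U) {n : ℕ} (hn : n ≠ 0) {χ : G → ZMod n} (hχ : HomOn U χ)
    (hker : ∀ g ∈ U, L.nr U n g = 0 → χ g = 0) {σ : G} (hσ : σ ∈ U) (hσ1 : L.nr U n σ = 1) :
    ∀ g ∈ U, χ g = χ σ * L.nr U n g := by
  have : NeZero n := ⟨hn⟩
  intro g hg
  have hnr := (L.nr_char U hU n hn).hom
  obtain ⟨v, hv, hgv⟩ := exists_eq_pow_mul hnr hσ hσ1 hg
  obtain ⟨hvU, hv0⟩ := (mem_kerOn hnr).1 hv
  have h1 : χ g = χ (σ ^ (L.nr U n g).val) + χ v := by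
    conv_lhs => rw [hgv]
    exact hχ _ (U.pow_mem hσ _) _ hvU
  rw [h1, hker v hvU hv0, add_zero, hχ.map_pow hσ, ZMod.natCast_zmod_val, mul_comm]

end Fermat.Agent.S55.LDB
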