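/-
S55 / LDB : classes split by a `p`-extension are unramified classes (abstract layer).

PROOFS.
`step_one`: `ψ` from `exists_char_of_relIndex_prime` (`kerOn U ψ = V`).  `f ~ cyc ψ b`
(`exists_eqv_cyc`).  `u := cyc (L.nr U (p^1)) π`: `u|_V ~ u(V,p)^p ~ 1` (`u_res`, `u_pow_cob_iff`), so
`u ~ cyc ψ b₀`; `u ≁ 1` so `¬ IsNm U ψ b₀` (`cob_cyc_iff`); `idx_gen`: `IsNm U ψ (b * b₀^i)`, hence
`f * u^i ~ 1`, and `u^p ~ 1`: `f ~ u^((p-1) i)`.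
`pgroup_case`: induction on `m`.  `m = 0`: `V = U`.  `m+1`: `exists_central_step` gives
`V ◁ V' ◁ U`, `[V':V] = p`, `[U:V'] = p^m`.  `f|_{V'} ~ u(V',p)^j` (`step_one`);
`u(U,p^(m+1))|_{V'} ~ u(V',p^(m+1))^(p^m) ~ u(V',p)` (`u_res`, `u_mod`), so
`g := f / u(U,p^(m+1))^j` is split by `V'`; induction: `g ~ u(U,p^m)^j' ~ u(U,p^(m+1))^(p j')` (`u_mod`).
-/
import Fermat.Agent.S55.LDB.BrauerA
import Fermat.Agent.S55.LDB.GroupTh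

set_option autoImplicit false
set_option linter.unusedSectionVars false

namespace Fermat.Agent.S55.LDB

variable {G : Type*} [Group G] {𝒪 : OpenFam G}
variable {A : Type*} [CommGroup A] [MulDistribMulAction G A]
variable {p : ℕ} [Fact p.Prime] (L : LocalFormation p 𝒪 A)

theorem step_one {U V : Subgroup G} (hV : 𝒪.isOpen V) (hVU : NormalIn V U)
    (hidx : V.relIndex U = p) {π : A} (hπ : Fix U π) (hπ1 : L.ord U π = 1)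
    {f : G × G → A} (hf : IsZ2 𝒪 U f) (hfV : Cob₂ 𝒪 V f) :
    ∃ j : ℕ, Eqv 𝒪 U f (cyc (L.nr U (p ^ 1)) π ^ j) := by
  have hp : p.Prime := Fact.out
  have hU : 𝒪.isOpen U := 𝒪.mono hV hVU.1
  have hA : SmoothMod 𝒪 A := L.smoothMod
  have hne : NeZero (p ^ 1) := ⟨pow_ne_zero 1 hp.ne_zero⟩
  have hne' : NeZero p := ⟨hp.ne_zero⟩
  obtain ⟨ψ, hψ, hσ, hker⟩ := exists_char_of_relIndex_prime (𝒪 := 𝒪) p hV hVU hidx
  have h90 : H90 𝒪 A (kerOn U ψ hψ.hom) := L.h90 _ (isOpen_kerOn hψ)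
  obtain ⟨b, hb, hfb⟩ := exists_eqv_cyc hA hψ hσ h90 hf (hker.symm ▸ hfV)
  have hu : IsZ2 𝒪 U (cyc (L.nr U (p ^ 1)) π) :=
    cyc_isZ2 (L.nr_char U hU (p ^ 1) hne.out) hπ
  obtain ⟨πV, hπV, hπV1⟩ := L.exists_unif V hV
  have huV : Cob₂ 𝒪 V (cyc (L.nr U (p ^ 1)) π) := by
    have h1 := u_res L hU hV hVU.1 1 hπ hπ1 hπV hπV1
    rw [hidx] at h1
    exact h1.cob_iff.2 ((u_pow_cob_iff L hV 1 hπV hπV1 p).2 (by rw [pow_one]))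
  obtain ⟨b₀, hb₀, hub₀⟩ := exists_eqv_cyc hA hψ hσ h90 hu (hker.symm ▸ huV)
  have hnu : ¬ Cob₂ 𝒪 U (cyc (L.nr U (p ^ 1)) π) := by
    intro h
    have h1 := (u_pow_cob_iff L hU 1 hπ hπ1 1).1 (by rwa [pow_one])
    rw [pow_one] at h1
    exact hp.one_lt.ne' (Nat.dvd_one.1 h1)
  have hnot : ¬ IsNm U ψ b₀ := fun h =>
    hnu (hub₀.cob_iff.2 ((cob_cyc_iff hA hψ hσ h90 hb₀).2 h))
  obtain ⟨i, hi⟩ := L.idx_gen U hU ψ hψ hσ b₀ b hb₀ hb hnot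
  have h1 : Cob₂ 𝒪 U (cyc ψ b * cyc ψ b₀ ^ i) := by
    have := (cob_cyc_iff hA hψ hσ h90 (hb.mul (hb₀.pow i))).2 hi
    rwa [cyc_mul, cyc_pow] at this
  have h2 : Cob₂ 𝒪 U (f * cyc (L.nr U (p ^ 1)) π ^ i) :=
    (hfb.mul (hub₀.pow i)).cob_iff.2 h1
  have h3 : Cob₂ 𝒪 U (cyc (L.nr U (p ^ 1)) π ^ p) :=
    (u_pow_cob_iff L hU 1 hπ hπ1 p).2 (by rw [pow_one])
  refine ⟨(p - 1) * i, ?_⟩
  have h4 := h2.div (h3.pow i)
  have h5 : f * cyc (L.nr U (p ^ 1)) π ^ i / (cyc (L.nr U (p ^ 1)) π ^ p) ^ i =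
      f / cyc (L.nr U (p ^ 1)) π ^ ((p - 1) * i) := by
    have h6 : p * i = (p - 1) * i + i := by
      obtain ⟨k, rfl⟩ : ∃ k, p = k + 1 := ⟨p - 1, by have := hp.one_lt; omega⟩
      rw [Nat.add_sub_cancel]; ring
    rw [← pow_mul, h6, pow_add, mul_div_mul_right_eq_div]
  rw [h5] at h4
  exact h4

theorem pgroup_case (m : ℕ) : ∀ {U V : Subgroup G}, 𝒪.isOpen V → NormalIn V U →
    V.relIndex U = p ^ m → ∀ {π : A}, Fix U π → L.ord U π = 1 →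
    ∀ {f : G × G → A}, IsZ2 𝒪 U f → Cob₂ 𝒪 V f →
    ∃ j : ℕ, Eqv 𝒪 U f (cyc (L.nr U (p ^ m)) π ^ j) := by
  have hp : p.Prime := Fact.out
  induction m with
  | zero =>
    intro U V hV hVU hidx π hπ hπ1 f hf hfV
    have hU : 𝒪.isOpen U := 𝒪.mono hV hVU.1
    rw [pow_zero, Subgroup.relIndex_eq_one] at hidx
    refine ⟨0, ?_⟩
    rw [pow_zero, eqv_one_iff]
    exact hfV.mono hU hidx
  | succ m ih =>
    intro U V hV hVU hidx π hπ hπ1 f hf hfV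
    have hU : 𝒪.isOpen U := 𝒪.mono hV hVU.1
    obtain ⟨V', hVV', hV'U, h1, h2⟩ := exists_central_step p hVU hidx
    have hV' : 𝒪.isOpen V' := 𝒪.mono hV hVV'.1
    obtain ⟨πV', hπV', hπV'1⟩ := L.exists_unif V' hV'
    obtain ⟨j, hj⟩ := step_one L hV hVV' h1 hπV' hπV'1 (hf.mono hV' hV'U.1) hfV
    have hpm : p ^ m ≠ 0 := pow_ne_zero m hp.ne_zero
    have hne : NeZero (p ^ (m + 1)) := ⟨pow_ne_zero _ hp.ne_zero⟩
    have e1 := u_res L hU hV' hV'U.1 (m + 1) hπ hπ1 hπV' hπV'1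
    rw [h2] at e1
    have e2 := u_mod L hV' (n := p ^ 1) (m := p ^ m) (pow_ne_zero 1 hp.ne_zero) hpm hπV'
    rw [show p ^ 1 * p ^ m = p ^ (m + 1) by rw [pow_one, pow_succ']] at e2
    have e3 : Eqv 𝒪 V' f (cyc (L.nr U (p ^ (m + 1))) π ^ j) :=
      hj.trans ((e2.trans e1.symm).pow j)
    have hW : IsZ2 𝒪 U (cyc (L.nr U (p ^ (m + 1))) π) :=
      cyc_isZ2 (L.nr_char U hU (p ^ (m + 1)) hne.out) hπ
    obtain ⟨j', hj'⟩ := ih hV' hV'U h2 hπ hπ1 (hf.div (hW.pow j)) e3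
    have e4 := u_mod L hU (n := p ^ m) (m := p) hpm hp.ne_zero hπ
    rw [← pow_succ] at e4
    have e5 := hj'.trans (e4.pow j')
    refine ⟨j + p * j', ?_⟩
    have e6 : f / cyc (L.nr U (p ^ (m + 1))) π ^ j / (cyc (L.nr U (p ^ (m + 1))) π ^ p) ^ j' =
        f / cyc (L.nr U (p ^ (m + 1))) π ^ (j + p * j') := by
      rw [div_div, ← pow_mul, ← pow_add]
    unfold Eqv at e5 ⊢
    rw [e6] at e5
    exact e5

end Fermat.Agent.S55.LDB
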