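/-
S55 / LDB : (Y1*) the `p`-torsion of the Brauer group of a local formation (abstract layer).

PROOF of `main_Y1`.  `f` is split by an open `V`, normal in `G`, `V ≤ U` (`IsZ2.exists_split`).
`P` from `exists_sylow_between`: `[P:V] = p^m`, `t := [U:P]` prime to `p`.  `πP` a uniformiser of `P`.
`pgroup_case`: `f ~_P u(P,p^m)^j`.  `f^p ~ 1` ⟹ `p^m ∣ p j` (`u_pow_cob_iff`).  If `m = 0`, `f ~_P 1`;
otherwise `j = p^(m-1) j'` and `u(P,p^m)^(p^(m-1) j') ~ u(P,p)^j'` (`u_mod`).  In both cases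
`f ~_P u(P,p)^j'`.  `u(U,p)|_P ~ u(P,p)^t` (`u_res`).  Choose `s` with `s t ≡ 1 mod p`; as
`u(P,p)^p ~ 1`, `g := f / u(U,p)^(s j')` satisfies `g ~_P 1`, `g^p ~_U 1`; `cob_of_coprime_index`.
-/
import Fermat.Agent.S55.LDB.BrauerB

set_option autoImplicit false
set_option linter.unusedSectionVars false

namespace Fermat.Agent.S55.LDB

variable {G : Type*} [Group G] {𝒪 : OpenFam G}
variable {A : Type*} [CommGroup A] [MulDistribMulAction G A]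
variable {p : ℕ} [Fact p.Prime] (L : LocalFormation p 𝒪 A)

/-- on the Sylow level, `f` is a power of `u(P,p)`. -/
theorem BrauerC_sylow_level {P V : Subgroup G} (hV : 𝒪.isOpen V) (hVP : NormalIn V P) {m : ℕ}
    (hidx : V.relIndex P = p ^ m) {πP : A} (hπP : Fix P πP) (hπP1 : L.ord P πP = 1)
    {f : G × G → A} (hf : IsZ2 𝒪 P f) (hfV : Cob₂ 𝒪 V f) (hfp : Cob₂ 𝒪 P (f ^ p)) :
    ∃ j : ℕ, Eqv 𝒪 P f (cyc (L.nr P (p ^ 1)) πP ^ j) := by
  have hp : p.Prime := Fact.out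
  have hP : 𝒪.isOpen P := hf.sm.isOpen
  obtain ⟨j, hj⟩ := pgroup_case L m hV hVP hidx hπP hπP1 hf hfV
  have h1 : Cob₂ 𝒪 P (cyc (L.nr P (p ^ m)) πP ^ (j * p)) := by
    rw [pow_mul]
    exact (hj.pow p).cob_iff.mp hfp
  have h2 : p ^ m ∣ j * p := (u_pow_cob_iff L hP m hπP hπP1 _).mp h1
  cases m with
  | zero =>
    refine ⟨0, ?_⟩
    rw [pow_zero, eqv_one_iff]
    exact hj.cob_iff.mpr ((u_pow_cob_iff L hP 0 hπP hπP1 j).mpr (by simp))
  | succ m' =>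
    have h3 : p ^ m' ∣ j := by
      rw [pow_succ] at h2
      exact Nat.dvd_of_mul_dvd_mul_right hp.pos h2
    obtain ⟨j', rfl⟩ := h3
    refine ⟨j', hj.trans ?_⟩
    have h4 := u_mod L hP (n := p ^ 1) (m := p ^ m') (pow_ne_zero _ hp.ne_zero)
      (pow_ne_zero _ hp.ne_zero) hπP
    have h5 : p ^ (m' + 1) = p ^ 1 * p ^ m' := by rw [← pow_add, add_comm]
    rw [h5, pow_mul]
    exact (h4.pow j').symm

/-- (Y1*) every `p`-torsion class on `U` is a power of `u(U,p)`. -/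
theorem main_Y1 {U : Subgroup G} {π : A} (hπ : Fix U π) (hπ1 : L.ord U π = 1)
    {f : G × G → A} (hf : IsZ2 𝒪 U f) (hfp : Cob₂ 𝒪 U (f ^ p)) :
    ∃ j : ℕ, Eqv 𝒪 U f (cyc (L.nr U (p ^ 1)) π ^ j) := by
  have hp : p.Prime := Fact.out
  have hU : 𝒪.isOpen U := hf.sm.isOpen
  have hne : NeZero (p ^ 1) := ⟨pow_ne_zero _ hp.ne_zero⟩
  obtain ⟨V, hVn, hV, hVU, hfV⟩ := hf.exists_split
  have hVUn : NormalIn V U := ⟨hVU, fun g _ v hv => hVn.conj_mem v hv g⟩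
  have hfin : V.relIndex U ≠ 0 := by
    have := 𝒪.finiteIndex hV
    exact Subgroup.FiniteIndex.index_ne_zero
  obtain ⟨P, hVP, hPU, ⟨m, hm⟩, hcop⟩ := exists_sylow_between p hVUn hfin
  have hP : 𝒪.isOpen P := 𝒪.mono hV hVP
  have hVPn : NormalIn V P := ⟨hVP, fun g _ v hv => hVn.conj_mem v hv g⟩
  obtain ⟨πP, hπP, hπP1⟩ := L.exists_unif P hP
  obtain ⟨j', hj'⟩ := BrauerC_sylow_level L hV hVPn hm hπP hπP1 (hf.mono hP hPU) hfV
    (hfp.mono hP hPU)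
  have hres := u_res L hU hP hPU 1 hπ hπ1 hπP hπP1
  obtain ⟨s, -, hs⟩ := Nat.exists_mul_mod_eq_one_of_coprime hcop hp.one_lt
  refine ⟨s * j', ?_⟩
  have hZ : IsZ2 𝒪 U (f / cyc (L.nr U (p ^ 1)) π ^ (s * j')) :=
    hf.div ((cyc_isZ2 (L.nr_char U hU (p ^ 1) hne.out) hπ).pow _)
  refine cob_of_coprime_index L.smoothMod hPU hcop hZ ?_ ?_
  · -- trivial on `P`
    have h1 : Eqv 𝒪 P (f / cyc (L.nr U (p ^ 1)) π ^ (s * j'))
        (cyc (L.nr P (p ^ 1)) πP ^ j' / (cyc (L.nr P (p ^ 1)) πP ^ (P.relIndex U)) ^ (s * j')) :=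
      hj'.div (hres.pow _)
    refine h1.cob_iff.mpr ?_
    obtain ⟨c, h2⟩ : ∃ c, P.relIndex U * s = 1 + p * c := by
      refine ⟨P.relIndex U * s / p, ?_⟩
      have := Nat.mod_add_div (P.relIndex U * s) p
      omega
    have h3 : cyc (L.nr P (p ^ 1)) πP ^ j' /
        (cyc (L.nr P (p ^ 1)) πP ^ (P.relIndex U)) ^ (s * j') =
        (cyc (L.nr P (p ^ 1)) πP ^ (p * c * j'))⁻¹ := by
      rw [← pow_mul, ← mul_assoc, h2, add_mul, one_mul, pow_add]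
      simp
    rw [h3]
    refine ((u_pow_cob_iff L hP 1 hπP hπP1 _).mpr ?_).inv
    rw [pow_one, mul_assoc]
    exact dvd_mul_right _ _
  · rw [div_pow]
    refine hfp.div ?_
    rw [← pow_mul]
    refine (u_pow_cob_iff L hU 1 hπ hπ1 _).mpr ?_
    rw [pow_one]
    exact dvd_mul_left _ _

end Fermat.Agent.S55.LDB
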