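/-
S55 / LDB : DICTIONARY between the language of `Fermat/Agent/S55/Defs*.lean` (typed cochains on a group
`W`, level structure `𝒲 : Lev W`, additive coefficients `ZMod p` with a representation `ρ`) and the
"On"-style language of LDB (functions on the ambient group `G`, `μ_p = A[p]`-valued, multiplicative).
`ι : W →* G` is injective with range `V` (examples: `W = ↥V`, `ι = V.subtype`; `W = G`, `ι = id`).
-/
import Fermat.Agent.S55.Defs3
import Fermat.Agent.S55.LDB.Mu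

set_option autoImplicit false
set_option linter.unusedSectionVars false

namespace Fermat.Agent.S55.LDB

variable {G : Type} [Group G] (𝒪 : OpenFam G)

/-- compatibility of a level structure on `W` with the open subgroups of `G`. -/
structure Compat {W : Type} [Group W] (𝒲 : Lev W) (ι : W →* G) (V : Subgroup G) : Prop where
  inj : Function.Injective ι
  range_eq : ι.range = V
  isOpen_map : ∀ U ∈ 𝒲.mem, 𝒪.isOpen (U.map ι)
  cofinal : ∀ N : Subgroup G, 𝒪.isOpen N → ∃ U ∈ 𝒲.mem, U.map ι ≤ N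

variable {𝒪}

lemma Compat.isOpen {W : Type} [Group W] {𝒲 : Lev W} {ι : W →* G} {V : Subgroup G}
    (h : Compat 𝒪 𝒲 ι V) : 𝒪.isOpen V := by
  obtain ⟨U, hU⟩ := 𝒲.nonempty
  refine 𝒪.mono (h.isOpen_map U hU) ?_
  rw [← h.range_eq]
  exact Subgroup.map_le_range ι U

/-- the induced compatibility on an open subgroup. -/
lemma Compat.sub {𝒱 : Lev G} (h : Compat 𝒪 𝒱 (MonoidHom.id G) ⊤) {V : Subgroup G}
    (hV : 𝒪.isOpen V) : Compat 𝒪 (𝒱.sub V) V.subtype V := by
  refine ⟨Subtype.val_injective, Subgroup.range_subtype V, ?_, ?_⟩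
  · rintro _ ⟨U', hU', rfl⟩
    rw [Subgroup.map_comap_eq, Subgroup.range_subtype]
    have h1 := h.isOpen_map U' hU'
    rw [Subgroup.map_id] at h1
    exact 𝒪.inf hV h1
  · intro N hN
    obtain ⟨U', hU', hle⟩ := h.cofinal N hN
    rw [Subgroup.map_id] at hle
    exact ⟨_, ⟨U', hU', rfl⟩, (Subgroup.map_comap_le _ _).trans hle⟩

section ext
variable {W : Type} [Group W] (ι : W →* G) {X : Type*}

open Classical in
/-- extension of a 1-cochain on `W` to `G` (value `x₀` outside the range of `ι`). -/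
noncomputable def ext₁ (x₀ : X) (f : W → X) : G → X :=
  fun g => if h : ∃ w, ι w = g then f h.choose else x₀

/-- extension of a 2-cochain on `W` to `G`. -/
noncomputable def ext₂ (x₀ : X) (f : W × W → X) : G × G → X :=
  fun g => ext₁ (ι.prodMap ι) x₀ f g

variable {ι}

lemma ext₁_apply (hι : Function.Injective ι) (x₀ : X) (f : W → X) (w : W) :
    ext₁ ι x₀ f (ι w) = f w := by
  have hex : ∃ w', ι w' = ι w := ⟨w, rfl⟩
  unfold ext₁
  rw [dif_pos hex]
  exact congrArg f (hι hex.choose_spec)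

lemma ext₂_apply (hι : Function.Injective ι) (x₀ : X) (f : W × W → X) (w w' : W) :
    ext₂ ι x₀ f (ι w, ι w') = f (w, w') := by
  have hinj : Function.Injective (ι.prodMap ι) := by
    rw [MonoidHom.coe_prodMap]
    exact hι.prodMap hι
  exact ext₁_apply hinj x₀ f (w, w')

variable {𝒲 : Lev W} {V : Subgroup G}

lemma Dict_lc1_comp (h : Compat 𝒪 𝒲 ι V) {β : G → X} (hβ : Sm₁ 𝒪 V β) :
    LC1 𝒲 (fun w => β (ι w)) := by
  obtain ⟨N, hN, -, hβN⟩ := hβ
  obtain ⟨U, hU, hle⟩ := h.cofinal N hN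
  refine ⟨U, hU, fun g s hs => ?_⟩
  have hg : ι g ∈ V := h.range_eq ▸ ⟨g, rfl⟩
  change β (ι (g * s)) = β (ι g)
  rw [map_mul]
  exact hβN _ hg _ (hle ⟨s, hs, rfl⟩)

lemma Dict_lc2_comp (h : Compat 𝒪 𝒲 ι V) {β : G × G → X} (hβ : Sm₂ 𝒪 V β) :
    LC2 𝒲 (fun w : W × W => β (ι w.1, ι w.2)) := by
  obtain ⟨N, hN, -, hβN⟩ := hβ
  obtain ⟨U, hU, hle⟩ := h.cofinal N hN
  refine ⟨U, hU, fun g g' s s' hs hs' => ?_⟩
  have hg : ι g ∈ V := h.range_eq ▸ ⟨g, rfl⟩
  have hg' : ι g' ∈ V := h.range_eq ▸ ⟨g', rfl⟩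
  change β (ι (g * s), ι (g' * s')) = β (ι g, ι g')
  rw [map_mul, map_mul]
  exact hβN _ hg _ hg' _ (hle ⟨s, hs, rfl⟩) _ (hle ⟨s', hs', rfl⟩)

lemma lc1_iff (h : Compat 𝒪 𝒲 ι V) (x₀ : X) (f : W → X) :
    LC1 𝒲 f ↔ Sm₁ 𝒪 V (ext₁ ι x₀ f) := by
  constructor
  · rintro ⟨U, hU, hf⟩
    refine ⟨U.map ι, h.isOpen_map U hU, ?_, ?_⟩
    · rw [← h.range_eq]
      exact Subgroup.map_le_range ι U
    · intro g hg s hs
      rw [← h.range_eq] at hg
      obtain ⟨w, rfl⟩ := hg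
      obtain ⟨u, hu, rfl⟩ := hs
      rw [← map_mul, ext₁_apply h.inj, ext₁_apply h.inj, hf w u hu]
  · intro hβ
    have h1 := Dict_lc1_comp h hβ
    have h2 : (fun w => ext₁ ι x₀ f (ι w)) = f := funext fun w => ext₁_apply h.inj x₀ f w
    rwa [h2] at h1

lemma lc2_iff (h : Compat 𝒪 𝒲 ι V) (x₀ : X) (f : W × W → X) :
    LC2 𝒲 f ↔ Sm₂ 𝒪 V (ext₂ ι x₀ f) := by
  constructor
  · rintro ⟨U, hU, hf⟩
    refine ⟨U.map ι, h.isOpen_map U hU, ?_, ?_⟩
    · rw [← h.range_eq]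
      exact Subgroup.map_le_range ι U
    · intro g hg g' hg' s hs s' hs'
      rw [← h.range_eq] at hg hg'
      obtain ⟨w, rfl⟩ := hg
      obtain ⟨w', rfl⟩ := hg'
      obtain ⟨u, hu, rfl⟩ := hs
      obtain ⟨u', hu', rfl⟩ := hs'
      rw [← map_mul, ← map_mul, ext₂_apply h.inj, ext₂_apply h.inj, hf w w' u u' hu hu']
  · intro hβ
    have h1 := Dict_lc2_comp h hβ
    have h2 : (fun w : W × W => ext₂ ι x₀ f (ι w.1, ι w.2)) = f :=
      funext fun w => ext₂_apply h.inj x₀ f w.1 w.2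
    rwa [h2] at h1

lemma lc1_comp (h : Compat 𝒪 𝒲 ι V) {β : G → X} (hβ : Sm₁ 𝒪 V β) : LC1 𝒲 (fun w => β (ι w)) := by
  exact Dict_lc1_comp h hβ

lemma lc2_comp (h : Compat 𝒪 𝒲 ι V) {β : G × G → X} (hβ : Sm₂ 𝒪 V β) :
    LC2 𝒲 (fun w : W × W => β (ι w.1, ι w.2)) := by
  exact Dict_lc2_comp h hβ

end ext

section exp
variable {A : Type*} [CommGroup A] [MulDistribMulAction G A]
variable {p : ℕ} [Fact p.Prime] (FF : FieldFormation p 𝒪 A)

/-- `x ↦ ζ^x`, `ZMod p → A[p]`. -/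
def FieldFormation.exp (x : ZMod p) : A := FF.ζ ^ x.val

lemma FieldFormation.Dict_exp_natCast (n : ℕ) : FF.exp (n : ZMod p) = FF.ζ ^ n := by
  rw [FieldFormation.exp, ZMod.val_natCast, ← pow_eq_pow_mod n FF.ζ_pow]

lemma FieldFormation.exp_zero : FF.exp 0 = 1 := by
  rw [FieldFormation.exp, ZMod.val_zero, pow_zero]

lemma FieldFormation.exp_add (x y : ZMod p) : FF.exp (x + y) = FF.exp x * FF.exp y := by
  rw [FieldFormation.exp, FieldFormation.exp, FieldFormation.exp, ZMod.val_add,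
    ← pow_eq_pow_mod _ FF.ζ_pow, pow_add]

lemma FieldFormation.exp_neg (x : ZMod p) : FF.exp (-x) = (FF.exp x)⁻¹ := by
  apply eq_inv_of_mul_eq_one_left
  rw [← FF.exp_add, neg_add_cancel, FF.exp_zero]

lemma FieldFormation.exp_sub (x y : ZMod p) : FF.exp (x - y) = FF.exp x / FF.exp y := by
  rw [sub_eq_add_neg, FF.exp_add, FF.exp_neg, div_eq_mul_inv]

lemma FieldFormation.exp_mul_val (x y : ZMod p) : FF.exp (x * y) = FF.exp y ^ x.val := by
  rw [FieldFormation.exp, FieldFormation.exp, ZMod.val_mul, ← pow_eq_pow_mod _ FF.ζ_pow, pow_mul']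

lemma FieldFormation.exp_natCast_mul (n : ℕ) (y : ZMod p) :
    FF.exp ((n : ZMod p) * y) = FF.exp y ^ n := by
  have h : (n : ZMod p) * y = ((n * y.val : ℕ) : ZMod p) := by
    rw [Nat.cast_mul, ZMod.natCast_zmod_val]
  rw [h, FF.Dict_exp_natCast, FieldFormation.exp, pow_mul']

lemma FieldFormation.exp_sum {ι' : Type*} (s : Finset ι') (f : ι' → ZMod p) :
    FF.exp (∑ i ∈ s, f i) = ∏ i ∈ s, FF.exp (f i) := by
  classical
  induction s using Finset.induction_on with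
  | empty => rw [Finset.sum_empty, Finset.prod_empty, FF.exp_zero]
  | insert a s ha ih => rw [Finset.sum_insert ha, Finset.prod_insert ha, FF.exp_add, ih]

lemma FieldFormation.exp_pow (x : ZMod p) : FF.exp x ^ p = 1 := by
  rw [FieldFormation.exp, ← pow_mul, mul_comm, pow_mul, FF.ζ_pow, one_pow]

lemma FieldFormation.exp_injective : Function.Injective FF.exp := by
  have hord : orderOf FF.ζ = p := orderOf_eq_prime FF.ζ_pow FF.ζ_ne
  intro x y hxy
  have h := pow_injOn_Iio_orderOf (x := FF.ζ)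
  rw [hord] at h
  exact ZMod.val_injective p (h (ZMod.val_lt x) (ZMod.val_lt y) hxy)

lemma FieldFormation.exists_exp_eq {z : A} (hz : z ^ p = 1) : ∃ x : ZMod p, FF.exp x = z := by
  obtain ⟨i, rfl⟩ := FF.ζ_gen z hz
  exact ⟨(i : ZMod p), FF.Dict_exp_natCast i⟩

/-- `ρ` is the action of `W` on `μ_p`, read through `exp`. -/
def MuCompat {W : Type} [Group W] (ι : W →* G) (ρ : Representation (ZMod p) W (ZMod p)) : Prop :=
  ∀ (w : W) (x : ZMod p), ι w • FF.exp x = FF.exp (ρ w x)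

end exp

end Fermat.Agent.S55.LDB
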