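/-
S55 / LDB : CONCRETE layer, part 1.  `Ω/K` an algebraic closure in characteristic 0,
`G = Gal(Ω/K) = Ω ≃ₐ[K] Ω`, `A = Ωˣ`.  The family of open subgroups and the Galois dictionary.
(Used for `K = ℚ_[q]`, `Ω = PadicAlgCl q` by LDB/LOC and for `K = ℚ`, `Ω = AlgebraicClosure ℚ` by BRG.)
Mathlib: `Mathlib/FieldTheory/KrullTopology.lean`, `Mathlib/FieldTheory/Galois/Infinite.lean`
(`InfiniteGalois.fixedField_fixingSubgroup`, `InfiniteGalois.fixingSubgroup_fixedField`),
`IntermediateField.normalClosure`, `IntermediateField.restrictNormalHom_ker`.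
-/
import Fermat.Agent.S55.LDB.Basic

set_option autoImplicit false
set_option linter.unusedSectionVars false

namespace Fermat.Agent.S55.LDB

variable (K Ω : Type*) [Field K] [Field Ω] [Algebra K Ω] [CharZero K]
  [Algebra.IsAlgebraic K Ω] [IsAlgClosed Ω]

/-- `Ω/K` is Galois. -/
lemma Krull_isGalois : IsGalois K Ω := by
  have h1 : IsAlgClosure K Ω := ⟨inferInstance, inferInstance⟩
  have h2 : Normal K Ω := IsAlgClosure.normal K Ω
  exact ⟨⟩

/-- `U ≤ Gal(Ω/K)` is open iff it contains `Gal(Ω/E)` for some finite `E/K`. -/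
def krullFam : OpenFam (Ω ≃ₐ[K] Ω) where
  isOpen U := ∃ E : IntermediateField K Ω, FiniteDimensional K E ∧ E.fixingSubgroup ≤ U
  isOpen_top := ⟨⊥, inferInstance, le_top⟩
  inf := by
    rintro U V ⟨E, hE, hEU⟩ ⟨E', hE', hE'V⟩
    exact ⟨E ⊔ E', IntermediateField.finiteDimensional_sup E E',
      le_inf ((IntermediateField.fixingSubgroup_le le_sup_left).trans hEU)
        ((IntermediateField.fixingSubgroup_le le_sup_right).trans hE'V)⟩
  mono := by
    rintro U V ⟨E, hE, hEU⟩ hUV
    exact ⟨E, hE, hEU.trans hUV⟩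
  exists_normal := by
    rintro U ⟨E, hE, hEU⟩
    have hG := Krull_isGalois K Ω
    have h1 : FiniteDimensional K (IntermediateField.normalClosure K E Ω) :=
      normalClosure.is_finiteDimensional K E Ω
    have h2 : Normal K (IntermediateField.normalClosure K E Ω) := normalClosure.normal K E Ω
    have h3 : IsGalois K (IntermediateField.normalClosure K E Ω) := ⟨⟩
    exact ⟨(IntermediateField.normalClosure K E Ω).fixingSubgroup, inferInstance,
      ⟨_, h1, le_rfl⟩, (IntermediateField.fixingSubgroup_le E.le_normalClosure).trans hEU⟩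
  finiteIndex := by
    rintro U ⟨E, hE, hEU⟩
    have hG := Krull_isGalois K Ω
    have h1 : E.fixingSubgroup.index ≠ 0 := by
      rw [← IntermediateField.finrank_eq_fixingSubgroup_index]
      exact Module.finrank_pos.ne'
    exact ⟨ne_zero_of_dvd_ne_zero h1 (Subgroup.index_dvd_of_le hEU)⟩

variable {K Ω}

lemma krullFam_isOpen_iff {U : Subgroup (Ω ≃ₐ[K] Ω)} :
    (krullFam K Ω).isOpen U ↔
      ∃ E : IntermediateField K Ω, FiniteDimensional K E ∧ E.fixingSubgroup ≤ U := Iff.rfl

lemma isOpen_fixingSubgroup (E : IntermediateField K Ω) [FiniteDimensional K E] :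
    (krullFam K Ω).isOpen E.fixingSubgroup :=
  ⟨E, inferInstance, le_rfl⟩

/-- the fixed field of an open subgroup is finite over `K`. -/
lemma finiteDimensional_fixedField {U : Subgroup (Ω ≃ₐ[K] Ω)} (hU : (krullFam K Ω).isOpen U) :
    FiniteDimensional K (IntermediateField.fixedField U) := by
  obtain ⟨E, hE, hEU⟩ := hU
  have hG := Krull_isGalois K Ω
  have h1 : IntermediateField.fixedField U ≤ E := by
    rw [← InfiniteGalois.fixedField_fixingSubgroup E]
    exact IntermediateField.fixedField_antitone hEU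
  exact Module.Finite.of_injective (IntermediateField.inclusion h1).toLinearMap
    (IntermediateField.inclusion_injective h1)

/-- an open subgroup is the fixing subgroup of its fixed field. -/
lemma fixingSubgroup_fixedField_of_isOpen {U : Subgroup (Ω ≃ₐ[K] Ω)}
    (hU : (krullFam K Ω).isOpen U) : (IntermediateField.fixedField U).fixingSubgroup = U := by
  obtain ⟨E, hE, hEU⟩ := hU
  have hG := Krull_isGalois K Ω
  have h1 : IsOpen (U : Set (Ω ≃ₐ[K] Ω)) :=
    Subgroup.isOpen_mono hEU (IntermediateField.fixingSubgroup_isOpen E)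
  have h2 : IsClosed (U : Set (Ω ≃ₐ[K] Ω)) := Subgroup.isClosed_of_isOpen U h1
  exact InfiniteGalois.fixingSubgroup_fixedField ⟨U, h2⟩

lemma fixedField_fixingSubgroup' (E : IntermediateField K Ω) :
    IntermediateField.fixedField E.fixingSubgroup = E := by
  have hG := Krull_isGalois K Ω
  exact InfiniteGalois.fixedField_fixingSubgroup E

/-- `A^U = F_Uˣ`. -/
lemma fix_iff_mem_fixedField {U : Subgroup (Ω ≃ₐ[K] Ω)} {a : Ωˣ} :
    Fix U a ↔ (a : Ω) ∈ IntermediateField.fixedField U := by
  rw [IntermediateField.mem_fixedField_iff]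
  constructor
  · intro h g hg
    have := congrArg Units.val (h g hg)
    simpa using this
  · intro h g hg
    apply Units.ext
    simpa using h g hg

lemma fix_fixingSubgroup_iff {E : IntermediateField K Ω} {a : Ωˣ} :
    Fix E.fixingSubgroup a ↔ (a : Ω) ∈ E := by
  rw [fix_iff_mem_fixedField, fixedField_fixingSubgroup']

/-- `[G : G_E] = [E : K]`. -/
lemma index_fixingSubgroup (E : IntermediateField K Ω) [FiniteDimensional K E] :
    E.fixingSubgroup.index = Module.finrank K E := by
  have hG := Krull_isGalois K Ω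
  exact (IntermediateField.finrank_eq_fixingSubgroup_index (L := E)).symm

/-- `[G_E : G_E'] = [E' : E]`, in the form `[G_E : G_E'] [E : K] = [E' : K]`. -/
lemma relIndex_fixingSubgroup_mul (E E' : IntermediateField K Ω) [FiniteDimensional K E']
    (h : E ≤ E') :
    E'.fixingSubgroup.relIndex E.fixingSubgroup * Module.finrank K E = Module.finrank K E' := by
  have hG := Krull_isGalois K Ω
  rw [IntermediateField.finrank_eq_fixingSubgroup_index (L := E),
    IntermediateField.finrank_eq_fixingSubgroup_index (L := E')]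
  exact Subgroup.relIndex_mul_index (IntermediateField.fixingSubgroup_le h)

lemma smul_units_val (g : Ω ≃ₐ[K] Ω) (a : Ωˣ) : ((g • a : Ωˣ) : Ω) = g (a : Ω) := by
  rfl

end Fermat.Agent.S55.LDB
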