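/-
S55 / LDB : final exports, part A: the concrete open family / level structure / μ on the local group.
-/
import Fermat.Agent.S55.Concrete
import Fermat.Agent.S55.LDB.Dict
import Fermat.Agent.S55.LDB.Krull
import Fermat.Agent.S55.DIC.Image

set_option autoImplicit false
set_option linter.unusedSectionVars false

namespace Fermat.Agent.S55.LDB

open Fermat.Agent.S55.DIC (Gq locF embOf)

variable (q : ℕ) [Fact q.Prime]

/-- the open subgroups of `Γ`. -/
noncomputable abbrev famQ : OpenFam (Gq q) := krullFam ℚ_[q] (PadicAlgCl q)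

/-- the level structure of `Concrete.lean` on the local group. -/
noncomputable abbrev levQ : Lev (Gq q) := levAll.comap (localGaloisToGlobal q)

/-- Prelude levels = open subgroups.
[`isOpen_map`: `DIC.localGaloisToGlobal_mem_fixingSubgroup_iff` + finite dimensionality of `locF`
(`DIC` Dense); `cofinal`: `DIC.exists_numberField_locF_eq` (Krasner).] -/
theorem compat_levQ : Compat (famQ q) (levQ q) (MonoidHom.id (Gq q)) ⊤ := by
  have key : ∀ F : IntermediateField ℚ (AlgebraicClosure ℚ),
      F.fixingSubgroup.comap (localGaloisToGlobal q) = (locF q (embOf q F 1)).fixingSubgroup := by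
    intro F
    ext τ
    rw [Subgroup.mem_comap]
    exact DIC.localGaloisToGlobal_mem_fixingSubgroup_iff F τ
  refine ⟨fun _ _ h => h, ?_, ?_, ?_⟩
  · exact MonoidHom.range_eq_top.2 fun x => ⟨x, rfl⟩
  · rintro _ ⟨_, ⟨F, hF, rfl⟩, rfl⟩
    have : NumberField F := { to_charZero := inferInstance, to_finiteDimensional := hF }
    rw [Subgroup.map_id, key F]
    exact ⟨locF q (embOf q F 1), inferInstance, le_rfl⟩
  · rintro N ⟨E, hE, hEN⟩
    obtain ⟨F, hF, hFE⟩ := DIC.exists_numberField_locF_eq E
    refine ⟨F.fixingSubgroup.comap (localGaloisToGlobal q), ⟨_, ⟨F, hF, rfl⟩, rfl⟩, ?_⟩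
    rw [Subgroup.map_id, key F, hFE]
    exact hEN

variable (p : ℕ) [Fact p.Prime]

/-- `μ = muRep p` restricted to the local group. -/
noncomputable abbrev muQ : Representation (ZMod p) (Gq q) (ZMod p) :=
  (muRep p).comp (localGaloisToGlobal q)

end Fermat.Agent.S55.LDB
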