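/-
S55 / LDB : CONCRETE layer, part 2.  The field formation `(Gal(Ω/K), Ωˣ)`.

PROOF of `h90_krull` (Poincaré series).  `β` smooth 1-cocycle on the open `U`.  Choose `E/K` finite
NORMAL with `N := E.fixingSubgroup ≤ U`, `β(g s) = β(g)` for `g ∈ U`, `s ∈ N`.  Let `T` be a finite set
of representatives of `U/N` (`N` has finite index).  For `x ∈ E` put `P(x) := ∑_{t ∈ T} β(t) t(x)`;
the summand only depends on `tN`.  For `h ∈ U`: `h(P x) = ∑ h(β t) (ht)(x) = β(h)⁻¹ ∑ β(ht) (ht)(x) =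
β(h)⁻¹ P(x)` (reindex cosets).  The maps `x ↦ t(x)`, `E → Ω` (`t ∈ T`) are pairwise distinct
(`t|_E = t'|_E ⟹ t⁻¹t' ∈ N`), hence linearly independent over `Ω` (Dedekind,
`linearIndependent_monoidHom` or `AlgHom` version `linearIndependent_toLinearMap`), so `P(x) ≠ 0` for
some `x`; `a := (P x)⁻¹`.
ALTERNATIVE: descend to `Gal(E'/F)` and use Mathlib's
`groupCohomology.isMulCoboundary₁_of_isMulCocycle₁_of_aut_to_units`.
-/
import Fermat.Agent.S55.LDB.Krull

set_option autoImplicit false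
set_option linter.unusedSectionVars false

namespace Fermat.Agent.S55.LDB

variable {K Ω : Type*} [Field K] [Field Ω] [Algebra K Ω] [CharZero K]
  [Algebra.IsAlgebraic K Ω] [IsAlgClosed Ω]

theorem smoothMod_krull : SmoothMod (krullFam K Ω) Ωˣ := by
  intro a
  have hint : IsIntegral K (a : Ω) := (Algebra.IsAlgebraic.isAlgebraic (a : Ω)).isIntegral
  have hfd : FiniteDimensional K (IntermediateField.adjoin K {(a : Ω)}) :=
    IntermediateField.adjoin.finiteDimensional hint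
  exact ⟨_, isOpen_fixingSubgroup (IntermediateField.adjoin K {(a : Ω)}),
    fix_fixingSubgroup_iff.2 (IntermediateField.mem_adjoin_simple_self K (a : Ω))⟩

theorem h90_krull (U : Subgroup (Ω ≃ₐ[K] Ω)) (hU : (krullFam K Ω).isOpen U) :
    H90 (krullFam K Ω) Ωˣ U := by
  classical
  intro β hβ hcoc
  obtain ⟨N₀, hN₀, hN₀U, hβN₀⟩ := hβ
  obtain ⟨E, hEfin, hEN₀⟩ := hN₀
  set N : Subgroup (Ω ≃ₐ[K] Ω) := E.fixingSubgroup with hN
  have hNopen : (krullFam K Ω).isOpen N := ⟨E, hEfin, le_rfl⟩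
  have hβN : ∀ g ∈ U, ∀ s ∈ N, β (g * s) = β g := fun g hg s hs => hβN₀ g hg s (hEN₀ hs)
  have hfi : N.FiniteIndex := (krullFam K Ω).finiteIndex hNopen
  have hfin : Finite (↥U ⧸ N.subgroupOf U) := Subgroup.finite_quotient_of_finiteIndex
  have : Fintype (↥U ⧸ N.subgroupOf U) := Fintype.ofFinite _
  have hNfix : ∀ s ∈ N, ∀ x : E, s (x : Ω) = x := fun s hs x =>
    (IntermediateField.mem_fixingSubgroup_iff E s).1 hs x x.2
  -- the summand of the Poincaré series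
  set Fx : E → (Ω ≃ₐ[K] Ω) → Ω := fun x t => (β t : Ω) * t (x : Ω) with hFx
  have hFinv : ∀ x : E, ∀ t ∈ U, ∀ s ∈ N, Fx x (t * s) = Fx x t := by
    intro x t ht s hs
    simp only [hFx]
    rw [hβN t ht s hs, AlgEquiv.mul_apply, hNfix s hs x]
  set P : E → Ω := fun x => ∑ q : ↥U ⧸ N.subgroupOf U, Fx x ((q.out : ↥U) : Ω ≃ₐ[K] Ω) with hP
  have hout : ∀ (x : E) (j : ↥U),
      Fx x (((QuotientGroup.mk j : ↥U ⧸ N.subgroupOf U).out : ↥U) : Ω ≃ₐ[K] Ω) = Fx x j := by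
    intro x j
    obtain ⟨v, hv⟩ := QuotientGroup.mk_out_eq_mul (N.subgroupOf U) j
    rw [hv, Subgroup.coe_mul]
    exact hFinv x j j.2 _ (Subgroup.mem_subgroupOf.1 v.2)
  have hre : ∀ (x : E), ∀ h ∈ U,
      ∑ q : ↥U ⧸ N.subgroupOf U, Fx x (h * ((q.out : ↥U) : Ω ≃ₐ[K] Ω)) = P x := by
    intro x h hh
    simp only [hP]
    rw [← Equiv.sum_comp (MulAction.toPerm (⟨h, hh⟩ : ↥U) : Equiv.Perm (↥U ⧸ N.subgroupOf U))
      (fun q : ↥U ⧸ N.subgroupOf U => Fx x ((q.out : ↥U) : Ω ≃ₐ[K] Ω))]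
    refine Finset.sum_congr rfl fun q _ => ?_
    have hq : (MulAction.toPerm (⟨h, hh⟩ : ↥U) : Equiv.Perm (↥U ⧸ N.subgroupOf U)) q
        = QuotientGroup.mk ((⟨h, hh⟩ : ↥U) * q.out) := by
      rw [MulAction.toPerm_apply]
      conv_lhs => rw [← QuotientGroup.out_eq' q]
      rfl
    rw [hq, hout x]
    rfl
  -- transformation rule
  have htrans : ∀ (x : E), ∀ h ∈ U, (β h : Ω) * h (P x) = P x := by
    intro x h hh
    conv_rhs => rw [← hre x h hh]
    change (β h : Ω) * h (∑ q : ↥U ⧸ N.subgroupOf U, Fx x ((q.out : ↥U) : Ω ≃ₐ[K] Ω)) = _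
    rw [map_sum, Finset.mul_sum]
    refine Finset.sum_congr rfl fun q _ => ?_
    have hc := hcoc h hh _ (q.out : ↥U).2
    have hc' : (β (h * ((q.out : ↥U) : Ω ≃ₐ[K] Ω)) : Ω) =
        h (β ((q.out : ↥U) : Ω ≃ₐ[K] Ω) : Ω) * (β h : Ω) := by
      rw [hc, Units.val_mul, smul_units_val]
    simp only [hFx]
    rw [hc', map_mul, AlgEquiv.mul_apply]
    ring
  -- non vanishing (Dedekind)
  have hne : ∃ x : E, P x ≠ 0 := by
    by_contra hall
    push Not at hall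
    let χ : (↥U ⧸ N.subgroupOf U) → (E →* Ω) := fun q =>
      ((((q.out : ↥U) : Ω ≃ₐ[K] Ω) : Ω →ₐ[K] Ω).comp E.val : E →ₐ[K] Ω)
    have hχ : ∀ q (x : E), χ q x = ((q.out : ↥U) : Ω ≃ₐ[K] Ω) (x : Ω) := fun q x => rfl
    have hχinj : Function.Injective χ := by
      intro q q' hqq'
      rw [← QuotientGroup.out_eq' q, ← QuotientGroup.out_eq' q', QuotientGroup.eq,
        Subgroup.mem_subgroupOf]
      change _ ∈ E.fixingSubgroup
      rw [IntermediateField.mem_fixingSubgroup_iff]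
      intro x hx
      have h1 := DFunLike.congr_fun hqq' (⟨x, hx⟩ : E)
      rw [hχ, hχ] at h1
      rw [Subgroup.coe_mul, Subgroup.coe_inv, AlgEquiv.mul_apply, ← h1]
      exact AlgEquiv.symm_apply_apply _ _
    have hli : LinearIndependent Ω (fun q : ↥U ⧸ N.subgroupOf U => (χ q : E → Ω)) :=
      (linearIndependent_monoidHom E Ω).comp χ hχinj
    have hzero := Fintype.linearIndependent_iff.1 hli
      (fun q => (β ((q.out : ↥U) : Ω ≃ₐ[K] Ω) : Ω)) (by
        funext x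
        have := hall x
        simp only [hP, hFx] at this
        simpa [hχ] using this) (QuotientGroup.mk 1)
    exact (β _).ne_zero hzero
  obtain ⟨x, hx⟩ := hne
  refine ⟨(Units.mk0 (P x) hx)⁻¹, ?_⟩
  intro g hg
  rw [eq_div_iff_mul_eq', smul_inv', ← eq_mul_inv_iff_mul_eq, inv_inv, eq_comm, inv_mul_eq_iff_eq_mul]
  ext
  rw [Units.val_mul, smul_units_val, Units.val_mk0, mul_comm]
  exact (htrans x g hg).symm

theorem div_krull (p : ℕ) (hp : p ≠ 0) (a : Ωˣ) : ∃ b : Ωˣ, b ^ p = a := by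
  obtain ⟨z, hz⟩ := IsAlgClosed.exists_pow_nat_eq (a : Ω) (Nat.pos_of_ne_zero hp)
  have hz0 : z ≠ 0 := by
    rintro rfl
    rw [zero_pow hp] at hz
    exact a.ne_zero hz.symm
  refine ⟨Units.mk0 z hz0, ?_⟩
  ext
  simpa using hz

/-- the field formation attached to a primitive `p`-th root of unity `ζ`. -/
noncomputable def krullFF (p : ℕ) [Fact p.Prime] (ζ : Ωˣ) (hζ : IsPrimitiveRoot ζ p) :
    FieldFormation p (krullFam K Ω) Ωˣ where
  smooth := smoothMod_krull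
  h90 := h90_krull
  div := div_krull p (Fact.out : p.Prime).ne_zero
  ζ := ζ
  ζ_pow := hζ.pow_eq_one
  ζ_ne := hζ.ne_one (Fact.out : p.Prime).one_lt
  ζ_gen := by
    intro z hz
    have hζ' : IsPrimitiveRoot (ζ : Ω) p := IsPrimitiveRoot.coe_units_iff.2 hζ
    have : NeZero p := ⟨(Fact.out : p.Prime).ne_zero⟩
    have hz' : (z : Ω) ^ p = 1 := by
      rw [← Units.val_pow_eq_pow_val, hz, Units.val_one]
    obtain ⟨i, -, hi⟩ := hζ'.eq_pow_of_pow_eq_one hz'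
    refine ⟨i, ?_⟩
    ext
    rw [Units.val_pow_eq_pow_val, hi]

@[simp] lemma krullFF_ζ (p : ℕ) [Fact p.Prime] (ζ : Ωˣ) (hζ : IsPrimitiveRoot ζ p) :
    (krullFF (K := K) p ζ hζ).ζ = ζ := rfl

end Fermat.Agent.S55.LDB
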