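/-
S55 / LDB : final exports, part B: the cyclotomic character.
-/
import Fermat.Agent.S55.LDB.FinalA

set_option autoImplicit false
set_option linter.unusedSectionVars false

namespace Fermat.Agent.S55.LDB

open Fermat.Agent.S55.DIC (Gq locF embOf)

variable (q : ℕ) [Fact q.Prime] (p : ℕ) [Fact p.Prime]

/-- the action of the local Galois group on a `p`-th root of unity of `Ω`. -/
theorem FinalB_smul_eq_pow (w : Gq q) (z : (PadicAlgCl q)ˣ) (hz : z ^ p = 1) :
    w • z = z ^ ((ExtCitation.cycloChar p (localGaloisToGlobal q w) : (ZMod p)ˣ) : ZMod p).val := by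
  have hp : p.Prime := Fact.out
  have : NeZero p := ⟨hp.ne_zero⟩
  obtain ⟨ξ₀, hξ₀⟩ := HasEnoughRootsOfUnity.exists_primitiveRoot (AlgebraicClosure ℚ) p
  have hj : Function.Injective (padicEmbedding q) := (padicEmbedding q).toRingHom.injective
  have hξ₁ : IsPrimitiveRoot (padicEmbedding q ξ₀) p := hξ₀.map_of_injective hj
  have hz' : (z : PadicAlgCl q) ^ p = 1 := by
    rw [← Units.val_pow_eq_pow_val, hz, Units.val_one]
  obtain ⟨i, -, hi⟩ := hξ₁.eq_pow_of_pow_eq_one hz'
  -- the root of unity `ξ = ξ₀ ^ i` of `ℚbar`, as a unit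
  have hξ₀u : IsUnit ξ₀ := hξ₀.isUnit hp.ne_zero
  set t : (AlgebraicClosure ℚ)ˣ := hξ₀u.unit ^ i with ht
  have htval : (t : AlgebraicClosure ℚ) = ξ₀ ^ i := by
    rw [ht, Units.val_pow_eq_pow_val, IsUnit.unit_spec]
  have htmem : t ∈ rootsOfUnity p (AlgebraicClosure ℚ) := by
    rw [mem_rootsOfUnity]
    ext
    rw [Units.val_pow_eq_pow_val, htval, ← pow_mul, mul_comm, pow_mul, hξ₀.pow_eq_one, one_pow,
      Units.val_one]
  have hspec := modularCyclotomicCharacter.spec (AlgebraicClosure ℚ)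
    (ExtCitation.card_rootsOfUnity_eq_self p)
    ((localGaloisToGlobal q w : AlgebraicClosure ℚ ≃ₐ[ℚ] AlgebraicClosure ℚ) :
      AlgebraicClosure ℚ ≃+* AlgebraicClosure ℚ) htmem
  have hspec' : localGaloisToGlobal q w (t : AlgebraicClosure ℚ) = (t : AlgebraicClosure ℚ) ^
      ((ExtCitation.cycloChar p (localGaloisToGlobal q w) : (ZMod p)ˣ) : ZMod p).val := hspec
  have hzt : (z : PadicAlgCl q) = padicEmbedding q (t : AlgebraicClosure ℚ) := by
    rw [htval, map_pow, hi]
  ext
  rw [smul_units_val, Units.val_pow_eq_pow_val, hzt, ← padicEmbedding_localGaloisToGlobal, hspec',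
    map_pow]

/-- the cyclotomic character computes the action on `μ_p(Ω)`.
[`FF.ζ` is a `p`-th root of unity of `Ω`, so it is `padicEmbedding q ξ`, `ξ ∈ μ_p(ℚbar)`;
`padicEmbedding_localGaloisToGlobal`; `ExtCitation.cycloChar` = `modularCyclotomicCharacter`
(`modularCyclotomicCharacter.spec` / `ExtCitation.val_cycloChar`, `cycloExp`).] -/
theorem muCompat_muQ (FF : FieldFormation p (famQ q) (PadicAlgCl q)ˣ) :
    MuCompat FF (MonoidHom.id (Gq q)) (muQ q p) := by
  intro w x
  have h1 : muQ q p w x =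
      ((ExtCitation.cycloChar p (localGaloisToGlobal q w) : (ZMod p)ˣ) : ZMod p) * x := rfl
  rw [h1, FF.exp_mul_val, MonoidHom.id_apply]
  exact FinalB_smul_eq_pow q p w (FF.exp x) (FF.exp_pow x)

end Fermat.Agent.S55.LDB
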