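/-
S55 / LDB : DICTIONARY, part 2: cocycles and coboundaries (see `Dict.lean`).
Unfold `Z2, B2, Z1, d1, d2` (`mem_Z2`, `mem_B2`, `mem_Z1`, `funext_iff`, `d2_apply`, ...), every element of
`V` is `ι w` (`Compat.range_eq`), `ext₂_apply`, and transport identities with `exp_add`, `exp_sub`,
`exp_injective`, `MuCompat`.
-/
import Fermat.Agent.S55.LDB.Dict

set_option autoImplicit false
set_option linter.unusedSectionVars false

namespace Fermat.Agent.S55.LDB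

variable {G : Type} [Group G] {𝒪 : OpenFam G}
variable {A : Type*} [CommGroup A] [MulDistribMulAction G A]
variable {p : ℕ} [Fact p.Prime] {FF : FieldFormation p 𝒪 A}
variable {W : Type} [Group W] {ι : W →* G} {𝒲 : Lev W} {V : Subgroup G}
  {ρ : Representation (ZMod p) W (ZMod p)}

lemma Dict2_exists (h : Compat 𝒪 𝒲 ι V) {g : G} (hg : g ∈ V) : ∃ w, ι w = g := by
  rw [← h.range_eq] at hg
  exact MonoidHom.mem_range.mp hg

lemma Dict2_mem (h : Compat 𝒪 𝒲 ι V) (w : W) : ι w ∈ V := by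
  rw [← h.range_eq]
  exact MonoidHom.mem_range.mpr ⟨w, rfl⟩

lemma Dict2_lc1_of_exp {y : W → ZMod p} (hy : LC1 𝒲 (fun w => FF.exp (y w))) : LC1 𝒲 y := by
  obtain ⟨U, hU, hy⟩ := hy
  exact ⟨U, hU, fun g s hs => FF.exp_injective (hy g s hs)⟩

lemma Dict2_lc2_of_exp {f : W × W → ZMod p} (hf : LC2 𝒲 (fun w => FF.exp (f w))) : LC2 𝒲 f := by
  obtain ⟨U, hU, hf⟩ := hf
  exact ⟨U, hU, fun g g' s s' hs hs' => FF.exp_injective (hf g g' s s' hs hs')⟩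

/-- the cocycle identity, transported. -/
lemma Dict2_coc_iff (h : Compat 𝒪 𝒲 ι V) (hρ : MuCompat FF ι ρ) (f : W × W → ZMod p) :
    d2 ρ f = 0 ↔ Coc₂ V (fun x => FF.exp (ext₂ ι 0 f x)) := by
  have key : ∀ a b c : W,
      (FF.exp (ext₂ ι 0 f (ι a * ι b, ι c)) * FF.exp (ext₂ ι 0 f (ι a, ι b)) =
        ι a • FF.exp (ext₂ ι 0 f (ι b, ι c)) * FF.exp (ext₂ ι 0 f (ι a, ι b * ι c))) ↔
      d2 ρ f (a, b, c) = 0 := by
    intro a b c
    rw [← map_mul, ← map_mul, ext₂_apply h.inj, ext₂_apply h.inj, ext₂_apply h.inj,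
      ext₂_apply h.inj, hρ, ← FF.exp_add, ← FF.exp_add, FF.exp_injective.eq_iff, d2_apply]
    constructor
    · intro e
      linear_combination -e
    · intro e
      linear_combination -e
  constructor
  · intro hd g hg g' hg' g'' hg''
    obtain ⟨a, rfl⟩ := Dict2_exists h hg
    obtain ⟨b, rfl⟩ := Dict2_exists h hg'
    obtain ⟨c, rfl⟩ := Dict2_exists h hg''
    exact (key a b c).mpr (by rw [hd]; rfl)
  · intro hc
    funext ⟨a, b, c⟩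
    exact (key a b c).mp (hc _ (Dict2_mem h a) _ (Dict2_mem h b) _ (Dict2_mem h c))

/-- 2-cocycles. -/
theorem mem_Z2_iff (h : Compat 𝒪 𝒲 ι V) (hρ : MuCompat FF ι ρ) (f : W × W → ZMod p) :
    f ∈ Z2 𝒲 ρ ↔ IsZ2 𝒪 V (fun x => FF.exp (ext₂ ι 0 f x)) := by
  rw [mem_Z2]
  constructor
  · rintro ⟨h1, h2⟩
    exact ⟨((lc2_iff h 0 f).mp h1).comp FF.exp, (Dict2_coc_iff h hρ f).mp h2⟩
  · rintro ⟨h1, h2⟩
    refine ⟨?_, (Dict2_coc_iff h hρ f).mpr h2⟩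
    have h3 := lc2_comp h h1
    simp only [ext₂_apply h.inj] at h3
    exact Dict2_lc2_of_exp (FF := FF) h3

/-- the coboundary, transported. -/
lemma Dict2_dOne (hρ : MuCompat FF ι ρ) (y : W → ZMod p) (β : G → A)
    (hβ : ∀ w, β (ι w) = FF.exp (y w)) (a b : W) :
    dOne β (ι a, ι b) = FF.exp (d1 ρ y (a, b)) := by
  rw [dOne_apply, ← map_mul, hβ, hβ, hβ, hρ, d1_apply, FF.exp_add, FF.exp_sub]

/-- 2-coboundaries; `⟸` uses (INJ) `cob_mu_of_cob`. -/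
theorem mem_B2_iff (h : Compat 𝒪 𝒲 ι V) (hρ : MuCompat FF ι ρ) (f : W × W → ZMod p) :
    f ∈ B2 𝒲 ρ ↔ Cob₂ 𝒪 V (fun x => FF.exp (ext₂ ι 0 f x)) := by
  rw [mem_B2]
  constructor
  · rintro ⟨y, hy, rfl⟩
    refine ⟨fun g => FF.exp (ext₁ ι 0 y g), ((lc1_iff h 0 y).mp hy).comp FF.exp, ?_⟩
    intro g hg g' hg'
    obtain ⟨a, rfl⟩ := Dict2_exists h hg
    obtain ⟨b, rfl⟩ := Dict2_exists h hg'
    rw [Dict2_dOne hρ y _ (fun w => by rw [ext₁_apply h.inj])]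
    change _ = FF.exp (ext₂ ι 0 ((d1 ρ) y) (ι a, ι b))
    rw [ext₂_apply h.inj]
  · intro hc
    obtain ⟨β, hβ, hβp, hβf⟩ := cob_mu_of_cob (p := p) FF.smooth FF.div (FF.h90 V h.isOpen)
      (fun g _ g' _ => FF.exp_pow _) hc
    choose y hy using fun w : W => FF.exists_exp_eq (hβp (ι w))
    refine ⟨y, ?_, ?_⟩
    · apply Dict2_lc1_of_exp (FF := FF)
      simp only [hy]
      exact lc1_comp h hβ
    · funext ⟨a, b⟩
      apply FF.exp_injective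
      rw [← Dict2_dOne hρ y β (fun w => (hy w).symm), hβf _ (Dict2_mem h a) _ (Dict2_mem h b),
        ext₂_apply h.inj]

/-- every `μ_p`-valued smooth 2-cocycle on `V` comes from `Z2 𝒲 ρ`. -/
theorem exists_mem_Z2 (h : Compat 𝒪 𝒲 ι V) (hρ : MuCompat FF ι ρ) {F : G × G → A}
    (hF : IsZ2 𝒪 V F) (hFp : ∀ g ∈ V, ∀ h ∈ V, F (g, h) ^ p = 1) :
    ∃ f ∈ Z2 𝒲 ρ, ∀ g ∈ V, ∀ h ∈ V, FF.exp (ext₂ ι 0 f (g, h)) = F (g, h) := by
  choose f hf using fun w : W × W =>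
    FF.exists_exp_eq (hFp _ (Dict2_mem h w.1) _ (Dict2_mem h w.2))
  have key : ∀ g ∈ V, ∀ g' ∈ V, FF.exp (ext₂ ι 0 f (g, g')) = F (g, g') := by
    intro g hg g' hg'
    obtain ⟨a, rfl⟩ := Dict2_exists h hg
    obtain ⟨b, rfl⟩ := Dict2_exists h hg'
    rw [ext₂_apply h.inj, hf]
  refine ⟨f, (mem_Z2_iff h hρ f).mpr ⟨hF.sm.congr (fun g hg g' hg' => (key g hg g' hg').symm), ?_⟩,
    key⟩
  intro g hg g' hg' g'' hg''
  simp only []
  rw [key _ (V.mul_mem hg hg') _ hg'', key _ hg _ hg', key _ hg' _ hg'',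
    key _ hg _ (V.mul_mem hg' hg'')]
  exact hF.coc g hg g' hg' g'' hg''

/-- characters (trivial coefficients). -/
theorem mem_Z1_triv_iff (h : Compat 𝒪 𝒲 ι V) (x : W → ZMod p) :
    x ∈ Z1 𝒲 (triv (ZMod p) W) ↔ IsChar 𝒪 V (ext₁ ι 0 x) := by
  rw [mem_Z1]
  constructor
  · rintro ⟨h1, h2⟩
    refine ⟨?_, (lc1_iff h 0 x).mp h1⟩
    intro g hg g' hg'
    obtain ⟨a, rfl⟩ := Dict2_exists h hg
    obtain ⟨b, rfl⟩ := Dict2_exists h hg'
    rw [← map_mul, ext₁_apply h.inj, ext₁_apply h.inj, ext₁_apply h.inj]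
    have h3 := congrFun h2 (a, b)
    simp only [d1_apply, Pi.zero_apply, triv] at h3
    linear_combination -h3
  · rintro ⟨h1, h2⟩
    refine ⟨(lc1_iff h 0 x).mpr h2, ?_⟩
    funext ⟨a, b⟩
    have h3 := h1 _ (Dict2_mem h a) _ (Dict2_mem h b)
    rw [← map_mul, ext₁_apply h.inj, ext₁_apply h.inj, ext₁_apply h.inj] at h3
    simp only [d1_apply, Pi.zero_apply, triv]
    linear_combination -h3

/-- every `μ_p`-valued smooth 1-cocycle on `V` comes from `Z1 𝒲 ρ`. -/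
theorem exists_mem_Z1 (h : Compat 𝒪 𝒲 ι V) (hρ : MuCompat FF ι ρ) {ψ : G → A}
    (hψ : Sm₁ 𝒪 V ψ) (hc : Coc₁ V ψ) (hψp : ∀ g ∈ V, ψ g ^ p = 1) :
    ∃ y ∈ Z1 𝒲 ρ, ∀ w : W, FF.exp (y w) = ψ (ι w) := by
  choose y hy using fun w : W => FF.exists_exp_eq (hψp _ (Dict2_mem h w))
  refine ⟨y, mem_Z1.mpr ⟨?_, ?_⟩, hy⟩
  · apply Dict2_lc1_of_exp (FF := FF)
    simp only [hy]
    exact lc1_comp h hψ
  · funext ⟨a, b⟩
    apply FF.exp_injective
    rw [← Dict2_dOne hρ y ψ (fun w => (hy w).symm), dOne_apply,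
      hc _ (Dict2_mem h a) _ (Dict2_mem h b), Pi.zero_apply, FF.exp_zero]
    rw [div_mul_eq_mul_div, div_self']

end Fermat.Agent.S55.LDB
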