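/-
S55 / LDB : (Y1) in the language of S55/Defs3 (abstract): dim H²(W,μ_p) = 1.
-/
import Fermat.Agent.S55.LDB.Dict2
import Fermat.Agent.S55.LDB.BrauerC

set_option autoImplicit false
set_option linter.unusedSectionVars false

namespace Fermat.Agent.S55.LDB

variable {G : Type} [Group G] {𝒪 : OpenFam G}
variable {A : Type*} [CommGroup A] [MulDistribMulAction G A]
variable {p : ℕ} [Fact p.Prime] (L : LocalFormation p 𝒪 A)

/-- `exp ∘ f` is killed by `p`. -/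
lemma LGY1_cob_pow {W : Type} [Group W] {ι : W →* G} {V : Subgroup G} (hV : 𝒪.isOpen V)
    (f : W × W → ZMod p) :
    Cob₂ 𝒪 V ((fun x => L.toFieldFormation.exp (ext₂ ι 0 f x)) ^ p) := by
  have : ((fun x => L.toFieldFormation.exp (ext₂ ι 0 f x)) ^ p : G × G → A) = 1 := by
    funext x
    simp only [Pi.pow_apply, Pi.one_apply]
    exact L.toFieldFormation.exp_pow _
  rw [this]
  exact Cob₂.one hV

/-- (Y1), general form (any `W`, any twist): `dim H²(W, μ_p) ≤ 1`.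
[`mem_Z2_iff`, `main_Y1` for `F = exp ∘ f`, `F' = exp ∘ f'` (`F^p = 1`): `F ~ u^j`, `F' ~ u^j'`;
`F ≁ 1` ⟹ `p ∤ j` (`u_pow_cob_iff`, `k = 1`); `c := j'/j`; `exp ∘ (f' - c f) = F' / F^c.val ~
u^(j' - c.val j) ~ 1`; `mem_B2_iff`.] -/
theorem y1_abs {W : Type} [Group W] {ι : W →* G} {𝒲 : Lev W} {V : Subgroup G}
    {ρ : Representation (ZMod p) W (ZMod p)} (h : Compat 𝒪 𝒲 ι V)
    (hρ : MuCompat L.toFieldFormation ι ρ) :
    ∀ f ∈ Z2 𝒲 ρ, ∀ f' ∈ Z2 𝒲 ρ, f ∉ B2 𝒲 ρ → ∃ c : ZMod p, f' - c • f ∈ B2 𝒲 ρ := by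
  intro f hf f' hf' hfB
  have hV : 𝒪.isOpen V := h.isOpen
  obtain ⟨π, hπ, hπ1⟩ := L.exists_unif V hV
  have hF := (mem_Z2_iff h hρ f).mp hf
  have hF' := (mem_Z2_iff h hρ f').mp hf'
  obtain ⟨j, hj⟩ := main_Y1 L hπ hπ1 hF (LGY1_cob_pow L hV f)
  obtain ⟨j', hj'⟩ := main_Y1 L hπ hπ1 hF' (LGY1_cob_pow L hV f')
  set u : G × G → A := cyc (L.nr V (p ^ 1)) π with hu
  have hpj : ¬ p ∣ j := by
    intro hd
    apply hfB
    rw [mem_B2_iff h hρ, hj.cob_iff, u_pow_cob_iff L hV 1 hπ hπ1 j, pow_one]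
    exact hd
  have hj0 : (j : ZMod p) ≠ 0 := by
    rwa [ne_eq, ZMod.natCast_eq_zero_iff]
  refine ⟨(j' : ZMod p) * (j : ZMod p)⁻¹, ?_⟩
  set c : ZMod p := (j' : ZMod p) * (j : ZMod p)⁻¹ with hc
  rw [mem_B2_iff h hρ]
  have hup : Cob₂ 𝒪 V (u ^ p) := (u_pow_cob_iff L hV 1 hπ hπ1 p).mpr (by rw [pow_one])
  have hdvd : (p : ℤ) ∣ (j' : ℤ) - ((j * c.val : ℕ) : ℤ) := by
    rw [← ZMod.intCast_zmod_eq_zero_iff_dvd]
    push_cast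
    rw [ZMod.natCast_zmod_val, hc]
    field_simp
    ring
  obtain ⟨k, hk⟩ := hdvd
  have h1 : Cob₂ 𝒪 V (u ^ j' / (u ^ j) ^ c.val) := by
    have h2 : u ^ j' / (u ^ j) ^ c.val = (u ^ p) ^ k := by
      rw [← pow_mul, ← zpow_natCast u j', ← zpow_natCast u (j * c.val), div_eq_mul_inv,
        ← zpow_sub, hk, zpow_mul, zpow_natCast]
    rw [h2]
    exact hup.zpow k
  have h3 : Cob₂ 𝒪 V ((fun x => L.toFieldFormation.exp (ext₂ ι 0 f' x)) /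
      (fun x => L.toFieldFormation.exp (ext₂ ι 0 f x)) ^ c.val) :=
    (Eqv.div hj' (hj.pow c.val)).cob_iff.mpr h1
  refine h3.congr ?_
  intro g hg g' hg'
  rw [← h.range_eq] at hg hg'
  obtain ⟨w, rfl⟩ := hg
  obtain ⟨w', rfl⟩ := hg'
  simp only [Pi.div_apply, Pi.pow_apply, ext₂_apply h.inj, Pi.sub_apply, Pi.smul_apply, smul_eq_mul]
  rw [L.toFieldFormation.exp_sub, L.toFieldFormation.exp_mul_val]

/-- `H²(W, μ_p) ≠ 0`.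
[`u := cyc (L.nr V (p^1)) π`, `u^p ~ 1`, `exists_eqv_mu`, `exists_mem_Z2`, `u ≁ 1`.] -/
theorem exists_not_mem_B2 {W : Type} [Group W] {ι : W →* G} {𝒲 : Lev W} {V : Subgroup G}
    {ρ : Representation (ZMod p) W (ZMod p)} (h : Compat 𝒪 𝒲 ι V)
    (hρ : MuCompat L.toFieldFormation ι ρ) :
    ∃ f ∈ Z2 𝒲 ρ, f ∉ B2 𝒲 ρ := by
  have hV : 𝒪.isOpen V := h.isOpen
  have hp : p ≠ 0 := (Fact.out : p.Prime).ne_zero
  have hp1 : p ^ 1 ≠ 0 := pow_ne_zero 1 hp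
  have : NeZero (p ^ 1) := ⟨hp1⟩
  obtain ⟨π, hπ, hπ1⟩ := L.exists_unif V hV
  set u : G × G → A := cyc (L.nr V (p ^ 1)) π with hu
  have huZ : IsZ2 𝒪 V u := cyc_isZ2 (L.nr_char V hV (p ^ 1) hp1) hπ
  have hup : Cob₂ 𝒪 V (u ^ p) := (u_pow_cob_iff L hV 1 hπ hπ1 p).mpr (by rw [pow_one])
  obtain ⟨F, huF, hFp⟩ := exists_eqv_mu L.div hup
  have hFZ : IsZ2 𝒪 V F := huF.isZ2 L.smoothMod huZ
  obtain ⟨f, hf, hfF⟩ := exists_mem_Z2 (FF := L.toFieldFormation) h hρ hFZ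
    (fun g _ g' _ => hFp (g, g'))
  refine ⟨f, hf, fun hfB => ?_⟩
  rw [mem_B2_iff h hρ] at hfB
  have h1 : Cob₂ 𝒪 V F := hfB.congr hfF
  have h2 : Cob₂ 𝒪 V (u ^ 1) := by
    rw [pow_one]
    exact huF.cob_iff.mpr h1
  rw [u_pow_cob_iff L hV 1 hπ hπ1 1, pow_one, Nat.dvd_one] at h2
  exact (Fact.out : p.Prime).one_lt.ne' h2

end Fermat.Agent.S55.LDB
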