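/-
S55 / LDB : the invariant map in the language of S55/Defs3 (abstract).
-/
import Fermat.Agent.S55.LDB.LGY1

set_option autoImplicit false
set_option linter.unusedSectionVars false

namespace Fermat.Agent.S55.LDB

variable {G : Type} [Group G] {𝒪 : OpenFam G}
variable {A : Type*} [CommGroup A] [MulDistribMulAction G A]
variable {p : ℕ} [Fact p.Prime] (L : LocalFormation p 𝒪 A)

lemma LGInv_ext₂_sub_smul {W : Type} [Group W] (ι : W →* G) (f f₁ : W × W → ZMod p) (c : ZMod p)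
    (x : G × G) : ext₂ ι 0 (f - c • f₁) x = ext₂ ι 0 f x - c * ext₂ ι 0 f₁ x := by
  simp only [ext₂, ext₁]
  split_ifs <;> simp

/-- the exponent of `u(V,p)` is well defined modulo `p`. -/
lemma LGInv_natCast_eq {V : Subgroup G} (hV : 𝒪.isOpen V) {π : A} (hπ : Fix V π)
    (hπ1 : L.ord V π = 1) {j j' : ℕ}
    (h : Eqv 𝒪 V (cyc (L.nr V (p ^ 1)) π ^ j) (cyc (L.nr V (p ^ 1)) π ^ j')) :
    (j : ZMod p) = j' := by
  have hp : p.Prime := Fact.out
  set u := cyc (L.nr V (p ^ 1)) π with hu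
  have h1 : Cob₂ 𝒪 V (u ^ (p * j')) :=
    (u_pow_cob_iff L hV 1 hπ hπ1 (p * j')).mpr (by rw [pow_one]; exact Dvd.intro _ rfl)
  have h2 : Cob₂ 𝒪 V (u ^ (j + (p - 1) * j')) := by
    have e : u ^ (j + (p - 1) * j') = u ^ j / u ^ j' * u ^ (p * j') := by
      have e1 : p * j' = j' + (p - 1) * j' := by
        conv_lhs => rw [← Nat.sub_add_cancel hp.one_le]
        ring
      rw [e1, pow_add, pow_add, ← mul_assoc, div_mul_cancel]
    rw [e]
    exact Cob₂.mul h h1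
  rw [u_pow_cob_iff L hV 1 hπ hπ1, pow_one, ← ZMod.natCast_eq_zero_iff] at h2
  rw [Nat.cast_add, Nat.cast_mul, Nat.cast_sub hp.one_le, ZMod.natCast_self] at h2
  linear_combination h2

/-- the invariant map: a linear functional `τ` on all 2-cochains, vanishing on `B2`, injective on
`Z2/B2`, normalised by `τ f = j` if `exp ∘ f ~ u(V,p)^j`.
[define `τ` on `Z2 𝒲 ρ` by `f ↦ j mod p` (well defined and linear by `u_pow_cob_iff`), extend it
linearly to all functions (`LinearMap.exists_extend`).] -/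
theorem exists_inv {W : Type} [Group W] {ι : W →* G} {𝒲 : Lev W} {V : Subgroup G}
    {ρ : Representation (ZMod p) W (ZMod p)} (h : Compat 𝒪 𝒲 ι V)
    (hρ : MuCompat L.toFieldFormation ι ρ) {π : A} (hπ : Fix V π) (hπ1 : L.ord V π = 1) :
    ∃ τ : (W × W → ZMod p) →ₗ[ZMod p] ZMod p,
      (∀ f ∈ B2 𝒲 ρ, τ f = 0) ∧ (∀ f ∈ Z2 𝒲 ρ, τ f = 0 → f ∈ B2 𝒲 ρ) ∧
      ∀ f ∈ Z2 𝒲 ρ, ∀ j : ℕ,
        Eqv 𝒪 V (fun x => L.toFieldFormation.exp (ext₂ ι 0 f x)) (cyc (L.nr V (p ^ 1)) π ^ j) →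
        τ f = j := by
  classical
  have hV : 𝒪.isOpen V := h.isOpen
  obtain ⟨f₁, hf₁Z, hf₁B⟩ := exists_not_mem_B2 L h hρ
  obtain ⟨j₁, hj₁⟩ : ∃ j : ℕ, Eqv 𝒪 V (fun x => L.toFieldFormation.exp (ext₂ ι 0 f₁ x))
      (cyc (L.nr V (p ^ 1)) π ^ j) := by
    refine main_Y1 L hπ hπ1 ((mem_Z2_iff h hρ f₁).mp hf₁Z) ?_
    refine (Cob₂.one hV).congr fun g _ x _ => ?_
    simp only [Pi.one_apply, Pi.pow_apply, FieldFormation.exp_pow]
  have hj₁0 : (j₁ : ZMod p) ≠ 0 := by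
    intro h0
    apply hf₁B
    rw [mem_B2_iff h hρ, hj₁.cob_iff, u_pow_cob_iff L hV 1 hπ hπ1, pow_one]
    exact (ZMod.natCast_eq_zero_iff _ _).mp h0
  obtain ⟨τ₀, hτ₀1, hτ₀B⟩ := Submodule.exists_dual_map_eq_bot_of_notMem hf₁B inferInstance
  set τ : (W × W → ZMod p) →ₗ[ZMod p] ZMod p := ((j₁ : ZMod p) / τ₀ f₁) • τ₀ with hτ
  have hτ1 : τ f₁ = j₁ := by
    simp only [hτ, LinearMap.smul_apply, smul_eq_mul]
    exact div_mul_cancel₀ _ hτ₀1
  have hτB : ∀ f ∈ B2 𝒲 ρ, τ f = 0 := by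
    intro f hf
    have h0 : τ₀ f ∈ (B2 𝒲 ρ).map τ₀ := Submodule.mem_map_of_mem hf
    rw [hτ₀B, Submodule.mem_bot] at h0
    simp only [hτ, LinearMap.smul_apply, h0, smul_zero]
  have hτc : ∀ (f : W × W → ZMod p) (c : ZMod p), f - c • f₁ ∈ B2 𝒲 ρ → τ f = c * j₁ := by
    intro f c hc
    have h0 := hτB _ hc
    rw [map_sub, map_smul, hτ1, smul_eq_mul, sub_eq_zero] at h0
    exact h0
  refine ⟨τ, hτB, ?_, ?_⟩
  · intro f hf hτf
    obtain ⟨c, hc⟩ := y1_abs L h hρ f₁ hf₁Z f hf hf₁B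
    have h0 := hτc f c hc
    rw [hτf] at h0
    have hc0 : c = 0 := (mul_eq_zero.mp h0.symm).resolve_right hj₁0
    rw [hc0, zero_smul, sub_zero] at hc
    exact hc
  · intro f hf j hj
    obtain ⟨c, hc⟩ := y1_abs L h hρ f₁ hf₁Z f hf hf₁B
    have h2 := (mem_B2_iff h hρ _).mp hc
    have h3 : (fun x => L.toFieldFormation.exp (ext₂ ι 0 (f - c • f₁) x)) =
        (fun x => L.toFieldFormation.exp (ext₂ ι 0 f x)) /
          (fun x => L.toFieldFormation.exp (ext₂ ι 0 f₁ x)) ^ c.val := by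
      funext x
      simp only [Pi.div_apply, Pi.pow_apply, LGInv_ext₂_sub_smul, FieldFormation.exp_sub,
        FieldFormation.exp_mul_val]
    have h4 : Eqv 𝒪 V (fun x => L.toFieldFormation.exp (ext₂ ι 0 f x))
        ((fun x => L.toFieldFormation.exp (ext₂ ι 0 f₁ x)) ^ c.val) := by
      unfold Eqv
      rw [← h3]
      exact h2
    have h5 : Eqv 𝒪 V (cyc (L.nr V (p ^ 1)) π ^ j) (cyc (L.nr V (p ^ 1)) π ^ (j₁ * c.val)) := by
      refine hj.symm.trans (h4.trans ?_)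
      rw [pow_mul]
      exact hj₁.pow c.val
    have h6 := LGInv_natCast_eq L hV hπ hπ1 h5
    rw [hτc f c hc, h6, Nat.cast_mul, ZMod.natCast_zmod_val, mul_comm]

end Fermat.Agent.S55.LDB
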