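/-
S55 / LDB : `μ_p = A[p]`-valued cochains versus `A`-valued cochains, Kummer theory, cup products
(abstract layer).

PROOFS.
`cob_mu_of_cob` (INJ): `f = dβ`, `f^p = 1` ⟹ `β^p` is a smooth 1-cocycle on `U` ⟹ (`H90`)
`β^p(g) = g•γ/γ`; `δ^p = γ`; `β' := β / (g ↦ g•δ/δ)` has `β'^p = 1` on `U` and `dβ' = dβ`.
`exists_eqv_mu` (SURJ): `f^p = dβ`; `β'(g) := root (β g)` for a fixed section `root` of `x ↦ x^p`
(smooth by `Sm₁.comp`); `f' := f / dOne β'`  (on `U`; put `f' := 1` outside `U × U` if needed).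
`exists_kummer`: `H90`.
`cup_kum_char`: cochain `g ↦ α ^ (χ g).val`:  `dβ(g,h) = (g•α/α)^(χ h).val * a^carry(χ g, χ h)`.
`cup_char_kum`: cochain `g ↦ (kum α g) ^ (χ g).val` shows `(χ∪κ)(κ∪χ) ~ 1` (exponents mod `p`).
-/
import Fermat.Agent.S55.LDB.Cyc

set_option autoImplicit false
set_option linter.unusedSectionVars false

namespace Fermat.Agent.S55.LDB

variable {G : Type*} [Group G] {𝒪 : OpenFam G}
variable {A : Type*} [CommGroup A] [MulDistribMulAction G A] {U : Subgroup G}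

/-- (INJ) `H²(U,μ_p) → H²(U,A)` is injective. -/
theorem cob_mu_of_cob {p : ℕ} (hA : SmoothMod 𝒪 A) (hdiv : ∀ a : A, ∃ b : A, b ^ p = a)
    (h90 : H90 𝒪 A U) {f : G × G → A} (hfμ : ∀ g ∈ U, ∀ h ∈ U, f (g, h) ^ p = 1)
    (hf : Cob₂ 𝒪 U f) :
    ∃ β : G → A, Sm₁ 𝒪 U β ∧ (∀ g, β g ^ p = 1) ∧ ∀ g ∈ U, ∀ h ∈ U, dOne β (g, h) = f (g, h) := by
  classical
  have hU : 𝒪.isOpen U := hf.isOpen
  obtain ⟨β, hβ, hβf⟩ := hf
  have hc : Coc₁ U (β ^ p) := by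
    intro g hg h hh
    have h1 : dOne (β ^ p) (g, h) = 1 := by
      rw [dOne_pow, Pi.pow_apply, hβf g hg h hh, hfμ g hg h hh]
    rw [dOne_apply, div_mul_eq_mul_div, div_eq_one] at h1
    exact h1.symm
  obtain ⟨γ, hγ⟩ := h90 (β ^ p) (hβ.pow p) hc
  obtain ⟨δ, hδ⟩ := hdiv γ
  have hk : Sm₁ 𝒪 U (fun g : G => g • δ / δ) := (hA.sm_smul_const hU δ).comp (· / δ)
  have hβ' : Sm₁ 𝒪 U (β / fun g : G => g • δ / δ) := hβ.div hk
  refine ⟨fun g => if g ∈ U then (β / fun g : G => g • δ / δ) g else 1,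
    hβ'.congr (fun g hg => (if_pos hg).symm), ?_, ?_⟩
  · intro g
    by_cases hg : g ∈ U
    · have h1 : β g ^ p = g • γ / γ := hγ g hg
      simp only [if_pos hg, Pi.div_apply]
      rw [div_pow, h1, div_pow, ← smul_pow', hδ, div_self']
    · simp only [if_neg hg, one_pow]
  · intro g hg h hh
    have h1 : dOne (β / fun g : G => g • δ / δ) (g, h) = f (g, h) := by
      rw [dOne_div, dOne_kum, div_one, hβf g hg h hh]
    rw [← h1, dOne_apply, dOne_apply]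
    simp only [if_pos hg, if_pos hh, if_pos (U.mul_mem hg hh)]

/-- (SURJ) every `p`-torsion class comes from `H²(U,μ_p)`. -/
theorem exists_eqv_mu {p : ℕ} (hdiv : ∀ a : A, ∃ b : A, b ^ p = a)
    {f : G × G → A} (hf : Cob₂ 𝒪 U (f ^ p)) :
    ∃ f' : G × G → A, Eqv 𝒪 U f f' ∧ ∀ x, f' x ^ p = 1 := by
  classical
  obtain ⟨β, hβ, hβf⟩ := hf
  let root : A → A := fun a => (hdiv a).choose
  have hroot : ∀ a, root a ^ p = a := fun a => (hdiv a).choose_spec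
  have hβ' : Sm₁ 𝒪 U (fun g => root (β g)) := hβ.comp root
  have hpow : (fun g => root (β g)) ^ p = β := by
    funext g
    exact hroot (β g)
  refine ⟨fun x => if x.1 ∈ U ∧ x.2 ∈ U then f x / dOne (fun g => root (β g)) x else 1,
    ⟨fun g => root (β g), hβ', ?_⟩, ?_⟩
  · intro g hg h hh
    simp only [Pi.div_apply, if_pos (And.intro hg hh)]
    rw [div_div_cancel]
  · rintro ⟨g, h⟩
    by_cases hx : g ∈ U ∧ h ∈ U
    · simp only [if_pos hx]
      have h1 : dOne (fun g => root (β g)) (g, h) ^ p = f (g, h) ^ p := by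
        rw [← Pi.pow_apply, ← dOne_pow, hpow, hβf g hx.1 h hx.2, Pi.pow_apply]
      rw [div_pow, h1, div_self']
    · simp only [if_neg hx, one_pow]

/-- the Kummer cocycle of `α` (interesting when `α^p ∈ A^U`). -/
def kum (α : A) : G → A := fun g => g • α / α

lemma kum_apply (α : A) (g : G) : kum α g = g • α / α := rfl

lemma kum_coc (α : A) (U : Subgroup G) : Coc₁ U (kum α) := by
  intro g _ h _
  rw [kum_apply, kum_apply, kum_apply, mul_smul, smul_div', div_mul_div_cancel]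

lemma kum_sm (hA : SmoothMod 𝒪 A) (hU : 𝒪.isOpen U) (α : A) : Sm₁ 𝒪 U (kum α) := by
  exact (hA.sm_smul_const hU α).comp (· / α)

lemma kum_pow {p : ℕ} {α : A} (hα : Fix U (α ^ p)) {g : G} (hg : g ∈ U) : kum α g ^ p = 1 := by
  rw [kum_apply, div_pow, ← smul_pow', hα g hg, div_self']

lemma kum_eq_one_iff {α : A} : (∀ g ∈ U, kum α g = 1) ↔ Fix U α := by
  constructor
  · intro h g hg
    exact div_eq_one.1 (h g hg)
  · intro h g hg
    exact div_eq_one.2 (h g hg)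

lemma kum_mul (α α' : A) : (kum (α * α') : G → A) = kum α * kum α' := by
  funext g
  rw [Pi.mul_apply, kum_apply, kum_apply, kum_apply, smul_mul', mul_div_mul_comm]

/-- (KUM) every smooth `μ_p`-valued 1-cocycle is a Kummer cocycle. -/
theorem exists_kummer {p : ℕ} (h90 : H90 𝒪 A U) {ψ : G → A} (hψ : Sm₁ 𝒪 U ψ) (hc : Coc₁ U ψ)
    (hμ : ∀ g ∈ U, ψ g ^ p = 1) : ∃ α : A, Fix U (α ^ p) ∧ ∀ g ∈ U, ψ g = kum α g := by
  obtain ⟨a, ha⟩ := h90 ψ hψ hc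
  refine ⟨a, ?_, ha⟩
  intro g hg
  have h1 := hμ g hg
  rw [ha g hg, div_pow, div_eq_one] at h1
  rw [smul_pow', h1]

/-- `κ_a ∪ χ ~ c(χ,a)⁻¹`, `a = α^p`. -/
theorem cup_kum_char {p : ℕ} [NeZero p] (hA : SmoothMod 𝒪 A) {χ : G → ZMod p}
    (hχ : IsChar 𝒪 U χ) {α : A} (hα : Fix U (α ^ p)) :
    Eqv 𝒪 U (fun x : G × G => kum α x.1 ^ (χ x.2).val) (cyc χ (α ^ p))⁻¹ := by
  refine ⟨fun g => α ^ (χ g).val, hχ.sm.comp (fun z => α ^ z.val), ?_⟩
  intro g hg h hh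
  have h1 := carry_spec (χ g) (χ h)
  rw [← hχ.hom g hg h hh] at h1
  have h2 : α ^ (χ g).val * α ^ (χ h).val = α ^ (χ (g * h)).val * (α ^ p) ^ carry (χ g) (χ h) := by
    rw [← pow_add, h1, pow_add, pow_mul]
  simp only [dOne_apply, Pi.div_apply, Pi.inv_apply, cyc_apply, kum_apply, div_inv_eq_mul]
  rw [smul_pow', div_pow, div_mul_eq_mul_div, div_eq_iff_eq_mul, div_mul_eq_mul_div,
    div_mul_eq_mul_div, eq_div_iff_mul_eq']
  calc (g • α) ^ (χ h).val * α ^ (χ g).val * α ^ (χ h).val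
      = (g • α) ^ (χ h).val * (α ^ (χ g).val * α ^ (χ h).val) := by rw [mul_assoc]
    _ = (g • α) ^ (χ h).val * (α ^ p) ^ carry (χ g) (χ h) * α ^ (χ (g * h)).val := by
        rw [h2, mul_assoc, mul_comm (α ^ (χ (g * h)).val)]

/-- `χ ∪ κ_a ~ c(χ,a)`, `a = α^p`. -/
theorem cup_char_kum {p : ℕ} [NeZero p] (hA : SmoothMod 𝒪 A) {χ : G → ZMod p}
    (hχ : IsChar 𝒪 U χ) {α : A} (hα : Fix U (α ^ p)) :
    Eqv 𝒪 U (fun x : G × G => (x.1 • kum α x.2) ^ (χ x.1).val) (cyc χ (α ^ p)) := by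
  have hU : 𝒪.isOpen U := hχ.sm.isOpen
  have h0 := (cup_kum_char hA hχ hα).inv
  rw [inv_inv] at h0
  refine Eqv.trans ?_ h0
  refine ⟨(fun g => kum α g ^ (χ g).val)⁻¹,
    ((kum_sm hA hU α).comp₂ hχ.sm (fun k z => k ^ z.val)).inv, ?_⟩
  intro g hg h hh
  have h1 := carry_spec (χ g) (χ h)
  rw [← hχ.hom g hg h hh] at h1
  have h2 : kum α (g * h) = g • kum α h * kum α g := kum_coc α U g hg h hh
  have h3 : kum α (g * h) ^ (χ (g * h)).val = kum α (g * h) ^ ((χ g).val + (χ h).val) := by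
    rw [h1, pow_add, pow_mul, kum_pow hα (U.mul_mem hg hh), one_pow, mul_one]
  rw [dOne_inv, Pi.inv_apply, dOne_apply, h3, h2]
  simp only [Pi.div_apply, Pi.inv_apply, div_inv_eq_mul]
  rw [smul_pow', mul_pow, pow_add, pow_add, inv_eq_iff_eq_inv, div_mul_eq_mul_div,
    div_eq_iff_eq_mul, eq_comm, inv_mul_eq_iff_eq_mul]
  ac_rfl

end Fermat.Agent.S55.LDB
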