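/-
S55 / LDB : the coinduced module `Map(G/V, A)` (abstract layer) and functoriality of smooth
cochains in the module.
-/
import Fermat.Agent.S55.LDB.Mu

set_option autoImplicit false
set_option linter.unusedSectionVars false

namespace Fermat.Agent.S55.LDB

variable {G : Type*} [Group G] {𝒪 : OpenFam G}

/-- `Map(G/V, A)` with the action `(g φ)(x) = g • φ (g⁻¹ • x)`. -/
def CoInd (V : Subgroup G) (A : Type*) : Type _ := G ⧸ V → A

namespace CoInd
variable {V : Subgroup G} {A : Type*} [CommGroup A] [MulDistribMulAction G A]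

instance : CommGroup (CoInd V A) := inferInstanceAs (CommGroup (G ⧸ V → A))

instance : SMul G (CoInd V A) := ⟨fun g φ x => g • φ (g⁻¹ • x)⟩

lemma smul_apply (g : G) (φ : CoInd V A) (x : G ⧸ V) : (g • φ) x = g • φ (g⁻¹ • x) := rfl

lemma mul_apply (φ ψ : CoInd V A) (x : G ⧸ V) : (φ * ψ) x = φ x * ψ x := rfl

lemma one_apply (x : G ⧸ V) : (1 : CoInd V A) x = 1 := rfl

lemma inv_apply (φ : CoInd V A) (x : G ⧸ V) : φ⁻¹ x = (φ x)⁻¹ := rfl

lemma div_apply (φ ψ : CoInd V A) (x : G ⧸ V) : (φ / ψ) x = φ x / ψ x := rfl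

lemma pow_apply (φ : CoInd V A) (k : ℕ) (x : G ⧸ V) : (φ ^ k) x = φ x ^ k := rfl

instance : MulDistribMulAction G (CoInd V A) where
  one_smul φ := by
    funext x; simp [smul_apply]
  mul_smul g h φ := by
    funext x; simp [smul_apply, mul_smul]
  smul_mul g φ ψ := by
    funext x; simp [smul_apply, mul_apply]
  smul_one g := by
    funext x; simp [smul_apply, one_apply]

/-- the invariant element `x ↦ x • b` attached to `b ∈ A^V`. -/
noncomputable def diag (V : Subgroup G) (b : A) : CoInd V A := fun x => x.out • b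

lemma diag_mk {b : A} (hb : Fix V b) (g : G) : diag V b (g : G ⧸ V) = g • b := by
  obtain ⟨h, hh⟩ := QuotientGroup.mk_out_eq_mul V g
  show (g : G ⧸ V).out • b = g • b
  rw [hh, mul_smul, hb h h.2]

lemma fix_diag {b : A} (hb : Fix V b) : Fix (⊤ : Subgroup G) (diag V b) := by
  intro g _
  funext x
  induction x using QuotientGroup.induction_on with
  | H y =>
    rw [smul_apply, MulAction.Quotient.smul_coe, diag_mk hb, diag_mk hb, smul_eq_mul, ← mul_smul,
      mul_inv_cancel_left]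

/-- the product map `Map(G/V,A) → A`. -/
noncomputable def prodMap (φ : CoInd V A) : A := ∏ᶠ x : G ⧸ V, φ x

lemma prodMap_mul [Finite (G ⧸ V)] (φ ψ : CoInd V A) :
    prodMap (φ * ψ) = prodMap φ * prodMap ψ :=
  finprod_mul_distrib (Set.toFinite _) (Set.toFinite _)

lemma prodMap_one : prodMap (1 : CoInd V A) = 1 :=
  finprod_one

lemma prodMap_smul [Finite (G ⧸ V)] (g : G) (φ : CoInd V A) :
    prodMap (g • φ) = g • prodMap φ := by
  have h1 : g • prodMap φ = ∏ᶠ x : G ⧸ V, g • φ x :=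
    (MulDistribMulAction.toMonoidHom A g).map_finprod (Set.toFinite _)
  rw [h1]
  exact finprod_comp_equiv (MulAction.toPerm g⁻¹) (f := fun x : G ⧸ V => g • φ x)

/-- `Map(G/V,A)` is a smooth module if `A` is and `V` is open. -/
lemma smoothMod (hA : SmoothMod 𝒪 A) (hV : 𝒪.isOpen V) : SmoothMod 𝒪 (CoInd V A) := by
  intro φ
  have : V.FiniteIndex := 𝒪.finiteIndex hV
  have : Finite (G ⧸ V) := Subgroup.finite_quotient_of_finiteIndex
  obtain ⟨N, hn, hN, hfix⟩ := hA.exists_fix_finite (Set.finite_range φ)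
  obtain ⟨N', hn', hN', hle⟩ := 𝒪.exists_normal hV
  refine ⟨N ⊓ N', 𝒪.inf hN hN', ?_⟩
  intro s hs
  funext x
  have hx : s⁻¹ • x = x := by
    induction x using QuotientGroup.induction_on with
    | H y =>
      rw [MulAction.Quotient.smul_coe, smul_eq_mul, QuotientGroup.eq]
      apply hle
      have h1 : y⁻¹ * s * y⁻¹⁻¹ ∈ N' := hn'.conj_mem s hs.2 y⁻¹
      have h2 : (s⁻¹ * y)⁻¹ * y = y⁻¹ * s * y⁻¹⁻¹ := by group
      rw [h2]; exact h1
  rw [smul_apply, hx]
  exact hfix _ (Set.mem_range_self x) s hs.1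

lemma div_of_div {p : ℕ} (hdiv : ∀ a : A, ∃ b : A, b ^ p = a) :
    ∀ φ : CoInd V A, ∃ ψ : CoInd V A, ψ ^ p = φ := by
  intro φ
  choose r hr using hdiv
  exact ⟨fun x => r (φ x), funext fun x => hr (φ x)⟩

end CoInd

section Functoriality
variable {M M' : Type*} [CommGroup M] [MulDistribMulAction G M] [CommGroup M']
  [MulDistribMulAction G M'] {U : Subgroup G}

/-- an equivariant homomorphism maps smooth coboundaries to smooth coboundaries. -/
lemma Cob₂.map (φ : M →* M') (hφ : ∀ (g : G) (m : M), φ (g • m) = g • φ m) {f : G × G → M}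
    (h : Cob₂ 𝒪 U f) : Cob₂ 𝒪 U (fun x => φ (f x)) := by
  obtain ⟨β, hβ, hd⟩ := h
  refine ⟨fun g => φ (β g), hβ.comp φ, fun g hg h hh => ?_⟩
  show LDB.dOne (fun g => φ (β g)) (g, h) = φ (f (g, h))
  rw [← hd g hg h hh, dOne_apply, dOne_apply, map_mul, map_div, hφ]

lemma Eqv.map (φ : M →* M') (hφ : ∀ (g : G) (m : M), φ (g • m) = g • φ m) {f f' : G × G → M}
    (h : Eqv 𝒪 U f f') : Eqv 𝒪 U (fun x => φ (f x)) (fun x => φ (f' x)) := by
  have h1 : Cob₂ 𝒪 U (fun x => φ ((f / f') x)) := Cob₂.map φ hφ h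
  have h2 : (fun x => φ ((f / f') x)) = (fun x => φ (f x)) / (fun x => φ (f' x)) := by
    funext x
    simp [Pi.div_apply, map_div]
  rw [h2] at h1
  exact h1

lemma IsZ2.map (φ : M →* M') (hφ : ∀ (g : G) (m : M), φ (g • m) = g • φ m) {f : G × G → M}
    (h : IsZ2 𝒪 U f) : IsZ2 𝒪 U (fun x => φ (f x)) := by
  refine ⟨h.sm.comp φ, fun g hg h' hh' j hj => ?_⟩
  have := congrArg φ (h.coc g hg h' hh' j hj)
  rw [map_mul, map_mul, hφ] at this
  exact this

lemma map_cyc (φ : M →* M') {n : ℕ} (χ : G → ZMod n) (b : M) :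
    (fun x => φ (cyc χ b x)) = cyc χ (φ b) := by
  funext x
  simp [cyc, map_pow]

end Functoriality

end Fermat.Agent.S55.LDB
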