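/-
S55 / LDB : (Y2) "corestriction is non zero", without Shapiro (abstract layer).

PROOFS.
`cob_cyc_diag`: `χ' : G → ZMod n` a character of `G = ⊤` killing `V`, `b ∈ A^V`.  `X(x) := χ' x.out`.
`β(g)(x) := (diag V b x) ^ carry (χ' g) (X x - χ' g)`.  Using `g • diag (g⁻¹ x) = diag x` and
`X(g⁻¹ x) = X x - χ' g` the exponent of `dβ(g,h)(x)` is
`m(h,g⁻¹x) + m(g,x) - m(gh,x) = carry (χ' g) (χ' h)` (by `carry_spec`, three times).
`ord_prodMap_diag`: take `N ≤ V` open normal in `G`; all `x • b` are in `A^N`, `ord N (x • b) = ord N b`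
(`ord_smul`), so `ord N (N b) = [G:V] ord N b`; `ef ⊤ N`, `ef V N`, `ef ⊤ V` and the uniformiser of `⊤`
give `e(N/⊤) = e(N/V) e(V/⊤)`; cancel.
`exists_coind_cocycle`: `f₀` := residue degree of `V` over `⊤`, `p^k ∥ f₀`, `χ := L.nr ⊤ (p^(k+1))`,
`b := π_V`.  `p χ` kills `V`, so `cyc χ (diag b)^p ~ cyc (p χ) (diag b) ~ 1` (`cyc_nsmul_eqv`,
`cob_cyc_diag`); `exists_eqv_mu` (module `CoInd V A`) gives `z`; `Eqv.map prodMap`, `map_cyc`:
`prodMap ∘ z ~ cyc χ (prodMap (diag b))`, `ord = f₀`, not divisible by `p^(k+1)`: `cob_cyc_nr_iff`.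
-/
import Fermat.Agent.S55.LDB.CoInd
import Fermat.Agent.S55.LDB.BrauerA

set_option autoImplicit false
set_option linter.unusedSectionVars false

namespace Fermat.Agent.S55.LDB

variable {G : Type*} [Group G] {𝒪 : OpenFam G}
variable {A : Type*} [CommGroup A] [MulDistribMulAction G A] {V : Subgroup G}

/-- the 2-cocycle identity of the carry. -/
lemma Y2_carry_cocycle {n : ℕ} [NeZero n] (a c t : ZMod n) :
    carry c t + carry a (c + t) = carry (a + c) t + carry a c := by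
  have h1 := carry_spec c t
  have h2 := carry_spec a (c + t)
  have h3 := carry_spec (a + c) t
  have h4 := carry_spec a c
  rw [← add_assoc] at h2
  have h5 : n * (carry c t + carry a (c + t)) = n * (carry (a + c) t + carry a c) := by
    rw [mul_add, mul_add]
    omega
  exact Nat.eq_of_mul_eq_mul_left (Nat.pos_of_ne_zero (NeZero.ne n)) h5

/-- Shapiro by hand: `c(χ', b~)` is a coboundary if `χ'` is trivial on `V`. -/
theorem cob_cyc_diag {n : ℕ} [NeZero n] (hV : 𝒪.isOpen V) {χ' : G → ZMod n}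
    (hχ' : IsChar 𝒪 ⊤ χ') (hker : ∀ v ∈ V, χ' v = 0) {b : A} (hb : Fix V b) :
    Cob₂ 𝒪 ⊤ (cyc χ' (CoInd.diag V b)) := by
  have hhom : ∀ g h : G, χ' (g * h) = χ' g + χ' h := fun g h =>
    hχ'.hom g (Subgroup.mem_top g) h (Subgroup.mem_top h)
  have hX : ∀ g : G, χ' (g : G ⧸ V).out = χ' g := by
    intro g
    obtain ⟨v, hv⟩ := QuotientGroup.mk_out_eq_mul V g
    rw [hv, hhom, hker v v.2, add_zero]
  have hXs : ∀ (g : G) (x : G ⧸ V), χ' (g⁻¹ • x).out = χ' x.out - χ' g := by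
    intro g x
    induction x using QuotientGroup.induction_on with
    | H y =>
      have h1 : g⁻¹ • (y : G ⧸ V) = ((g⁻¹ * y : G) : G ⧸ V) := rfl
      rw [h1, hX, hX, hhom, hχ'.hom.map_inv (Subgroup.mem_top g)]
      ring
  have hD : ∀ (g : G) (x : G ⧸ V), g • CoInd.diag V b (g⁻¹ • x) = CoInd.diag V b x := by
    intro g x
    have := congrFun (CoInd.fix_diag hb g (Subgroup.mem_top g)) x
    rwa [CoInd.smul_apply] at this
  let φ : ZMod n → CoInd V A := fun a x => CoInd.diag V b x ^ carry a (χ' x.out - a)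
  refine ⟨fun g => φ (χ' g), hχ'.sm.comp φ, fun g _ h _ => ?_⟩
  funext x
  rw [dOne_apply, cyc_apply, CoInd.mul_apply, CoInd.div_apply, CoInd.smul_apply, CoInd.pow_apply]
  change g • (CoInd.diag V b (g⁻¹ • x) ^ carry (χ' h) (χ' (g⁻¹ • x).out - χ' h)) /
      CoInd.diag V b x ^ carry (χ' (g * h)) (χ' x.out - χ' (g * h)) *
      CoInd.diag V b x ^ carry (χ' g) (χ' x.out - χ' g) = _
  rw [smul_pow', hD, hXs, hhom]
  have key := Y2_carry_cocycle (χ' g) (χ' h) (χ' x.out - χ' g - χ' h)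
  have e1 : χ' h + (χ' x.out - χ' g - χ' h) = χ' x.out - χ' g := by ring
  have e2 : χ' x.out - (χ' g + χ' h) = χ' x.out - χ' g - χ' h := by ring
  rw [e1] at key
  rw [e2, div_mul_eq_mul_div, div_eq_iff_eq_mul, ← pow_add, ← pow_add, key, add_comm]

variable {p : ℕ} [Fact p.Prime] (L : LocalFormation p 𝒪 A)

/-- `ord` of a finite product of `N`-invariant elements. -/
lemma Y2_ord_prod {N : Subgroup G} (hN : 𝒪.isOpen N) {ι : Type*} (s : Finset ι) (a : ι → A)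
    (ha : ∀ i ∈ s, Fix N (a i)) :
    Fix N (∏ i ∈ s, a i) ∧ L.ord N (∏ i ∈ s, a i) = ∑ i ∈ s, L.ord N (a i) := by
  classical
  induction s using Finset.induction_on with
  | empty => exact ⟨by simpa using Fix.one, by simpa using L.ord_one hN⟩
  | insert i s hi ih =>
    obtain ⟨h1, h2⟩ := ih (fun k hk => ha k (Finset.mem_insert_of_mem hk))
    have h3 := ha i (Finset.mem_insert_self i s)
    rw [Finset.prod_insert hi, Finset.sum_insert hi]
    exact ⟨h3.mul h1, by rw [L.ord_mul N hN _ _ h3 h1, h2]⟩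

/-- `ord (N_{G/V} b) = f ord_V b`. -/
theorem ord_prodMap_diag (hV : 𝒪.isOpen V) {e f : ℕ} (hef : e * f = V.index)
    (he : ∀ a : A, Fix (⊤ : Subgroup G) a → L.ord V a = e * L.ord ⊤ a) {b : A} (hb : Fix V b) :
    Fix (⊤ : Subgroup G) (CoInd.prodMap (CoInd.diag V b)) ∧
      L.ord ⊤ (CoInd.prodMap (CoInd.diag V b)) = f * L.ord V b := by
  classical
  have hVfin : V.FiniteIndex := 𝒪.finiteIndex hV
  have hfinq : Finite (G ⧸ V) := Subgroup.finite_quotient_of_finiteIndex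
  have hfix : Fix (⊤ : Subgroup G) (CoInd.prodMap (CoInd.diag V b)) := by
    intro g hg
    rw [← CoInd.prodMap_smul, CoInd.fix_diag hb g hg]
  refine ⟨hfix, ?_⟩
  obtain ⟨N, hNn, hN, hNV⟩ := 𝒪.exists_normal hV
  have hNtop : NormalIn N ⊤ := ⟨le_top, fun g _ v hv => hNn.conj_mem v hv g⟩
  have hbN : Fix N b := hb.mono hNV
  cases nonempty_fintype (G ⧸ V)
  have hprod : CoInd.prodMap (CoInd.diag V b) = ∏ x : G ⧸ V, x.out • b :=
    finprod_eq_prod_of_fintype (fun x : G ⧸ V => x.out • b)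
  have h1 := (Y2_ord_prod L hN (Finset.univ : Finset (G ⧸ V)) (fun x => x.out • b)
    (fun x _ => hbN.smul hNtop (Subgroup.mem_top _))).2
  have h2 : ∑ x : G ⧸ V, L.ord N (x.out • b) = (V.index : ℤ) * L.ord N b := by
    rw [Finset.sum_congr rfl (fun x _ => L.ord_smul N hN hNn x.out b hbN), Finset.sum_const,
      Finset.card_univ, ← Nat.card_eq_fintype_card, nsmul_eq_mul]
    rfl
  obtain ⟨e1, f1, hef1, he1, -⟩ := L.ef V N hV hN hNV
  have hNfin : N.FiniteIndex := 𝒪.finiteIndex hN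
  have hrel : N.relIndex V ≠ 0 := Subgroup.FiniteIndex.index_ne_zero
  have he1ne : (e1 : ℤ) ≠ 0 := by
    intro h
    have : e1 = 0 := by exact_mod_cast h
    rw [this, zero_mul] at hef1
    exact hrel hef1.symm
  have hene : (e : ℤ) ≠ 0 := by
    intro h
    have : e = 0 := by exact_mod_cast h
    rw [this, zero_mul] at hef
    exact Subgroup.FiniteIndex.index_ne_zero hef.symm
  rw [← hprod, h2, he1 _ (hfix.mono le_top), he _ hfix, he1 _ hb, ← hef] at h1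
  push_cast at h1
  have h3 : ((e1 : ℤ) * e) * L.ord ⊤ (CoInd.prodMap (CoInd.diag V b)) =
      ((e1 : ℤ) * e) * (f * L.ord V b) := by
    linear_combination h1
  exact mul_left_cancel₀ (mul_ne_zero he1ne hene) h3

include L in
/-- (Y2) -/
theorem exists_coind_cocycle (hV : 𝒪.isOpen V) :
    ∃ z : G × G → CoInd V A, IsZ2 𝒪 ⊤ z ∧ (∀ x, z x ^ p = 1) ∧
      ¬ Cob₂ 𝒪 ⊤ (fun x => CoInd.prodMap (z x)) := by
  have hp : p.Prime := Fact.out
  have hVfin : V.FiniteIndex := 𝒪.finiteIndex hV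
  have hfinq : Finite (G ⧸ V) := Subgroup.finite_quotient_of_finiteIndex
  have htop : 𝒪.isOpen ⊤ := 𝒪.isOpen_top
  obtain ⟨e, f₀, hef, he, hf₀⟩ := L.ef ⊤ V htop hV le_top
  rw [Subgroup.relIndex_top_right] at hef
  have hf₀ne : f₀ ≠ 0 := by
    intro h
    rw [h, mul_zero] at hef
    exact Subgroup.FiniteIndex.index_ne_zero hef.symm
  obtain ⟨k, f', hf', hkf⟩ := Nat.exists_eq_pow_mul_and_not_dvd hf₀ne p hp.ne_one
  have hne : p ^ (k + 1) ≠ 0 := pow_ne_zero _ hp.ne_zero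
  have hNe : NeZero (p ^ (k + 1)) := ⟨hne⟩
  have hχ : IsChar 𝒪 ⊤ (L.nr ⊤ (p ^ (k + 1))) := L.nr_char ⊤ htop _ hne
  obtain ⟨b, hb, hb1⟩ := L.exists_unif V hV
  have hD : Fix (⊤ : Subgroup G) (CoInd.diag V b) := CoInd.fix_diag hb
  have hker : ∀ v ∈ V, ((p : ℕ) : ZMod (p ^ (k + 1))) * L.nr ⊤ (p ^ (k + 1)) v = 0 := by
    intro v hv
    rw [hf₀ _ hne v hv, ← mul_assoc]
    have : ((p : ℕ) : ZMod (p ^ (k + 1))) * (f₀ : ZMod (p ^ (k + 1))) = 0 := by
      rw [← Nat.cast_mul, ZMod.natCast_eq_zero_iff, hkf, ← mul_assoc, pow_succ']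
      exact dvd_mul_right _ _
    rw [this, zero_mul]
  have h1 : Cob₂ 𝒪 ⊤ (cyc (L.nr ⊤ (p ^ (k + 1))) (CoInd.diag V b) ^ p) :=
    (cyc_nsmul_eqv hχ hD p).cob_iff.mp (cob_cyc_diag hV (hχ.const_mul _) hker hb)
  obtain ⟨z, hz, hzp⟩ := exists_eqv_mu (CoInd.div_of_div L.div) h1
  refine ⟨z, hz.isZ2 (CoInd.smoothMod L.smoothMod hV) (cyc_isZ2 hχ hD), hzp, ?_⟩
  let φ : CoInd V A →* A :=
    { toFun := CoInd.prodMap
      map_one' := CoInd.prodMap_one
      map_mul' := CoInd.prodMap_mul }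
  have h2 := hz.map φ (fun g m => CoInd.prodMap_smul g m)
  rw [map_cyc] at h2
  intro hcob
  have h3 : Cob₂ 𝒪 ⊤ (cyc (L.nr ⊤ (p ^ (k + 1))) (CoInd.prodMap (CoInd.diag V b))) :=
    h2.cob_iff.mpr hcob
  obtain ⟨h4, h5⟩ := ord_prodMap_diag L hV hef he hb
  rw [cob_cyc_nr_iff L htop (k + 1) h4, h5, hb1, mul_one] at h3
  have h6 : p ^ (k + 1) ∣ f₀ := by exact_mod_cast h3
  rw [hkf, pow_succ] at h6
  exact hf' (Nat.dvd_of_mul_dvd_mul_left (pow_pos hp.pos k) h6)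

end Fermat.Agent.S55.LDB
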