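/-
S55 / LDB : (Y2) in the language of S55/Defs3 (abstract).
-/
import Fermat.Agent.S55.LDB.Dict2
import Fermat.Agent.S55.LDB.Y2

set_option autoImplicit false
set_option linter.unusedSectionVars false

namespace Fermat.Agent.S55.LDB

variable {G : Type} [Group G] {𝒪 : OpenFam G}
variable {A : Type*} [CommGroup A] [MulDistribMulAction G A]
variable {p : ℕ} [Fact p.Prime] (L : LocalFormation p 𝒪 A)

/-- (Y2).
[`z` from `exists_coind_cocycle`; `f (g,h) x := log (z (g,h) x)` (`exists_exp_eq`, choice);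
`CoInd` has the same action as `coind`; `exp (∑ₓ f(g,h)(x)) = prodMap (z (g,h))`
(`exp_sum`, `finprod_eq_prod_of_fintype`); `mem_B2_iff` for `ι = id`.] -/
theorem y2_abs {𝒱 : Lev G} {ρμ : Representation (ZMod p) G (ZMod p)}
    (h : Compat 𝒪 𝒱 (MonoidHom.id G) ⊤) (hρ : MuCompat L.toFieldFormation (MonoidHom.id G) ρμ)
    {V : Subgroup G} (hV : 𝒪.isOpen V) :
    ∃ f ∈ Z2 𝒱 (coind (G ⧸ V) ρμ),
      push (sumL (k := ZMod p) (A := ZMod p) (G ⧸ V)) f ∉ B2 𝒱 ρμ := by
  classical
  obtain ⟨z, hz, hzp, hzc⟩ := exists_coind_cocycle L hV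
  set FF := L.toFieldFormation with hFF
  have hfi : V.FiniteIndex := 𝒪.finiteIndex hV
  have hfin : Finite (G ⧸ V) := Subgroup.finite_quotient_of_finiteIndex
  have : Fintype (G ⧸ V) := Fintype.ofFinite _
  -- the logarithm
  let lg : A → ZMod p := fun a => if ha : a ^ p = 1 then (FF.exists_exp_eq ha).choose else 0
  have hlg : ∀ a : A, a ^ p = 1 → FF.exp (lg a) = a := by
    intro a ha
    simp only [lg, dif_pos ha]
    exact (FF.exists_exp_eq ha).choose_spec
  let f : G × G → (G ⧸ V → ZMod p) := fun gh x => lg (z gh x)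
  have hzp' : ∀ gh x, z gh x ^ p = 1 := fun gh x => congrFun (hzp gh) x
  have hf : ∀ gh x, FF.exp (f gh x) = z gh x := fun gh x => hlg _ (hzp' gh x)
  have hact : ∀ (g : G) (y : ZMod p), FF.exp (ρμ g y) = g • FF.exp y := fun g y => (hρ g y).symm
  refine ⟨f, mem_Z2.2 ⟨?_, ?_⟩, ?_⟩
  · have h1 : Sm₂ 𝒪 ⊤ f := hz.sm.comp (fun (φ : CoInd V A) (x : G ⧸ V) => lg (φ x))
    exact lc2_comp h h1
  · funext ⟨g, h', j⟩
    funext x
    have hc := congrFun (hz.coc g (Subgroup.mem_top _) h' (Subgroup.mem_top _) j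
      (Subgroup.mem_top _)) x
    rw [CoInd.mul_apply, CoInd.mul_apply, CoInd.smul_apply, ← hf, ← hf, ← hf, ← hf, ← hact,
      ← FF.exp_add, ← FF.exp_add] at hc
    have hc' := FF.exp_injective hc
    simp only [d2_apply, Pi.sub_apply, Pi.add_apply, coind_apply, Pi.zero_apply]
    linear_combination -hc'
  · rw [mem_B2_iff h hρ]
    intro hcob
    apply hzc
    have heq : (fun x : G × G => FF.exp (ext₂ (MonoidHom.id G) 0
        (push (sumL (k := ZMod p) (A := ZMod p) (G ⧸ V)) f) x)) =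
        fun x => CoInd.prodMap (z x) := by
      funext ⟨g, h'⟩
      have h2 : ext₂ (MonoidHom.id G) 0 (push (sumL (k := ZMod p) (A := ZMod p) (G ⧸ V)) f)
          (g, h') = push (sumL (k := ZMod p) (A := ZMod p) (G ⧸ V)) f (g, h') :=
        ext₂_apply (ι := MonoidHom.id G) h.inj 0 _ g h'
      show FF.exp (ext₂ (MonoidHom.id G) 0 (push (sumL (k := ZMod p) (A := ZMod p) (G ⧸ V)) f)
          (g, h')) = _
      rw [h2, push_apply, sumL_apply, FF.exp_sum]
      have h3 : CoInd.prodMap (z (g, h')) = ∏ x : G ⧸ V, z (g, h') x :=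
        finprod_eq_prod_of_fintype (fun x : G ⧸ V => z (g, h') x)
      rw [h3]
      exact Finset.prod_congr rfl fun x _ => hf _ x
    rw [← heq]
    exact hcob

end Fermat.Agent.S55.LDB
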