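/-
S55 / LDB : (Y3) nondegeneracy of the cup product / Hilbert symbol (abstract layer) and
unramified classes (needs (B2), (B3) of SREF / BRG).
-/
import Fermat.Agent.S55.LDB.BrauerA
import Fermat.Agent.S55.LDB.GroupTh
import Fermat.Agent.S55.LDB.Mu

set_option autoImplicit false
set_option linter.unusedSectionVars false

namespace Fermat.Agent.S55.LDB

variable {G : Type*} [Group G] {𝒪 : OpenFam G}
variable {A : Type*} [CommGroup A] [MulDistribMulAction G A] {U : Subgroup G}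
variable {p : ℕ} [Fact p.Prime] (L : LocalFormation p 𝒪 A)

include L in
/-- (Y3), first form: a nonzero character `χ` of `U` has a non trivial symbol `c(χ,a)`.
[`exists_eq_one_of_ne_zero`, `idx_ne`, `cob_cyc_iff`.] -/
theorem exists_not_cob_cyc {χ : G → ZMod p} (hχ : IsChar 𝒪 U χ) {g : G} (hg : g ∈ U)
    (hχg : χ g ≠ 0) : ∃ a : A, Fix U a ∧ ¬ Cob₂ 𝒪 U (cyc χ a) := by
  have hU : 𝒪.isOpen U := hχ.sm.isOpen
  have hσ : ∃ σ ∈ U, χ σ = 1 := exists_eq_one_of_ne_zero p hχ.hom hg hχg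
  obtain ⟨b, hb, hnb⟩ := L.idx_ne U hU χ hχ hσ
  refine ⟨b, hb, fun h => hnb ?_⟩
  exact (cob_cyc_iff L.smoothMod hχ hσ (L.h90 _ (isOpen_kerOn hχ)) hb).mp h

include L in
/-- (Y3), cup product form: for `χ ≠ 0` there is a Kummer cocycle `κ = kum α` (`α^p ∈ A^U`) with
`χ ∪ κ ≁ 1` and `κ ∪ χ ≁ 1`.  [`L.div`, `cup_char_kum`, `cup_kum_char`.] -/
theorem exists_kum_cup_ne {χ : G → ZMod p} (hχ : IsChar 𝒪 U χ) {g : G} (hg : g ∈ U)
    (hχg : χ g ≠ 0) : ∃ α : A, Fix U (α ^ p) ∧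
      ¬ Cob₂ 𝒪 U (fun x : G × G => (x.1 • kum α x.2) ^ (χ x.1).val) ∧
      ¬ Cob₂ 𝒪 U (fun x : G × G => kum α x.1 ^ (χ x.2).val) := by
  obtain ⟨a, ha, hna⟩ := exists_not_cob_cyc L hχ hg hχg
  obtain ⟨α, rfl⟩ := L.div a
  refine ⟨α, ha, fun h => hna ?_, fun h => hna ?_⟩
  · exact (cup_char_kum L.smoothMod hχ ha).cob_iff.mp h
  · have h1 := ((cup_kum_char L.smoothMod hχ ha).cob_iff.mp h).inv
    rwa [inv_inv] at h1

/-- an open subgroup `W` which is unramified over the base (`ord W π = 1` for a uniformiser `π` of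
`⊤`) contains the kernel of `nr U n`, `n = [G:W]`, for every open `U`.
[`ef ⊤ W`: `e = 1`, `f = n`, so `nr ⊤ n = n * nr W n = 0` on `W`: `W ≤ ker (nr ⊤ n)`, equal indices
(`relIndex_kerOn`) so `W = ker (nr ⊤ n)`; `ef ⊤ U`: `nr ⊤ n = f' * nr U n` on `U`.] -/
theorem mem_of_nr_eq_zero {W : Subgroup G} (hW : 𝒪.isOpen W) {π : A} (hπ : Fix (⊤ : Subgroup G) π)
    (hπ1 : L.ord ⊤ π = 1) (hW1 : L.ord W π = 1) (hU : 𝒪.isOpen U) :
    ∀ g ∈ U, L.nr U W.index g = 0 → g ∈ W := by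
  have hn : W.index ≠ 0 := (𝒪.finiteIndex hW).index_ne_zero
  have : NeZero W.index := ⟨hn⟩
  have htop := 𝒪.isOpen_top
  obtain ⟨e, f, hef, hord, hnr⟩ := L.ef ⊤ W htop hW le_top
  have he : e = 1 := by
    have h := hord π hπ
    rw [hW1, hπ1, mul_one] at h
    exact_mod_cast h.symm
  have hf : f = W.index := by
    rw [he, one_mul, Subgroup.relIndex_top_right] at hef
    exact hef
  have hchar := L.nr_char ⊤ htop W.index hn
  set K := kerOn ⊤ (L.nr ⊤ W.index) hchar.hom with hK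
  have hWK : W ≤ K := by
    intro g hg
    refine ⟨Subgroup.mem_top g, ?_⟩
    rw [hnr W.index hn g hg, hf, ZMod.natCast_self, zero_mul]
  have hKidx : K.index = W.index := by
    have := relIndex_kerOn hchar.hom (L.nr_surj ⊤ htop W.index hn)
    rwa [Subgroup.relIndex_top_right] at this
  have hKW : K ≤ W := by
    have h1 := Subgroup.relIndex_mul_index hWK
    rw [hKidx] at h1
    have h2 : W.relIndex K = 1 := by
      have : W.relIndex K * W.index = 1 * W.index := by rw [h1, one_mul]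
      exact Nat.eq_of_mul_eq_mul_right (Nat.pos_of_ne_zero hn) this
    exact Subgroup.relIndex_eq_one.mp h2
  obtain ⟨e', f', -, -, hnr'⟩ := L.ef ⊤ U htop hU le_top
  intro g hg hg0
  refine hKW ⟨Subgroup.mem_top g, ?_⟩
  rw [hnr' W.index hn g hg, hg0, mul_zero]

/-- general form of `nr_cast`. -/
theorem Y3_nr_cast (hU : 𝒪.isOpen U) {n N : ℕ} (h : n ∣ N) (hN : N ≠ 0) {g : G} (hg : g ∈ U) :
    ZMod.castHom h (ZMod n) (L.nr U N g) = L.nr U n g := by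
  obtain ⟨m, rfl⟩ := h
  exact L.nr_cast U hU n m (left_ne_zero_of_mul hN) (right_ne_zero_of_mul hN) g hg

/-- (B3) abstract: `χ : U → ZMod p` nonzero, unramified (kills `ker (nr U n)`), `c(χ,b) ~ 1`
⟹ `p ∣ ord b`.
[replace `n` by `n p` (`nr_cast`); `σ` with `nr U (n p) σ = 1`; `g = σ^i v` (`exists_eq_pow_mul`);
so `χ` kills `ker (nr U p)`; `eq_mul_nr`: `χ = t nr U p`, `t ≠ 0`; `cyc_nsmul_eqv`,
`cob_cyc_nr_iff` with `k = 1`.] -/
theorem dvd_ord_of_cob_cyc {n : ℕ} (hn : n ≠ 0) {χ : G → ZMod p} (hχ : IsChar 𝒪 U χ)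
    (hker : ∀ g ∈ U, L.nr U n g = 0 → χ g = 0) {g : G} (hg : g ∈ U) (hχg : χ g ≠ 0)
    {b : A} (hb : Fix U b) (h : Cob₂ 𝒪 U (cyc χ b)) : (p : ℤ) ∣ L.ord U b := by
  have hU : 𝒪.isOpen U := hχ.sm.isOpen
  have hp : p.Prime := Fact.out
  have hp0 : p ≠ 0 := hp.ne_zero
  have hN : n * p ≠ 0 := mul_ne_zero hn hp0
  have : NeZero (n * p) := ⟨hN⟩
  -- `χ` kills the kernel of `nr U (n p)`
  have hker' : ∀ x ∈ U, L.nr U (n * p) x = 0 → χ x = 0 := by
    intro x hx hx0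
    apply hker x hx
    rw [← Y3_nr_cast L hU (Dvd.intro p rfl : n ∣ n * p) hN hx, hx0, map_zero]
  obtain ⟨σ, hσ, hσ1⟩ := L.nr_surj U hU (n * p) hN
  have hcharN := L.nr_char U hU (n * p) hN
  -- `χ` kills the kernel of `nr U p`
  have hkerp : ∀ x ∈ U, L.nr U p x = 0 → χ x = 0 := by
    intro x hx hx0
    obtain ⟨v, hv, hxv⟩ := exists_eq_pow_mul hcharN.hom hσ hσ1 hx
    have hv' := (mem_kerOn hcharN.hom).mp hv
    have h1 : χ x = ((L.nr U (n * p) x).val : ZMod p) * χ σ := by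
      conv_lhs => rw [hxv]
      rw [hχ.hom _ (U.pow_mem hσ _) _ hv'.1, hχ.hom.map_pow hσ, hker' v hv'.1 hv'.2, add_zero]
    have h2 := Y3_nr_cast L hU (Dvd.intro_left n rfl : p ∣ n * p) hN hx
    rw [hx0, ZMod.castHom_apply, ← ZMod.natCast_val] at h2
    rw [h1, h2, zero_mul]
  obtain ⟨τ, hτ, hτ1⟩ := L.nr_surj U hU p hp0
  have hmul := eq_mul_nr L hU hp0 hχ.hom hkerp hτ hτ1
  have ht : χ τ ≠ 0 := by
    intro h0
    apply hχg
    rw [hmul g hg, h0, zero_mul]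
  have hcharp := L.nr_char U hU p hp0
  -- `c(χ,b) ~ c(nr_p, b ^ t)`
  have h1 : Cob₂ 𝒪 U (cyc (fun x => (((χ τ).val : ℕ) : ZMod p) * L.nr U p x) b) := by
    refine h.congr ?_
    refine cyc_congr (fun x hx => ?_) b
    rw [hmul x hx, ZMod.natCast_val, ZMod.cast_id', id]
  have h2 : Cob₂ 𝒪 U (cyc (L.nr U p) (b ^ (χ τ).val)) := by
    rw [cyc_pow]
    exact (cyc_nsmul_eqv hcharp hb (χ τ).val).cob_iff.mp h1
  have h3 := (cob_cyc_nr_iff L hU 1 (hb.pow (χ τ).val))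
  rw [pow_one] at h3
  have h4 := h3.mp h2
  rw [L.ord_pow hU hb] at h4
  have hcop : IsCoprime (p : ℤ) (((χ τ).val : ℕ) : ℤ) := by
    rw [Nat.isCoprime_iff_coprime, Nat.Prime.coprime_iff_not_dvd hp]
    intro hdvd
    apply ht
    rw [← ZMod.natCast_zmod_val (χ τ)]
    exact (ZMod.natCast_eq_zero_iff _ _).mpr hdvd
  exact hcop.dvd_of_dvd_mul_left h4

end Fermat.Agent.S55.LDB
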