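/-
S55 / LDB : (Y3) in the language of S55/Defs3 (abstract).
-/
import Fermat.Agent.S55.LDB.Dict2
import Fermat.Agent.S55.LDB.Y3

set_option autoImplicit false
set_option linter.unusedSectionVars false

namespace Fermat.Agent.S55.LDB

variable {G : Type} [Group G] {𝒪 : OpenFam G}
variable {A : Type*} [CommGroup A] [MulDistribMulAction G A]
variable {p : ℕ} [Fact p.Prime] (L : LocalFormation p 𝒪 A)

/-- (Y3).
[`x ≠ 0`: `χ := ext₁ ι 0 x` is a nonzero character of `V` (`mem_Z1_triv_iff`); `exists_kum_cup_ne`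
gives `α`; `y` from `exists_mem_Z1` applied to `kum α`; `exp (x g * y h) = (kum α h)^(x g).val
= (g • kum α h)^(χ g).val` because `V` fixes `μ_p`; `mem_B2_iff`.] -/
theorem y3_abs {W : Type} [Group W] {ι : W →* G} {𝒲 : Lev W} {V : Subgroup G}
    (h : Compat 𝒪 𝒲 ι V) (hρ : MuCompat L.toFieldFormation ι (triv (ZMod p) W)) :
    ∀ x ∈ Z1 𝒲 (triv (ZMod p) W),
      (∀ y ∈ Z1 𝒲 (triv (ZMod p) W),
        cup11 (triv (ZMod p) W) (mulP (ZMod p)) x y ∈ B2 𝒲 (triv (ZMod p) W)) → x = 0 := by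
  intro x hx hxy
  by_contra hx0
  obtain ⟨w₀, hw₀⟩ : ∃ w₀, x w₀ ≠ 0 := by
    by_contra hcon
    push Not at hcon
    exact hx0 (funext hcon)
  have hχ : IsChar 𝒪 V (ext₁ ι 0 x) := (mem_Z1_triv_iff h x).1 hx
  have hmem : ∀ w : W, ι w ∈ V := fun w => h.range_eq ▸ ⟨w, rfl⟩
  have hχg : ext₁ ι 0 x (ι w₀) ≠ 0 := by
    rw [ext₁_apply h.inj]
    exact hw₀
  obtain ⟨α, hα, hne, -⟩ := exists_kum_cup_ne L hχ (hmem w₀) hχg
  obtain ⟨y, hy, hyα⟩ := exists_mem_Z1 (FF := L.toFieldFormation) h hρ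
    (kum_sm L.smoothMod h.isOpen α) (kum_coc α V) (fun g hg => kum_pow hα hg)
  have hB := (mem_B2_iff (FF := L.toFieldFormation) h hρ _).1 (hxy y hy)
  apply hne
  refine hB.congr ?_
  intro g hg g' hg'
  obtain ⟨w, rfl⟩ : ∃ w, ι w = g := by
    have : g ∈ ι.range := h.range_eq ▸ hg
    exact this
  obtain ⟨w', rfl⟩ : ∃ w, ι w = g' := by
    have : g' ∈ ι.range := h.range_eq ▸ hg'
    exact this
  have h1 : ι w • kum α (ι w') = kum α (ι w') := by
    rw [← hyα w', hρ w (y w')]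
    rfl
  simp only [ext₂_apply h.inj, ext₁_apply h.inj, cup11_apply, h1]
  rw [← hyα w']
  exact L.toFieldFormation.exp_mul_val (x w) (y w')

end Fermat.Agent.S55.LDB
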