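/-
S55 / LDB : (Y4) Kummer theory count in the language of S55/Defs3 (abstract).
-/
import Fermat.Agent.S55.LDB.Dict2
import Fermat.Agent.S55.LDB.BrauerA

set_option autoImplicit false
set_option linter.unusedSectionVars false

namespace Fermat.Agent.S55.LDB

variable {G : Type} [Group G] {𝒪 : OpenFam G}
variable {A : Type*} [CommGroup A] [MulDistribMulAction G A]
variable {p : ℕ} [Fact p.Prime] (L : LocalFormation p 𝒪 A)

/-- the subgroup `A^V`. -/
def fixSub (V : Subgroup G) (A : Type*) [CommGroup A] [MulDistribMulAction G A] : Subgroup A where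
  carrier := {a | Fix V a}
  mul_mem' ha hb := Fix.mul ha hb
  one_mem' := Fix.one
  inv_mem' ha := Fix.inv ha

section aux

variable {L}
variable {W : Type} [Group W] {ι : W →* G}

/-- `μ_p` is fixed by `W`. -/
lemma LGY4_smul_exp (hρ : MuCompat L.toFieldFormation ι (triv (ZMod p) W)) (w : W) (x : ZMod p) :
    ι w • L.toFieldFormation.exp x = L.toFieldFormation.exp x := hρ w x

/-- the Kummer cocycle only depends on `α ^ p`. -/
lemma LGY4_kum_indep (hρ : MuCompat L.toFieldFormation ι (triv (ZMod p) W)) {α α' : A}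
    (hα : α ^ p = α' ^ p) (w : W) : kum α (ι w) = kum α' (ι w) := by
  have hz : (α / α') ^ p = 1 := by rw [div_pow, hα, div_self']
  obtain ⟨x, hx⟩ := L.toFieldFormation.exists_exp_eq hz
  have h1 : ι w • (α / α') = α / α' := by rw [← hx]; exact LGY4_smul_exp hρ w x
  rw [smul_div'] at h1
  rw [kum_apply, kum_apply, div_eq_div_iff_mul_eq_mul]
  rw [div_eq_div_iff_mul_eq_mul] at h1
  rw [h1, mul_comm]

/-- the relation "`y` is the Kummer character of `a`". -/
def LGY4_Rel (L : LocalFormation p 𝒪 A) (ι : W →* G) (a : A) (y : W → ZMod p) : Prop :=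
  ∀ α : A, α ^ p = a → ∀ w : W, L.toFieldFormation.exp (y w) = kum α (ι w)

lemma LGY4_Rel.unique {a : A} {y y' : W → ZMod p} (h : LGY4_Rel L ι a y)
    (h' : LGY4_Rel L ι a y') : y = y' := by
  obtain ⟨α, hα⟩ := L.div a
  funext w
  apply L.toFieldFormation.exp_injective
  rw [h α hα w, h' α hα w]

lemma LGY4_Rel.of_root (hρ : MuCompat L.toFieldFormation ι (triv (ZMod p) W)) {α : A}
    {y : W → ZMod p} (h : ∀ w : W, L.toFieldFormation.exp (y w) = kum α (ι w)) :
    LGY4_Rel L ι (α ^ p) y := by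
  intro α' hα' w
  rw [h w, LGY4_kum_indep hρ hα'.symm w]

lemma LGY4_Rel.mul (hρ : MuCompat L.toFieldFormation ι (triv (ZMod p) W)) {a b : A}
    {y y' : W → ZMod p} (h : LGY4_Rel L ι a y) (h' : LGY4_Rel L ι b y') :
    LGY4_Rel L ι (a * b) (y + y') := by
  obtain ⟨α, rfl⟩ := L.div a
  obtain ⟨β, rfl⟩ := L.div b
  rw [← mul_pow]
  apply LGY4_Rel.of_root hρ
  intro w
  rw [Pi.add_apply, FieldFormation.exp_add, h α rfl w, h' β rfl w, kum_mul, Pi.mul_apply]

variable {𝒲 : Lev W} {V : Subgroup G}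

lemma LGY4_exists (h : Compat 𝒪 𝒲 ι V) (hρ : MuCompat L.toFieldFormation ι (triv (ZMod p) W))
    {a : A} (ha : Fix V a) : ∃ y ∈ Z1 𝒲 (triv (ZMod p) W), LGY4_Rel L ι a y := by
  obtain ⟨α, rfl⟩ := L.div a
  obtain ⟨y, hy, hy'⟩ := exists_mem_Z1 h hρ (kum_sm L.smoothMod h.isOpen α) (kum_coc α V)
    (fun g hg => kum_pow ha hg)
  exact ⟨y, hy, LGY4_Rel.of_root hρ hy'⟩

lemma LGY4_mem_V (h : Compat 𝒪 𝒲 ι V) (w : W) : ι w ∈ V := by
  rw [← h.range_eq]; exact ⟨w, rfl⟩

lemma LGY4_exists_of_mem (h : Compat 𝒪 𝒲 ι V) {g : G} (hg : g ∈ V) : ∃ w, ι w = g := by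
  rw [← h.range_eq] at hg; exact hg

/-- the Kummer homomorphism. -/
noncomputable def LGY4_hom (h : Compat 𝒪 𝒲 ι V)
    (hρ : MuCompat L.toFieldFormation ι (triv (ZMod p) W)) :
    ↥(fixSub V A) →* Multiplicative ↥(Z1 𝒲 (triv (ZMod p) W)) where
  toFun a := Multiplicative.ofAdd
    ⟨(LGY4_exists h hρ a.2).choose, (LGY4_exists h hρ a.2).choose_spec.1⟩
  map_one' := by
    apply Multiplicative.toAdd.injective
    apply Subtype.ext
    refine LGY4_Rel.unique (LGY4_exists h hρ (1 : ↥(fixSub V A)).2).choose_spec.2 ?_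
    have : LGY4_Rel L ι ((1 : A) ^ p) (0 : W → ZMod p) := by
      apply LGY4_Rel.of_root hρ
      intro w
      rw [Pi.zero_apply, FieldFormation.exp_zero, kum_apply, smul_one, div_one]
    rwa [one_pow] at this
  map_mul' a b := by
    apply Multiplicative.toAdd.injective
    apply Subtype.ext
    exact LGY4_Rel.unique (LGY4_exists h hρ (a * b).2).choose_spec.2
      (LGY4_Rel.mul hρ (LGY4_exists h hρ a.2).choose_spec.2 (LGY4_exists h hρ b.2).choose_spec.2)

lemma LGY4_hom_spec (h : Compat 𝒪 𝒲 ι V)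
    (hρ : MuCompat L.toFieldFormation ι (triv (ZMod p) W)) (a : ↥(fixSub V A)) :
    LGY4_Rel L ι (a : A) (Multiplicative.toAdd (LGY4_hom (L := L) h hρ a)).1 :=
  (LGY4_exists h hρ a.2).choose_spec.2

lemma LGY4_hom_surjective (h : Compat 𝒪 𝒲 ι V)
    (hρ : MuCompat L.toFieldFormation ι (triv (ZMod p) W)) :
    Function.Surjective (LGY4_hom (L := L) h hρ) := by
  intro y'
  obtain ⟨⟨y, hy⟩, rfl⟩ := Multiplicative.ofAdd.surjective y'
  have hχ := (mem_Z1_triv_iff h y).1 hy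
  have hsm : Sm₁ 𝒪 V (fun g => L.toFieldFormation.exp (ext₁ ι 0 y g)) :=
    hχ.sm.comp L.toFieldFormation.exp
  have hc : Coc₁ V (fun g => L.toFieldFormation.exp (ext₁ ι 0 y g)) := by
    intro g hg g' hg'
    obtain ⟨w, rfl⟩ := LGY4_exists_of_mem h hg
    change L.toFieldFormation.exp _ = ι w • L.toFieldFormation.exp _ * L.toFieldFormation.exp _
    rw [LGY4_smul_exp hρ, hχ.hom _ hg _ hg', FieldFormation.exp_add, mul_comm]
  obtain ⟨α, hα, hα'⟩ := exists_kummer (p := p) (L.h90 V h.isOpen) hsm hc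
    (fun g _ => L.toFieldFormation.exp_pow _)
  refine ⟨⟨α ^ p, hα⟩, ?_⟩
  apply Multiplicative.toAdd.injective
  apply Subtype.ext
  refine LGY4_Rel.unique (LGY4_hom_spec h hρ ⟨α ^ p, hα⟩) ?_
  apply LGY4_Rel.of_root hρ
  intro w
  rw [← hα' (ι w) (LGY4_mem_V h w), ext₁_apply h.inj]
  rfl

lemma LGY4_hom_ker (h : Compat 𝒪 𝒲 ι V)
    (hρ : MuCompat L.toFieldFormation ι (triv (ZMod p) W)) :
    (LGY4_hom (L := L) h hρ).ker = (powMonoidHom p : ↥(fixSub V A) →* ↥(fixSub V A)).range := by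
  ext a
  rw [MonoidHom.mem_ker]
  constructor
  · intro ha
    obtain ⟨α, hα⟩ := L.div (a : A)
    have h1 := LGY4_hom_spec h hρ a α hα
    rw [ha] at h1
    have h2 : Fix V α := by
      rw [← kum_eq_one_iff]
      intro g hg
      obtain ⟨w, rfl⟩ := LGY4_exists_of_mem h hg
      rw [← h1 w]
      exact L.toFieldFormation.exp_zero
    exact ⟨⟨α, h2⟩, Subtype.ext hα⟩
  · rintro ⟨b, rfl⟩
    apply Multiplicative.toAdd.injective
    apply Subtype.ext
    refine LGY4_Rel.unique (LGY4_hom_spec h hρ _) ?_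
    change LGY4_Rel L ι ((b : A) ^ p) (0 : W → ZMod p)
    apply LGY4_Rel.of_root hρ
    intro w
    rw [Pi.zero_apply, FieldFormation.exp_zero, (kum_eq_one_iff (U := V)).2 b.2 _ (LGY4_mem_V h w)]

end aux

/-- (Y4) Kummer theory: `#Hom(V, ZMod p) = #(A^V / p)` if `μ_p ⊆ A^V`.
[`a ↦ log ∘ kum α`, `α^p = a`: well defined mod `μ_p ⊆ A^V`..., homomorphism (`kum_mul`),
surjective (`exists_kummer`), kernel = `p`-th powers (`kum_eq_one_iff`).] -/
theorem card_Z1_triv {W : Type} [Group W] {ι : W →* G} {𝒲 : Lev W} {V : Subgroup G}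
    (h : Compat 𝒪 𝒲 ι V) (hρ : MuCompat L.toFieldFormation ι (triv (ZMod p) W)) :
    Nat.card ↥(Z1 𝒲 (triv (ZMod p) W)) =
      Nat.card (↥(fixSub V A) ⧸ (powMonoidHom p : ↥(fixSub V A) →* ↥(fixSub V A)).range) := by
  rw [← LGY4_hom_ker (L := L) h hρ]
  exact (Nat.card_congr
    (QuotientGroup.quotientKerEquivOfSurjective _ (LGY4_hom_surjective (L := L) h hρ)).toEquiv).symm

end Fermat.Agent.S55.LDB
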