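/-
S55 / LDB : `LocGood` (interface of S55/Defs3) from a `LocalFormation` (abstract): assembly.
[`Compat.sub`, `MuCompat` for `V.subtype` and `triv` from `hVμ`; fin1: a `ZMod p`-module with finite `Nat.card ≠ 0`
underlying type is finite dimensional (`card_Z1_triv`, `Nat.card_pos`, `Nat.finite_of_card_ne_zero`, `Module.Finite.of_finite`).]
-/
import Fermat.Agent.S55.LDB.LGY1
import Fermat.Agent.S55.LDB.LGY2
import Fermat.Agent.S55.LDB.LGY3
import Fermat.Agent.S55.LDB.LGY4

set_option autoImplicit false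
set_option linter.unusedSectionVars false

namespace Fermat.Agent.S55.LDB

variable {G : Type} [Group G] {𝒪 : OpenFam G}
variable {A : Type*} [CommGroup A] [MulDistribMulAction G A]
variable {p : ℕ} [Fact p.Prime] (L : LocalFormation p 𝒪 A)

/-- ASSEMBLY. -/
theorem locGood_abs {𝒱 : Lev G} {ρμ : Representation (ZMod p) G (ZMod p)}
    (h : Compat 𝒪 𝒱 (MonoidHom.id G) ⊤) (hρ : MuCompat L.toFieldFormation (MonoidHom.id G) ρμ)
    {V : Subgroup G} (hV : V ∈ 𝒱.mem) (hVn : V.Normal) (hVμ : ∀ s ∈ V, ρμ s = 1)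
    (hfin : Finite (↥(fixSub V A) ⧸ (powMonoidHom p : ↥(fixSub V A) →* ↥(fixSub V A)).range)) :
    LocGood 𝒱 ρμ V := by
  have hVo : 𝒪.isOpen V := by
    have h1 := h.isOpen_map V hV
    rwa [Subgroup.map_id] at h1
  have hsub : Compat 𝒪 (𝒱.sub V) V.subtype V := h.sub hVo
  have hρ' : MuCompat L.toFieldFormation V.subtype (triv (ZMod p) ↥V) := by
    intro w x
    have h1 := hρ (w : G) x
    rw [hVμ (w : G) w.2] at h1
    exact h1
  have hcard := card_Z1_triv L hsub hρ'
  have hfinZ : Finite ↥(Z1 (𝒱.sub V) (triv (ZMod p) ↥V)) := by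
    apply Nat.finite_of_card_ne_zero
    rw [hcard]
    exact Nat.card_pos.ne'
  exact
    { mem := hV
      normal := hVn
      trivμ := hVμ
      fin1 := Module.Finite.of_finite
      y1 := y1_abs L hsub hρ'
      y2 := y2_abs L h hρ hVo
      y3 := y3_abs L hsub hρ' }

end Fermat.Agent.S55.LDB
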