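/-
S55 / LDB : FINAL EXPORTS in the language of `Fermat/Agent/S55/Defs3.lean` + `Concrete.lean`,
for the local group `Γ = Gal(PadicAlgCl q / ℚ_q)`, from a local formation `LF` (delivered by LOC).
-/
import Fermat.Agent.S55.LDB.FinalB
import Fermat.Agent.S55.LDB.LocGoodAbs
import Fermat.Agent.S55.LDB.LGInv
import Fermat.Agent.S55.LDB.KrullFF

set_option autoImplicit false
set_option linter.unusedSectionVars false

namespace Fermat.Agent.S55.LDB

open Fermat.Agent.S55.DIC (Gq locF embOf)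

variable {q : ℕ} [Fact q.Prime] {p : ℕ} [Fact p.Prime]

/-- an automorphism fixing a primitive `p`-th root of unity has trivial cyclotomic character. -/
lemma Final_cycloChar_eq_one (σ : GQ) {ζ : AlgebraicClosure ℚ} (hζ : IsPrimitiveRoot ζ p)
    (hσ : σ ζ = ζ) : ExtCitation.cycloChar p σ = 1 := by
  have : NeZero p := ⟨(Fact.out : p.Prime).ne_zero⟩
  have h := modularCyclotomicCharacter.unique (L := AlgebraicClosure ℚ)
    (ExtCitation.card_rootsOfUnity_eq_self p)
    (σ : AlgebraicClosure ℚ ≃+* AlgebraicClosure ℚ) (c := 1) (by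
      intro t ht
      rw [ZMod.val_one, pow_one]
      have ht' : (t : AlgebraicClosure ℚ) ^ p = 1 := by
        have := (mem_rootsOfUnity p t).mp ht
        rw [← Units.val_pow_eq_pow_val, this, Units.val_one]
      obtain ⟨i, -, hi⟩ := hζ.eq_pow_of_pow_eq_one ht'
      rw [← hi]
      change σ (ζ ^ i) = ζ ^ i
      rw [map_pow, hσ])
  exact Units.ext h.symm

lemma Final_muQ_eq_one (L : IntermediateField ℚ (AlgebraicClosure ℚ))
    {ζ : AlgebraicClosure ℚ} (hζ : IsPrimitiveRoot ζ p) (hζL : ζ ∈ L) :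
    ∀ s ∈ L.fixingSubgroup.comap (localGaloisToGlobal q), muQ q p s = 1 := by
  intro s hs
  have h1 : localGaloisToGlobal q s ζ = ζ :=
    (IntermediateField.mem_fixingSubgroup_iff L _).mp hs ζ hζL
  have h2 := Final_cycloChar_eq_one (p := p) _ hζ h1
  ext
  change muRep p (localGaloisToGlobal q s) 1 = 1
  rw [muRep_apply, h2]
  simp

lemma Final_normal_congr {E : Type*} [Field E] (a b : Algebra ℚ E) (h : @Normal ℚ E _ _ a) :
    @Normal ℚ E _ _ b := by
  obtain rfl : a = b := Subsingleton.elim _ _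
  exact h

lemma Final_isOpen_of_mem {V : Subgroup (Gq q)} (hV : V ∈ (levQ q).mem) : (famQ q).isOpen V := by
  have := (compat_levQ q).isOpen_map V hV
  rwa [Subgroup.map_id] at this

/-- **(LocGood)** for `V = G_{L_w}`, `L/ℚ` finite normal containing `ζ_p`. -/
theorem locGood_of_formation (LF : LocalFormation p (famQ q) (PadicAlgCl q)ˣ)
    (hfin : ∀ U : Subgroup (Gq q), (famQ q).isOpen U →
      Finite (↥(fixSub U (PadicAlgCl q)ˣ) ⧸
        (powMonoidHom p : ↥(fixSub U (PadicAlgCl q)ˣ) →* ↥(fixSub U (PadicAlgCl q)ˣ)).range))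
    (L : IntermediateField ℚ (AlgebraicClosure ℚ)) [FiniteDimensional ℚ L] [Normal ℚ L]
    (ζ : AlgebraicClosure ℚ) (hζ : IsPrimitiveRoot ζ p) (hζL : ζ ∈ L) :
    LocGood (levQ q) (muQ q p) (L.fixingSubgroup.comap (localGaloisToGlobal q)) := by
  have hV : L.fixingSubgroup.comap (localGaloisToGlobal q) ∈ (levQ q).mem :=
    ⟨L.fixingSubgroup, ⟨L, inferInstance, rfl⟩, rfl⟩
  have hN : @Normal ℚ L _ _ L.algebra' := Final_normal_congr _ _ (inferInstance : Normal ℚ L)
  have hn : L.fixingSubgroup.Normal := L.restrictNormalHom_ker ▸ MonoidHom.normal_ker _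
  exact locGood_abs LF (compat_levQ q) (muCompat_muQ q p LF.toFieldFormation) hV
    (hn.comap _) (Final_muQ_eq_one L hζ hζL) (hfin _ (Final_isOpen_of_mem hV))

/-- cofinality (field `locGood` of `ArithInput`). -/
theorem exists_locGood_le (LF : LocalFormation p (famQ q) (PadicAlgCl q)ˣ)
    (hfin : ∀ U : Subgroup (Gq q), (famQ q).isOpen U →
      Finite (↥(fixSub U (PadicAlgCl q)ˣ) ⧸
        (powMonoidHom p : ↥(fixSub U (PadicAlgCl q)ˣ) →* ↥(fixSub U (PadicAlgCl q)ˣ)).range)) :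
    ∀ V ∈ (levQ q).mem, ∃ V' ≤ V, LocGood (levQ q) (muQ q p) V' := by
  rintro _ ⟨_, ⟨F, hF, rfl⟩, rfl⟩
  have : NeZero p := ⟨(Fact.out : p.Prime).ne_zero⟩
  have halg : Algebra.IsAlgebraic ℚ (AlgebraicClosure ℚ) := AlgebraicClosure.isAlgebraic ℚ
  obtain ⟨ζ, hζ⟩ := HasEnoughRootsOfUnity.exists_primitiveRoot (AlgebraicClosure ℚ) p
  have hζint : IsIntegral ℚ ζ := (Algebra.IsAlgebraic.isAlgebraic ζ).isIntegral
  have h1 : FiniteDimensional ℚ (IntermediateField.adjoin ℚ {ζ}) :=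
    IntermediateField.adjoin.finiteDimensional hζint
  have h2 : FiniteDimensional ℚ ↥(F ⊔ IntermediateField.adjoin ℚ {ζ}) :=
    IntermediateField.finiteDimensional_sup F _
  set E := F ⊔ IntermediateField.adjoin ℚ {ζ} with hE
  have h3 : FiniteDimensional ℚ (IntermediateField.normalClosure ℚ E (AlgebraicClosure ℚ)) :=
    normalClosure.is_finiteDimensional ℚ E (AlgebraicClosure ℚ)
  have hcl : IsAlgClosure ℚ (AlgebraicClosure ℚ) := ⟨inferInstance, inferInstance⟩
  have hnQ : Normal ℚ (AlgebraicClosure ℚ) := IsAlgClosure.normal ℚ (AlgebraicClosure ℚ)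
  have h4 : Normal ℚ (IntermediateField.normalClosure ℚ E (AlgebraicClosure ℚ)) :=
    Final_normal_congr _ _ (normalClosure.normal ℚ E (AlgebraicClosure ℚ))
  have hle : E ≤ IntermediateField.normalClosure ℚ E (AlgebraicClosure ℚ) := E.le_normalClosure
  have hζE : ζ ∈ E :=
    (le_sup_right : IntermediateField.adjoin ℚ {ζ} ≤ E)
      (IntermediateField.mem_adjoin_simple_self ℚ ζ)
  refine ⟨_, ?_, locGood_of_formation LF hfin
    (IntermediateField.normalClosure ℚ E (AlgebraicClosure ℚ)) ζ hζ (hle hζE)⟩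
  exact Subgroup.comap_mono (IntermediateField.fixingSubgroup_le (le_sup_left.trans hle))

/-- `dim H²(Γ, μ) = 1` and the invariant map (for `τ_q`). -/
theorem exists_tau (LF : LocalFormation p (famQ q) (PadicAlgCl q)ˣ)
    {π : (PadicAlgCl q)ˣ} (hπ : Fix (⊤ : Subgroup (Gq q)) π) (hπ1 : LF.ord ⊤ π = 1) :
    ∃ τ : (Gq q × Gq q → ZMod p) →ₗ[ZMod p] ZMod p,
      (∀ f ∈ B2 (levQ q) (muQ q p), τ f = 0) ∧
      (∀ f ∈ Z2 (levQ q) (muQ q p), τ f = 0 → f ∈ B2 (levQ q) (muQ q p)) ∧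
      ∀ f ∈ Z2 (levQ q) (muQ q p), ∀ j : ℕ,
        Eqv (famQ q) ⊤ (fun x => LF.toFieldFormation.exp (f x)) (cyc (LF.nr ⊤ (p ^ 1)) π ^ j) →
        τ f = j := by
  obtain ⟨τ, h1, h2, h3⟩ := exists_inv LF (compat_levQ q)
    (muCompat_muQ q p LF.toFieldFormation) hπ hπ1
  refine ⟨τ, h1, h2, fun f hf j hj => h3 f hf j ?_⟩
  have e : ext₂ (MonoidHom.id (Gq q)) 0 f = f := by
    funext x
    exact ext₂_apply (ι := MonoidHom.id (Gq q)) Function.injective_id 0 f x.1 x.2
  rw [e]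
  exact hj

/-- (X2) the number of characters of `G_{L_w}`. -/
theorem card_Z1_of_formation (LF : LocalFormation p (famQ q) (PadicAlgCl q)ˣ)
    (V : Subgroup (Gq q)) (hV : (famQ q).isOpen V) (hVμ : ∀ s ∈ V, muQ q p s = 1) :
    Nat.card ↥(Z1 ((levQ q).sub V) (triv (ZMod p) ↥V)) =
      Nat.card (↥(fixSub V (PadicAlgCl q)ˣ) ⧸
        (powMonoidHom p : ↥(fixSub V (PadicAlgCl q)ˣ) →* ↥(fixSub V (PadicAlgCl q)ˣ)).range) := by
  refine card_Z1_triv LF ((compat_levQ q).sub hV) ?_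
  intro w x
  have h := muCompat_muQ q p LF.toFieldFormation (w : Gq q) x
  rw [hVμ _ w.2] at h
  exact h

end Fermat.Agent.S55.LDB
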