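/-
S55 / LDB : THE EXPORTS (no hypotheses left): LDB abstract theory + LOC.localFormation.
-/
import Fermat.Agent.S55.LDB.Final
import Fermat.Agent.S55.LOC.Amb.Formation

set_option autoImplicit false
set_option linter.unusedSectionVars false

namespace Fermat.Agent.S55.LDB

open Fermat.Agent.S55.DIC (Gq)

section
variable (q : ℕ) [Fact q.Prime] (p : ℕ) [Fact p.Prime]

theorem exists_primitiveRoot_Om : ∃ ζ : (PadicAlgCl q)ˣ, IsPrimitiveRoot ζ p := by
  have : NeZero p := ⟨(Fact.out : p.Prime).ne_zero⟩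
  have : NeZero (p : PadicAlgCl q) := ⟨by exact_mod_cast (Fact.out : p.Prime).ne_zero⟩
  obtain ⟨ζ, hζ⟩ := IsAlgClosed.exists_root (Polynomial.cyclotomic p (PadicAlgCl q))
    (by
      rw [Polynomial.degree_cyclotomic]
      exact_mod_cast (Nat.totient_pos.mpr (Fact.out : p.Prime).pos).ne')
  have h1 : IsPrimitiveRoot ζ p := Polynomial.isRoot_cyclotomic_iff.mp hζ
  refine ⟨(h1.isUnit (Fact.out : p.Prime).ne_zero).unit, ?_⟩
  rw [← IsPrimitiveRoot.coe_units_iff]
  exact h1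

/-- a primitive `p`-th root of unity of `Ω`. -/
noncomputable def zetaQ : (PadicAlgCl q)ˣ := (exists_primitiveRoot_Om q p).choose

lemma zetaQ_spec : IsPrimitiveRoot (zetaQ q p) p := (exists_primitiveRoot_Om q p).choose_spec

/-- **the local formation** of `Gal(PadicAlgCl q/ℚ_q)` acting on `(PadicAlgCl q)ˣ`. -/
noncomputable def LFq : LocalFormation p (famQ q) (PadicAlgCl q)ˣ :=
  LOC.localFormation p (krullFF p (zetaQ q p) (zetaQ_spec q p))

variable {q p}

/-- `LFq.ord` is the normalised valuation of the fixed field. -/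
lemma LFq_ord (U : Subgroup (Gq q)) (a : (PadicAlgCl q)ˣ) :
    (LFq q p).ord U a = LOC.ordF (IntermediateField.fixedField U) (a : PadicAlgCl q) := rfl

lemma LFq_nr (U : Subgroup (Gq q)) (n : ℕ) (g : Gq q) :
    (LFq q p).nr U n g = LOC.nrF (IntermediateField.fixedField U) n g := rfl

/-- `exp : ZMod p → A[p]` is onto. -/
lemma Export_finite_tor (U : Subgroup (Gq q)) :
    Finite ↥(fixSub U (PadicAlgCl q)ˣ ⊓ (powMonoidHom p : (PadicAlgCl q)ˣ →* _).ker) := by
  have hsub : ((fixSub U (PadicAlgCl q)ˣ ⊓ (powMonoidHom p : (PadicAlgCl q)ˣ →* _).ker :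
      Subgroup (PadicAlgCl q)ˣ) : Set (PadicAlgCl q)ˣ) ⊆
      Set.range (LFq q p).toFieldFormation.exp := by
    rintro z ⟨-, hz⟩
    exact (LFq q p).toFieldFormation.exists_exp_eq hz
  exact (Set.finite_range _).subset hsub

/-- if `V` acts trivially on `μ_p` then `#A^V[p] = p`. -/
lemma Export_card_tor (V : Subgroup (Gq q)) (hVμ : ∀ s ∈ V, muQ q p s = 1) :
    Nat.card ↥(fixSub V (PadicAlgCl q)ˣ ⊓ (powMonoidHom p : (PadicAlgCl q)ˣ →* _).ker) = p := by
  have hmu := muCompat_muQ q p (LFq q p).toFieldFormation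
  have hmem : ∀ x : ZMod p, (LFq q p).toFieldFormation.exp x ∈
      fixSub V (PadicAlgCl q)ˣ ⊓ (powMonoidHom p : (PadicAlgCl q)ˣ →* _).ker := by
    intro x
    refine ⟨?_, (LFq q p).toFieldFormation.exp_pow x⟩
    intro s hs
    have h1 := hmu s x
    rw [hVμ s hs] at h1
    exact h1
  have hbij : Function.Bijective (fun x : ZMod p =>
      (⟨(LFq q p).toFieldFormation.exp x, hmem x⟩ :
        ↥(fixSub V (PadicAlgCl q)ˣ ⊓ (powMonoidHom p : (PadicAlgCl q)ˣ →* _).ker))) := by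
    constructor
    · intro x y hxy
      exact (LFq q p).toFieldFormation.exp_injective (congrArg Subtype.val hxy)
    · rintro ⟨z, hz⟩
      obtain ⟨x, hx⟩ := (LFq q p).toFieldFormation.exists_exp_eq hz.2
      exact ⟨x, Subtype.ext hx⟩
  rw [← Nat.card_congr (Equiv.ofBijective _ hbij), Nat.card_zmod]

/-- `#(A^U/p) = #μ_p(F_U) · p · (p or 1)^[G:U]`  (`LOC.powIdx_fixSub`). -/
theorem card_fixSub_quot {U : Subgroup (Gq q)} (hU : (famQ q).isOpen U) :
    Nat.card (↥(fixSub U (PadicAlgCl q)ˣ) ⧸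
        (powMonoidHom p : ↥(fixSub U (PadicAlgCl q)ˣ) →* ↥(fixSub U (PadicAlgCl q)ˣ)).range) =
      Nat.card ↥(fixSub U (PadicAlgCl q)ˣ ⊓ (powMonoidHom p : (PadicAlgCl q)ˣ →* _).ker) * p *
        (if p = q then p else 1) ^ U.index := by
  have h := LOC.powIdx_fixSub (q := q) p Fact.out (U := U) hU
  have he : LOC.fixSub (PadicAlgCl q)ˣ U = fixSub U (PadicAlgCl q)ˣ := rfl
  rw [he, HQ.powIdx_eq_top, HQ.powIdx_top] at h
  exact h

theorem finite_fixSub_quot {U : Subgroup (Gq q)} (hU : (famQ q).isOpen U) :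
    Finite (↥(fixSub U (PadicAlgCl q)ˣ) ⧸
        (powMonoidHom p : ↥(fixSub U (PadicAlgCl q)ˣ) →* ↥(fixSub U (PadicAlgCl q)ˣ)).range) := by
  apply Nat.finite_of_card_ne_zero
  rw [card_fixSub_quot hU]
  have hp : p ≠ 0 := (Fact.out : p.Prime).ne_zero
  have hfin : Finite ↥(fixSub U (PadicAlgCl q)ˣ ⊓ (powMonoidHom p : (PadicAlgCl q)ˣ →* _).ker) :=
    Export_finite_tor U
  refine mul_ne_zero (mul_ne_zero Nat.card_pos.ne' hp) (pow_ne_zero _ ?_)
  split_ifs
  · exact hp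
  · exact one_ne_zero

/-- **(LocGood)** -/
theorem locGood (L : IntermediateField ℚ (AlgebraicClosure ℚ)) [FiniteDimensional ℚ L] [Normal ℚ L]
    (ζ : AlgebraicClosure ℚ) (hζ : IsPrimitiveRoot ζ p) (hζL : ζ ∈ L) :
    LocGood (levQ q) (muQ q p) (L.fixingSubgroup.comap (localGaloisToGlobal q)) :=
  locGood_of_formation (LFq q p) (fun _ hU => finite_fixSub_quot hU) L ζ hζ hζL

theorem exists_locGood : ∀ V ∈ (levQ q).mem, ∃ V' ≤ V, LocGood (levQ q) (muQ q p) V' :=
  exists_locGood_le (LFq q p) (fun _ hU => finite_fixSub_quot hU)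

/-- **(X2)**, local part: `dim Hom(G_F, ZMod p) = 2 + [F:ℚ_p]` (`q = p`), `2` (`q ≠ p`) if `μ_p ⊆ F`. -/
theorem finrank_Z1 (V : Subgroup (Gq q)) (hV : (famQ q).isOpen V) (hVμ : ∀ s ∈ V, muQ q p s = 1) :
    Module.finrank (ZMod p) ↥(Z1 ((levQ q).sub V) (triv (ZMod p) ↥V)) =
      2 + (if p = q then V.index else 0) := by
  have hp : p.Prime := Fact.out
  have hcard := card_Z1_of_formation (LFq q p) V hV hVμ
  rw [card_fixSub_quot hV, Export_card_tor V hVμ] at hcard
  have hfin : Finite ↥(Z1 ((levQ q).sub V) (triv (ZMod p) ↥V)) := by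
    apply Nat.finite_of_card_ne_zero
    rw [hcard]
    refine mul_ne_zero (mul_ne_zero hp.ne_zero hp.ne_zero) (pow_ne_zero _ ?_)
    split_ifs
    · exact hp.ne_zero
    · exact one_ne_zero
  have hfm : Module.Finite (ZMod p) ↥(Z1 ((levQ q).sub V) (triv (ZMod p) ↥V)) :=
    Module.Finite.of_finite
  have h2 := Module.natCard_eq_pow_finrank (K := ZMod p)
    (V := ↥(Z1 ((levQ q).sub V) (triv (ZMod p) ↥V)))
  rw [hcard, Nat.card_zmod] at h2
  apply Nat.pow_right_injective hp.two_le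
  change p ^ _ = p ^ _
  rw [← h2]
  split_ifs with h
  · rw [pow_add, pow_two]
  · rw [one_pow, mul_one, add_zero, pow_two]

end

/-! ### the same, in the notation of `sysS S` -/

section sys
open ExtCitation
variable {p : ℕ} [Fact p.Prime] (S : Finset Nat.Primes) (v : (sysS S).ι)

theorem locGood_sys (L : IntermediateField ℚ (AlgebraicClosure ℚ)) [FiniteDimensional ℚ L]
    [Normal ℚ L] (ζ : AlgebraicClosure ℚ) (hζ : IsPrimitiveRoot ζ p) (hζL : ζ ∈ L) :
    LocGood ((sysS S).levv v) ((sysS S).loc (muRep p) v)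
      (L.fixingSubgroup.comap ((sysS S).r v)) := by
  haveI : Fact ((v.1 : Nat.Primes) : ℕ).Prime := ⟨v.1.2⟩
  exact locGood (q := ((v.1 : Nat.Primes) : ℕ)) L ζ hζ hζL

theorem exists_locGood_sys : ∀ V ∈ ((sysS S).levv v).mem,
    ∃ V' ≤ V, LocGood ((sysS S).levv v) ((sysS S).loc (muRep p) v) V' := by
  haveI : Fact ((v.1 : Nat.Primes) : ℕ).Prime := ⟨v.1.2⟩
  exact exists_locGood (q := ((v.1 : Nat.Primes) : ℕ))

end sys

end Fermat.Agent.S55.LDB
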