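/-
S55 / LDB : `H²` of a procyclic quotient with `p`-torsion coefficients dies (abstract layer,
ANY module `M`, e.g. `Multiplicative (ZMod p)` with the trivial action).  Need (B2) of SREF / BRG.

PROOF.  `χ := cast χ' : G → ZMod n`.  Normalise `f(1,1) = 1` (divide by `dOne (fun _ => f (1,1))`,
which is `(g,h) ↦ g • f(1,1)`: still inflated and `p`-torsion).  `eqv_cyc_of_inflated`:
`f ~ cyc χ b`, `b = ∏_{i<n} f(σ^i,σ)`, so `b^p = 1`.  `cyc_cast_eqv`: `cyc χ b ~ cyc χ' b ^ p =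
cyc χ' (b^p) = 1`.
-/
import Fermat.Agent.S55.LDB.CycClass

set_option autoImplicit false
set_option linter.unusedSectionVars false

namespace Fermat.Agent.S55.LDB

variable {G : Type*} [Group G] {𝒪 : OpenFam G}
variable {M : Type*} [CommGroup M] [MulDistribMulAction G M] {U : Subgroup G}

theorem cob_of_inflated_procyclic {n p : ℕ} [NeZero n] [NeZero p] {χ' : G → ZMod (n * p)}
    (hχ' : IsChar 𝒪 U χ') (hσ : ∃ σ ∈ U, χ' σ = 1) {f : G × G → M} (hf : IsZ2 𝒪 U f)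
    (hfp : ∀ g ∈ U, ∀ h ∈ U, f (g, h) ^ p = 1)
    (hinv : ∀ g ∈ U, ∀ h ∈ U, ∀ v ∈ U, ∀ w ∈ U,
      ZMod.castHom (Dvd.intro p rfl : n ∣ n * p) (ZMod n) (χ' v) = 0 →
      ZMod.castHom (Dvd.intro p rfl : n ∣ n * p) (ZMod n) (χ' w) = 0 →
      f (g * v, h * w) = f (g, h))
    (hfix : ∀ g ∈ U, ∀ h ∈ U, ∀ v ∈ U,
      ZMod.castHom (Dvd.intro p rfl : n ∣ n * p) (ZMod n) (χ' v) = 0 → v • f (g, h) = f (g, h)) :
    Cob₂ 𝒪 U f := by
  obtain ⟨σ, hσU, hσ1⟩ := hσ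
  set χ : G → ZMod n := fun g => ZMod.castHom (Dvd.intro p rfl : n ∣ n * p) (ZMod n) (χ' g) with hχdef
  have hχ : IsChar 𝒪 U χ := hχ'.cast
  have hχσ : χ σ = 1 := by
    show ZMod.castHom (Dvd.intro p rfl : n ∣ n * p) (ZMod n) (χ' σ) = 1
    rw [hσ1, map_one]
  have hU : 𝒪.isOpen U := hf.sm.isOpen
  set a : M := f (1, 1) with ha
  have hap : a ^ p = 1 := hfp 1 U.one_mem 1 U.one_mem
  have hafix : ∀ v ∈ U, χ v = 0 → v • a = a := fun v hv hv0 =>
    hfix 1 U.one_mem 1 U.one_mem v hv hv0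
  have hβ : Sm₁ 𝒪 U (fun _ : G => a) := Sm₁.const hU a
  have hd : ∀ g h : G, dOne (fun _ : G => a) (g, h) = g • a := by
    intro g h
    rw [dOne_apply, div_mul_cancel]
  have hdsm : Sm₂ 𝒪 U (dOne (fun _ : G => a)) := by
    refine ⟨kerOn U χ hχ.hom, isOpen_kerOn hχ, fun g hg => hg.1, ?_⟩
    intro g _ h _ s hs t _
    rw [hd, hd, mul_smul, hafix s hs.1 hs.2]
  have hf1 : IsZ2 𝒪 U (f / dOne (fun _ : G => a)) := hf.div ⟨hdsm, coc₂_dOne _ U⟩
  have hinf : Inflated U (kerOn U χ hχ.hom) (f / dOne (fun _ : G => a)) := by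
    refine ⟨?_, ?_⟩
    · intro g hg h hh v hv w hw
      rw [Pi.div_apply, Pi.div_apply, hd, hd, hinv g hg h hh v hv.1 w hw.1 hv.2 hw.2, mul_smul,
        hafix v hv.1 hv.2]
    · intro g hg h hh v hv
      rw [Pi.div_apply, hd, smul_div', hfix g hg h hh v hv.1 hv.2]
      congr 1
      have hmem := (normalIn_kerOn hχ.hom).2 g⁻¹ (U.inv_mem hg) v hv
      rw [inv_inv] at hmem
      have h1 : v • g • a = g • (g⁻¹ * v * g) • a := by
        rw [← mul_smul, ← mul_smul]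
        congr 1
        group
      rw [h1, hafix _ hmem.1 hmem.2]
  have h11 : (f / dOne (fun _ : G => a)) (1, 1) = 1 := by
    rw [Pi.div_apply, hd, one_smul, div_self']
  obtain ⟨hb, hE⟩ := eqv_cyc_of_inflated hχ hσU hχσ hf1 hinf h11
  set b : M := ∏ i ∈ Finset.range n, (f / dOne (fun _ : G => a)) (σ ^ i, σ) with hbdef
  have hbp : b ^ p = 1 := by
    rw [hbdef, ← Finset.prod_pow]
    refine Finset.prod_eq_one fun i _ => ?_
    rw [Pi.div_apply, hd, div_pow, hfp _ (U.pow_mem hσU i) _ hσU, ← smul_pow', hap, smul_one,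
      div_one]
  have hE2 : Eqv 𝒪 U (cyc χ b) (cyc χ' b ^ p) := cyc_cast_eqv hχ' hb
  rw [← cyc_pow, hbp, cyc_one] at hE2
  exact eqv_one_iff.mp ((Eqv.div_dOne hβ f).trans (hE.trans hE2))

end Fermat.Agent.S55.LDB
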