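/-
S55 / LDB : normalisation along an open subgroup and the transfer argument (abstract layer).

PROOFS.
`exists_eqv_right_trivial`: (1) `f = dβ` on `P`; extend `β` by `1` outside `P` (`Sm₁.extend`) and
replace `f` by `f₁ = f / dOne β`: `f₁(v,w) = 1` for `v,w ∈ P`.  (2) let `t(g)` be a representative of
the left coset `g P` (e.g. `(QuotientGroup.mk g : G ⧸ P).out`), `β₂(g) := f₁(t(g), t(g)⁻¹ g)`.
The cocycle identity for `(t,w,v)` gives `f₁(g,v) = β₂(gv)/β₂(g)` and `β₂ = 1` on `P`, so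
`f' := f₁ * dOne β₂` satisfies `f'(g,v) = 1`.
`right_invariant`: cocycle identity for `(g,h,v)`.
`cob_pow_relIndex`: after normalisation `f(g,hv) = f(g,h)`; `γ(g) := ∏_{j ∈ U/P} f(g,j)`; taking the
product of `f(gh,j) f(g,h) = g•f(h,j) f(g,hj)` over `j ∈ U/P` gives `f^[U:P] = dγ`.
-/
import Fermat.Agent.S55.LDB.Basic

set_option autoImplicit false
set_option linter.unusedSectionVars false

namespace Fermat.Agent.S55.LDB

variable {G : Type*} [Group G] {𝒪 : OpenFam G}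
variable {A : Type*} [CommGroup A] [MulDistribMulAction G A] {U P : Subgroup G}

/-- second normalisation step: a cocycle which is trivial on `P × P` can be made trivial on
`U × P`. -/
theorem Transfer_step2 (hP : 𝒪.isOpen P) (hPU : P ≤ U)
    {f : G × G → A} (hf : IsZ2 𝒪 U f) (hfP : ∀ v ∈ P, ∀ w ∈ P, f (v, w) = 1) :
    ∃ β : G → A, Sm₁ 𝒪 U β ∧ ∀ g ∈ U, ∀ v ∈ P, (f * dOne β) (g, v) = 1 := by
  classical
  set t : G → G := fun g => (QuotientGroup.mk g : G ⧸ P).out with ht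
  have ht1 : ∀ g : G, (t g)⁻¹ * g ∈ P := by
    intro g
    obtain ⟨h, hh⟩ := QuotientGroup.mk_out_eq_mul P g
    have : (t g)⁻¹ * g = (h : G)⁻¹ := by
      simp only [ht]
      rw [hh]
      group
    rw [this]
    exact P.inv_mem h.2
  have ht2 : ∀ g : G, ∀ v ∈ P, t (g * v) = t g := by
    intro g v hv
    simp only [ht]
    congr 1
    exact QuotientGroup.eq.2 (by simpa [mul_assoc] using P.inv_mem hv)
  have htU : ∀ g ∈ U, t g ∈ U := by
    intro g hg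
    have h1 : (t g)⁻¹ * g ∈ U := hPU (ht1 g)
    have h2 : t g = g * ((t g)⁻¹ * g)⁻¹ := by group
    rw [h2]
    exact U.mul_mem hg (U.inv_mem h1)
  have htP : ∀ g ∈ P, t g ∈ P := by
    intro g hg
    have h2 : t g = g * ((t g)⁻¹ * g)⁻¹ := by group
    rw [h2]
    exact P.mul_mem hg (P.inv_mem (ht1 g))
  set β : G → A := fun g => f (t g, (t g)⁻¹ * g) with hβ
  have hβP : ∀ v ∈ P, β v = 1 := fun v hv => hfP _ (htP v hv) _ (ht1 v)
  have hβsm : Sm₁ 𝒪 U β := by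
    obtain ⟨N, hN, hNU, hNf⟩ := hf.sm
    refine ⟨N ⊓ P, 𝒪.inf hN hP, inf_le_left.trans hNU, ?_⟩
    intro g hg s hs
    simp only [hβ]
    rw [ht2 g s hs.2]
    have := hNf (t g) (htU g hg) ((t g)⁻¹ * g) (hPU (ht1 g)) 1 N.one_mem s hs.1
    rw [mul_one, mul_assoc] at this
    exact this
  refine ⟨β, hβsm, ?_⟩
  intro g hg v hv
  have hc := hf.coc (t g) (htU g hg) ((t g)⁻¹ * g) (hPU (ht1 g)) v (hPU hv)
  rw [hfP _ (ht1 g) v hv, smul_one, one_mul, mul_inv_cancel_left] at hc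
  have h3 : β (g * v) = f (t g, (t g)⁻¹ * g * v) := by
    simp only [hβ]
    rw [ht2 g v hv, mul_assoc]
  have h4 : β g = f (t g, (t g)⁻¹ * g) := rfl
  rw [Pi.mul_apply, dOne_apply, hβP v hv, smul_one, h3, ← hc, ← h4]
  simp

theorem exists_eqv_right_trivial (hA : SmoothMod 𝒪 A) (hPU : P ≤ U)
    {f : G × G → A} (hf : IsZ2 𝒪 U f) (hfP : Cob₂ 𝒪 P f) :
    ∃ f' : G × G → A, Eqv 𝒪 U f f' ∧ IsZ2 𝒪 U f' ∧ ∀ g ∈ U, ∀ v ∈ P, f' (g, v) = 1 := by
  classical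
  have hU : 𝒪.isOpen U := hf.sm.isOpen
  have hP : 𝒪.isOpen P := hfP.isOpen
  obtain ⟨β, hβ, hβf⟩ := hfP
  have hβ₁ : Sm₁ 𝒪 U (fun g => if g ∈ P then β g else 1) := hβ.extend hU hPU 1
  set β₁ : G → A := fun g => if g ∈ P then β g else 1 with hβ₁def
  have he1 : Eqv 𝒪 U f (f / dOne β₁) := Eqv.div_dOne hβ₁ f
  have hz1 : IsZ2 𝒪 U (f / dOne β₁) := he1.isZ2 hA hf
  have h1 : ∀ v ∈ P, ∀ w ∈ P, (f / dOne β₁) (v, w) = 1 := by
    intro v hv w hw
    rw [Pi.div_apply, ← hβf v hv w hw, dOne_apply, dOne_apply]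
    simp only [hβ₁def, if_pos hv, if_pos hw, if_pos (P.mul_mem hv hw)]
    exact div_self' _
  obtain ⟨β₂, hβ₂, h2⟩ := Transfer_step2 hP hPU hz1 h1
  have he2 : Eqv 𝒪 U (f / dOne β₁) (f / dOne β₁ * dOne β₂) := Eqv.mul_dOne hβ₂ _
  exact ⟨_, he1.trans he2, he2.isZ2 hA hz1, h2⟩

theorem right_invariant (hPU : P ≤ U) {f : G × G → A} (hf : Coc₂ U f)
    (h1 : ∀ g ∈ U, ∀ v ∈ P, f (g, v) = 1) :
    ∀ g ∈ U, ∀ h ∈ U, ∀ v ∈ P, f (g, h * v) = f (g, h) := by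
  intro g hg h hh v hv
  have hc := hf g hg h hh v (hPU hv)
  rw [h1 _ (U.mul_mem hg hh) v hv, h1 h hh v hv, smul_one, one_mul, one_mul] at hc
  exact hc.symm

/-- the transfer argument for a normalised cocycle. -/
theorem Transfer_cob_pow (hP : 𝒪.isOpen P)
    {f : G × G → A} (hf : IsZ2 𝒪 U f)
    (hinv : ∀ g ∈ U, ∀ h ∈ U, ∀ v ∈ P, f (g, h * v) = f (g, h)) :
    Cob₂ 𝒪 U (f ^ P.relIndex U) := by
  classical
  have hfi : P.FiniteIndex := 𝒪.finiteIndex hP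
  have hfin : Finite (↥U ⧸ P.subgroupOf U) := by
    apply Subgroup.finite_quotient_of_finiteIndex
  have : Fintype (↥U ⧸ P.subgroupOf U) := Fintype.ofFinite _
  set γ : G → A := fun g => ∏ q : ↥U ⧸ P.subgroupOf U, f (g, ((q.out : ↥U) : G)) with hγ
  -- value at a representative
  have hout : ∀ g ∈ U, ∀ j : ↥U,
      f (g, (((QuotientGroup.mk j : ↥U ⧸ P.subgroupOf U).out : ↥U) : G)) = f (g, (j : G)) := by
    intro g hg j
    obtain ⟨v, hv⟩ := QuotientGroup.mk_out_eq_mul (P.subgroupOf U) j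
    rw [hv, Subgroup.coe_mul]
    exact hinv g hg j j.2 _ (Subgroup.mem_subgroupOf.1 v.2)
  have hγsm : Sm₁ 𝒪 U γ := by
    obtain ⟨N, hN, hNU, hNf⟩ := hf.sm
    refine ⟨N, hN, hNU, ?_⟩
    intro g hg s hs
    simp only [hγ]
    refine Finset.prod_congr rfl fun q _ => ?_
    have := hNf g hg _ (q.out : ↥U).2 s hs 1 N.one_mem
    rwa [mul_one] at this
  refine ⟨γ, hγsm, ?_⟩
  intro g hg h hh
  -- reindexing
  have hre : ∏ q : ↥U ⧸ P.subgroupOf U, f (g, h * ((q.out : ↥U) : G)) = γ g := by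
    simp only [hγ]
    rw [← Equiv.prod_comp (MulAction.toPerm (⟨h, hh⟩ : ↥U) : Equiv.Perm (↥U ⧸ P.subgroupOf U))
      (fun q : ↥U ⧸ P.subgroupOf U => f (g, ((q.out : ↥U) : G)))]
    refine Finset.prod_congr rfl fun q _ => ?_
    have hq : (MulAction.toPerm (⟨h, hh⟩ : ↥U) : Equiv.Perm (↥U ⧸ P.subgroupOf U)) q
        = QuotientGroup.mk ((⟨h, hh⟩ : ↥U) * q.out) := by
      rw [MulAction.toPerm_apply]
      conv_lhs => rw [← QuotientGroup.out_eq' q]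
      rfl
    rw [hq, hout g hg]
    rfl
  have hprod : γ (g * h) * f (g, h) ^ P.relIndex U = g • γ h * γ g := by
    rw [← hre]
    simp only [hγ]
    rw [Finset.smul_prod', ← Finset.prod_mul_distrib]
    have hcard : P.relIndex U = (Finset.univ : Finset (↥U ⧸ P.subgroupOf U)).card := by
      rw [Finset.card_univ, ← Nat.card_eq_fintype_card]
      rfl
    rw [hcard, ← Finset.prod_const, ← Finset.prod_mul_distrib]
    exact Finset.prod_congr rfl fun q _ => hf.coc g hg h hh _ (q.out : ↥U).2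
  rw [dOne_apply, Pi.pow_apply, div_mul_eq_mul_div, div_eq_iff_eq_mul, ← hprod, mul_comm]

/-- `cores ∘ res = index`, in the only form we need. -/
theorem cob_pow_relIndex (hA : SmoothMod 𝒪 A) (hPU : P ≤ U)
    {f : G × G → A} (hf : IsZ2 𝒪 U f) (hfP : Cob₂ 𝒪 P f) :
    Cob₂ 𝒪 U (f ^ P.relIndex U) := by
  obtain ⟨f', he, hz, h1⟩ := exists_eqv_right_trivial hA hPU hf hfP
  exact (he.pow _).cob_iff.2
    (Transfer_cob_pow hfP.isOpen hz (right_invariant hPU hz.coc h1))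

/-- (HQ5) in smooth form. -/
theorem cob_of_coprime_index (hA : SmoothMod 𝒪 A) (hPU : P ≤ U) {p : ℕ}
    (hp : Nat.Coprime (P.relIndex U) p)
    {f : G × G → A} (hf : IsZ2 𝒪 U f) (hfP : Cob₂ 𝒪 P f) (hfp : Cob₂ 𝒪 U (f ^ p)) :
    Cob₂ 𝒪 U f :=
  Cob₂.of_pow_coprime (cob_pow_relIndex hA hPU hf hfP) hfp hp

end Fermat.Agent.S55.LDB
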