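/-
S55 / LDB : inflation-restriction in degree 2, smooth cochains, explicit (abstract layer).

PROOF of `exists_eqv_inflated`.  By `exists_eqv_right_trivial` (with `P = V`) we may assume
`f(g,v) = 1` for `g ∈ U`, `v ∈ V`; then `f(g,hv) = f(g,h)` (`right_invariant`).
For `h ∈ U` put `θ_h(v) := f(v,h)`.  The cocycle identity for `(v,w,h)` and `w h = h (h⁻¹ w h)` give
`θ_h(vw) = v•θ_h(w) * θ_h(v)`: a smooth 1-cocycle on `V`, so `θ_h(v) = v•a_h / a_h` by `H90`.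
`θ_h` only depends on the coset `hV`; choose `a_h` depending only on `hV`, and `a_h = 1` for `h ∈ V`
(there `θ_h = 1`).  `γ(h) := a_h` is smooth (level `V`), `(dγ)(v,h) = f(v,h)`, `(dγ)(g,v) = 1`.
So `f' := f / dOne γ` satisfies `f'(v,h) = 1 = f'(g,v)`.  Then: `(g,v,h)` gives `f'(gv,h) = f'(g,vh) =
f'(g,h)`; `(v,g,h)` gives `f'(vg,h) = v • f'(g,h)` and `vg = g (g⁻¹ v g)`.
-/
import Fermat.Agent.S55.LDB.Transfer

set_option autoImplicit false
set_option linter.unusedSectionVars false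

namespace Fermat.Agent.S55.LDB

variable {G : Type*} [Group G] {𝒪 : OpenFam G}
variable {A : Type*} [CommGroup A] [MulDistribMulAction G A] {U V : Subgroup G}

/-- `f` is inflated from `U/V` (with values in `A^V`). -/
def Inflated (U V : Subgroup G) (f : G × G → A) : Prop :=
  (∀ g ∈ U, ∀ h ∈ U, ∀ v ∈ V, ∀ w ∈ V, f (g * v, h * w) = f (g, h)) ∧
    ∀ g ∈ U, ∀ h ∈ U, Fix V (f (g, h))

lemma InfRes_conj_mem (hVU : NormalIn V U) {h v : G} (hh : h ∈ U) (hv : v ∈ V) :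
    h⁻¹ * v * h ∈ V := by
  have := hVU.2 h⁻¹ (U.inv_mem hh) v hv
  rwa [inv_inv] at this

lemma InfRes_mul_comm_conj (h v : G) : v * h = h * (h⁻¹ * v * h) := by
  group

/-- a cocycle which is trivial as soon as one argument lies in `V` is inflated. -/
lemma InfRes_inflated_of_trivial (hVU : NormalIn V U) {f : G × G → A} (hf : Coc₂ U f)
    (h1 : ∀ g ∈ U, ∀ v ∈ V, f (g, v) = 1) (h2 : ∀ v ∈ V, ∀ h ∈ U, f (v, h) = 1) :
    Inflated U V f := by
  have hR := right_invariant hVU.1 hf h1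
  have hL : ∀ g ∈ U, ∀ h ∈ U, ∀ v ∈ V, f (g * v, h) = f (g, h) := by
    intro g hg h hh v hv
    have hc := hf g hg v (hVU.1 hv) h hh
    rw [h1 g hg v hv, h2 v hv h hh, smul_one, mul_one, one_mul, InfRes_mul_comm_conj h v,
      hR g hg h hh _ (InfRes_conj_mem hVU hh hv)] at hc
    exact hc
  refine ⟨?_, ?_⟩
  · intro g hg h hh v hv w hw
    rw [hL g hg (h * w) (U.mul_mem hh (hVU.1 hw)) v hv, hR g hg h hh w hw]
  · intro g hg h hh v hv
    have hc := hf v (hVU.1 hv) g hg h hh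
    rw [h2 v hv g hg, h2 v hv (g * h) (U.mul_mem hg hh), mul_one, mul_one,
      InfRes_mul_comm_conj g v, hL g hg h hh _ (InfRes_conj_mem hVU hg hv)] at hc
    exact hc.symm

theorem exists_eqv_inflated (hA : SmoothMod 𝒪 A) (hVU : NormalIn V U) (h90 : H90 𝒪 A V)
    {f : G × G → A} (hf : IsZ2 𝒪 U f) (hfV : Cob₂ 𝒪 V f) :
    ∃ f' : G × G → A, Eqv 𝒪 U f f' ∧ IsZ2 𝒪 U f' ∧ Inflated U V f' ∧ f' (1, 1) = 1 := by
  classical
  have hVo : 𝒪.isOpen V := hfV.isOpen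
  obtain ⟨f₁, hff₁, hf₁, h1⟩ := exists_eqv_right_trivial hA hVU.1 hf hfV
  have hR := right_invariant hVU.1 hf₁.coc h1
  -- Hilbert 90 for `θ_h`
  have hθ : ∀ h : G, ∃ a : A, h ∈ U → ∀ v ∈ V, f₁ (v, h) = v • a / a := by
    intro h
    by_cases hh : h ∈ U
    · have hsm : Sm₁ 𝒪 V (fun x => f₁ (x, h)) := (hf₁.sm.left hh).mono hVo hVU.1
      have hcoc : Coc₁ V (fun x => f₁ (x, h)) := by
        intro v hv w hw
        have hc := hf₁.coc v (hVU.1 hv) w (hVU.1 hw) h hh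
        rw [h1 v (hVU.1 hv) w hw, mul_one, InfRes_mul_comm_conj h w,
          hR v (hVU.1 hv) h hh _ (InfRes_conj_mem hVU hh hw)] at hc
        exact hc
      obtain ⟨a, ha⟩ := h90 _ hsm hcoc
      exact ⟨a, fun _ => ha⟩
    · exact ⟨1, fun h' => absurd h' hh⟩
  choose a₀ ha₀ using hθ
  let t : G → G := fun h => (QuotientGroup.mk h : G ⧸ V).out
  have ht : ∀ h : G, ∃ w ∈ V, t h = h * w := by
    intro h
    obtain ⟨w, hw⟩ := QuotientGroup.mk_out_eq_mul V h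
    exact ⟨w, w.2, hw⟩
  have htV : ∀ h v : G, v ∈ V → t (h * v) = t h := by
    intro h v hv
    have : (QuotientGroup.mk (h * v) : G ⧸ V) = QuotientGroup.mk h :=
      QuotientGroup.mk_mul_of_mem h hv
    simp only [t, this]
  let γ : G → A := fun h => if h ∈ V then 1 else a₀ (t h)
  have hγV : ∀ v ∈ V, γ v = 1 := fun v hv => if_pos hv
  have hγR : ∀ h : G, ∀ v ∈ V, γ (h * v) = γ h := by
    intro h v hv
    have hiff : h * v ∈ V ↔ h ∈ V := V.mul_mem_cancel_right hv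
    simp only [γ, hiff, htV h v hv]
  have hγ : ∀ h ∈ U, ∀ v ∈ V, f₁ (v, h) = v • γ h / γ h := by
    intro h hh v hv
    by_cases hhV : h ∈ V
    · rw [hγV h hhV, h1 v (hVU.1 hv) h hhV, smul_one, div_one]
    · obtain ⟨w, hw, htw⟩ := ht h
      have hγh : γ h = a₀ (t h) := if_neg hhV
      have htU : t h ∈ U := by rw [htw]; exact U.mul_mem hh (hVU.1 hw)
      rw [hγh, ← ha₀ (t h) htU v hv, htw, hR v (hVU.1 hv) h hh w hw]
  have hγsm : Sm₁ 𝒪 U γ := Sm₁.of_coset hVo hVU.1 (fun g _ v hv => hγR g v hv)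
  refine ⟨f₁ / dOne γ, hff₁.trans (Eqv.div_dOne hγsm f₁), hf₁.div (IsZ2.dOne hA hγsm), ?_, ?_⟩
  · apply InfRes_inflated_of_trivial hVU (hf₁.coc.div (coc₂_dOne γ U))
    · intro g hg v hv
      rw [Pi.div_apply, h1 g hg v hv, dOne_apply, hγV v hv, hγR g v hv, smul_one]
      simp
    · intro v hv h hh
      rw [Pi.div_apply, dOne_apply, hγV v hv, InfRes_mul_comm_conj h v,
        hγR h _ (InfRes_conj_mem hVU hh hv), mul_one, hγ h hh v hv, div_self']
  · rw [Pi.div_apply, h1 1 U.one_mem 1 V.one_mem, dOne_apply, mul_one, hγV 1 V.one_mem, smul_one]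
    simp

end Fermat.Agent.S55.LDB
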